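/-
Project S56, node [LOC-p-FLAT], cell F-ORD (the ORDINARY = reducible case; owner helper1).
Prefix `s56fo_`.  THE VOCABULARY AND THE TWO ABSTRACT SEAMS OF THE ARITHMETIC SIDE.

Setting (`MZ/Hopf`): `hctx : mzo_Ctx p O L A Γ` (`Γ` = inertia at `p`, `O = A ∩ L^Γ`, `e = 1`),
`ζ ∈ L` a primitive `p`-th root of unity, `ω : Γ → ZMod p` the mod `p` cyclotomic character
(`s • ζ = ζ ^ (ω s).val`).

* `s56fo_Peu O p ζ a` : the function `a : Γ → ZMod p` (an `ω`-cocycle on `Γ`) is PEU RAMIFIE: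
  there is a Kummer radical `β ≠ 0` ON ALL OF `Γ` (`s • β = ζ ^ (a s).val * β`) with
  `β ^ p = 1 + p x`, `x ∈ O`.  (`x mod p` is the LEADING COEFFICIENT.)
* `s56fo_PeuOrder_stmt` (cell FO-PEU): the cocycle of an extension of `ℤ/p` by `μ_p` which has an
  ORDER (`mzo_IsOrder`) is peu ramifie.
* `s56fo_LangDep_stmt` (cell FO-LAM): two peu ramifie `k`-valued `ω`-cocycles on `Γ` which are
  eigenvectors of a Frobenius (same eigenvalue) are `k`-dependent modulo coboundaries.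
-/
import Mathlib
import Fermat.Agent.MZ.Hopf.Defs

set_option autoImplicit false

noncomputable section

namespace Fermat.Agent.S56

open Fermat.Agent.MZ

/-- **peu ramifie**: a Kummer radical on all of `Γ` whose `p`-th power is `1 + p x`, `x ∈ O`. -/
def s56fo_Peu (O : Type) [CommRing O] {L : Type} [Field L] [Algebra O L]
    {Γ : Type} [Group Γ] [MulSemiringAction Γ L] (p : ℕ) (ζ : L) (a : Γ → ZMod p) : Prop :=
  ∃ (β : L) (x : O), β ≠ 0 ∧ (∀ s : Γ, s • β = ζ ^ (a s).val * β) ∧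
    β ^ p = 1 + (p : L) * algebraMap O L x

/-- **cell FO-PEU** (abstract): `G = ⟨e, Q⟩` of order `p²`, `Γ` acting by `s e = ω(s) e`,
`s Q = Q + a(s) e`, `ω` non-trivial; if `G` has an order, the cocycle `a` is peu ramifie.

Proof sketch: Hilbert 90 (`S55/Trans/LocH90.lean : tl_h90_of_finiteIndex`, `U` := the kernel of
the action on `G`, `K := L^U`) gives `β ≠ 0` with `s • β = ζ ^ (a s).val * β`; `u := β ^ p` is
`Γ`-fixed so `v u = v p ^ i`, `i : ℤ` (`s56fm_val_fixed`, Flat/Mono.lean).  If `p ∤ i`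
(after `β ↦ β * p ^ N`, `i ≥ 0`): `S := Stab Q = Stab β`, `R` a finite transversal,
`p • δ₀ ∈ H` (`s56fd_sq`, Flat/LD.lean), `(hN)` from `s56fe_main_mono` (Flat/Efn.lean, `θ := β`),
`y` from `s56kt_T5_peu` (KumT/Ctx.lean) and `s56f_df_main` (Flat/Diff.lean, `n = p`, `lam = p`)
give `p * p * y² ∈ A`, contradicting `p² y² ∉ A`.  So `p ∣ i`: `u = p^(p i') * u₁`, `u₁ ∈ O^×`,
`u₁ = y^p + p x₁` (`hperf`), and `β / (p^i' y)` is the radical wanted. -/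
def s56fo_PeuOrder_stmt : Prop :=
  ∀ (p : ℕ) (O : Type) [CommRing O] [IsDomain O] [IsDiscreteValuationRing O]
    (L : Type) [Field L] [Algebra O L] (A : ValuationSubring L)
    (Γ : Type) [Group Γ] [MulSemiringAction Γ L],
    mzo_Ctx p O L A Γ → p ≠ 2 →
    (∀ n : ℕ, n ≠ 0 → ∃ ζ : L, IsPrimitiveRoot ζ n) →
    (∀ x : O, ∃ y : O, algebraMap O L (y ^ p - x) ∈ A.nonunits) →
    ∀ ζ : L, IsPrimitiveRoot ζ p →
    ∀ (G : Type) [AddCommGroup G] [DistribMulAction Γ G] [Finite G]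
      (H : Subalgebra O (G → L)), mzo_IsOrder A Γ G H → Nat.card G = p ^ 2 →
      (∀ x : G, p • x = 0) →
    ∀ (ω a : Γ → ZMod p) (e Q : G),
      (∀ s : Γ, s • ζ = ζ ^ (ω s).val) → (∃ s : Γ, ω s ≠ 1) →
      e ≠ 0 → (∀ s : Γ, s • e = (ω s).val • e) → (∀ s : Γ, s • Q = Q + (a s).val • e) →
      (∀ n : ℕ, Q ≠ n • e) →
      s56fo_Peu O p ζ a

/-- **cell FO-LAM** (abstract): `Φ` a Frobenius (`Φ y ≡ y ^ p mod 𝔪_A` on `A`) normalising `Γ`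
through `c : Γ ≃* Γ` (`Φ (σ • y) = c σ • Φ y`); `k` a finite field embedded in the residue field
of `O`; `ν, ν' : Γ → k` two `ω`-cocycles on `Γ`, eigenvectors of the Frobenius on `ker ω`
(`ν (c s) = ψφ * ν s` when `ω s = 1`) such that `ℓ ∘ ν` is peu ramifie for every `𝔽_p`-linear
`ℓ : k → 𝔽_p`.  Then `ν, ν'` are `k`-dependent modulo the coboundaries `(ω - 1) x₀`.

Proof sketch: `𝔑` := the `k`-space of such `ν`, `𝔎 ⊆ 𝔑` the coboundaries (= the `ν` vanishing on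
`ker ω`), `𝔅 := 𝔑 / 𝔎`, `Λ (ν, ℓ) := x mod 𝔪_O` for a peu-ramifie datum `(β, x)` of `ℓ ∘ ν`;
well defined (`z := β / β' ∈ L^Γ`, `z ^ p ≡ 1 mod p` ⟹ `z ≡ 1 mod p` ⟹ `z ^ p ≡ 1 mod p²`),
additive in both variables (`(β β', x + x' + p x x')`), zero on coboundaries (`β = ζ ^ c`),
injective (`x ∈ 𝔪` ⟹ `β ^ p ≡ 1 mod p²` ⟹ some `β ζ^(-i)` is closer to `1` than `ζ` ⟹ fixed by
`ker ω`), Frobenius: `(Φ β, x')` is a datum for `s ↦ ωφ * ℓ (ν (c⁻¹ s))`, which agrees on `ker ω`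
with `ℓ ∘ (c₀ ν)`, `c₀ := ωφ ψφ⁻¹`, hence `Λ (c₀ ν, ℓ) = Λ (ν, ℓ) ^ p`.  Then F-LANG
(`s56fc_lang`, Flat/Lang.lean; `m = 1`, `η = 1`, `g = 1`, `ξ = 1`). -/
def s56fo_LangDep_stmt : Prop :=
  ∀ (p : ℕ) [Fact p.Prime] (O : Type) [CommRing O] [IsDomain O] [IsDiscreteValuationRing O]
    (L : Type) [Field L] [Algebra O L] (A : ValuationSubring L)
    (Γ : Type) [Group Γ] [MulSemiringAction Γ L],
    mzo_Ctx p O L A Γ → p ≠ 2 →
    ∀ ζ : L, IsPrimitiveRoot ζ p →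
    ∀ ω : Γ → ZMod p, (∀ s : Γ, s • ζ = ζ ^ (ω s).val) → (∃ s : Γ, ω s ≠ 1) →
    ∀ (Φ : L ≃+* L) (c : Γ ≃* Γ), (∀ y : L, y ∈ A ↔ Φ y ∈ A) →
      (∀ y : L, y ∈ A → Φ y - y ^ p ∈ A.nonunits) →
      (∀ (σ : Γ) (y : L), Φ (σ • y) = c σ • Φ y) →
    ∀ (k : Type) [Field k] [Fintype k] [Algebra (ZMod p) k]
      (_ι₀ : k →+* IsLocalRing.ResidueField O) (ψφ : k), ψφ ≠ 0 →
    ∀ ν ν' : Γ → k,
      (∀ s t : Γ, ν (s * t) = ν s + algebraMap (ZMod p) k (ω s) * ν t) →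
      (∀ s t : Γ, ν' (s * t) = ν' s + algebraMap (ZMod p) k (ω s) * ν' t) →
      (∀ s : Γ, ω s = 1 → ν (c s) = ψφ * ν s) →
      (∀ s : Γ, ω s = 1 → ν' (c s) = ψφ * ν' s) →
      (∀ ℓ : k →ₗ[ZMod p] ZMod p, s56fo_Peu O p ζ (fun s => ℓ (ν s))) →
      (∀ ℓ : k →ₗ[ZMod p] ZMod p, s56fo_Peu O p ζ (fun s => ℓ (ν' s))) →
      ∃ κ κ' x₀ : k, (κ ≠ 0 ∨ κ' ≠ 0) ∧
        ∀ s : Γ, κ * ν s + κ' * ν' s = (algebraMap (ZMod p) k (ω s) - 1) * x₀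

end Fermat.Agent.S56
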