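/-
Project S56, node [LOC-p-FLAT], cell F-ORD / FO-LAM (helper17).  Prefix `s56fol_`.
PEU-RAMIFIE DATA: `(β, x)` with `s • β = ζ ^ a(s) β`, `β ^ p = 1 + p x`.
* `s56fol_datum_mul`  : data multiply, `x'' = x + x' + p x x'`;
* `s56fol_datum_cob`  : the coboundary `(ω - 1) t` has the datum `(ζ ^ t, 0)`;
* `s56fol_datum_uniq` : `x mod p` only depends on `a`;
* `s56fol_datum_inj`  : `p ∣ x` ⟹ `a = 0` on `ker ω`;
* `s56fol_datum_frob` : transport along a Frobenius `Φ` normalising `Γ`.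
Mathlib + `MZ/Hopf/Ctx` + `S56/Flat/{Near,Setting}` + `S56/Kum/Cyclo` + `S56/Flat/Ord/Defs`.
-/
import Mathlib
import Fermat.Agent.MZ.Hopf.Ctx
import Fermat.Agent.S56.Flat.Near
import Fermat.Agent.S56.Flat.Setting
import Fermat.Agent.S56.Kum.Cyclo
import Fermat.Agent.S56.Flat.Ord.Defs

set_option autoImplicit false
set_option linter.unusedSectionVars false

noncomputable section

namespace Fermat.Agent.S56

open Fermat.Agent.MZ

section Datum

variable {p : ℕ} [hp : Fact p.Prime] {O : Type} [CommRing O] [IsDomain O]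
  [IsDiscreteValuationRing O] {L : Type} [Field L] [Algebra O L] {A : ValuationSubring L}
  {Γ : Type} [Group Γ] [MulSemiringAction Γ L]

/-- `(β, x)` is a peu-ramifie datum of `a` -/
def s56fol_IsDatum (O : Type) [CommRing O] {L : Type} [Field L] [Algebra O L]
    {Γ : Type} [Group Γ] [MulSemiringAction Γ L] (p : ℕ) (ζ : L) (a : Γ → ZMod p) (β : L)
    (x : O) : Prop :=
  β ≠ 0 ∧ (∀ s : Γ, s • β = ζ ^ (a s).val * β) ∧ β ^ p = 1 + (p : L) * algebraMap O L x

theorem s56fol_peu_iff (ζ : L) (a : Γ → ZMod p) :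
    s56fo_Peu O p ζ a ↔ ∃ (β : L) (x : O), s56fol_IsDatum O p ζ a β x := Iff.rfl

/-- data multiply -/
theorem s56fol_datum_mul {ζ : L} (hζ : ζ ^ p = 1) {a a' : Γ → ZMod p} {β β' : L} {x x' : O}
    (h : s56fol_IsDatum O p ζ a β x) (h' : s56fol_IsDatum O p ζ a' β' x') :
    s56fol_IsDatum O p ζ (fun s => a s + a' s) (β * β') (x + x' + (p : O) * x * x') := by
  refine ⟨mul_ne_zero h.1 h'.1, fun s => ?_, ?_⟩
  · have := s56k_E_add hζ (a s) (a' s)
    rw [s56k_E, s56k_E, s56k_E] at this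
    rw [smul_mul', h.2.1, h'.2.1, this]
    ring
  · rw [mul_pow, h.2.2, h'.2.2]
    simp only [map_add, map_mul, map_natCast]
    ring

/-- the datum of a coboundary -/
theorem s56fol_datum_cob {ζ : L} (hζ : ζ ^ p = 1) {ω : Γ → ZMod p}
    (hω : ∀ s : Γ, s • ζ = ζ ^ (ω s).val) (t : ZMod p) :
    s56fol_IsDatum O p ζ (fun s => (ω s - 1) * t) (ζ ^ t.val) 0 := by
  refine ⟨s56k_E_ne_zero hζ t, fun s => ?_, ?_⟩
  · rw [smul_pow', hω]
    have h1 : (ζ ^ (ω s).val) ^ t.val = s56k_E ζ (ω s * t) := (s56k_E_mul hζ (ω s) t).symm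
    have h2 : ω s * t = (ω s - 1) * t + t := by ring
    rw [h1, h2, s56k_E_add hζ]
    rfl
  · rw [map_zero, mul_zero, add_zero]
    exact s56k_E_pow_p hζ t

/-- the trivial datum -/
theorem s56fol_datum_zero (ζ : L) : s56fol_IsDatum O p ζ (fun _ : Γ => 0) 1 0 := by
  refine ⟨one_ne_zero, fun s => ?_, ?_⟩
  · rw [smul_one, ZMod.val_zero, pow_zero, one_mul]
  · rw [one_pow, map_zero, mul_zero, add_zero]

/-- congruence of the character -/
theorem s56fol_datum_congr {ζ : L} {a a' : Γ → ZMod p} {β : L} {x : O}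
    (h : s56fol_IsDatum O p ζ a β x) (haa : ∀ s, a s = a' s) : s56fol_IsDatum O p ζ a' β x :=
  ⟨h.1, fun s => by rw [← haa]; exact h.2.1 s, h.2.2⟩

end Datum

section Residue

variable {p : ℕ} [hp : Fact p.Prime] {O : Type} [CommRing O] [IsDomain O]
  [IsDiscreteValuationRing O] {L : Type} [Field L] [Algebra O L] {A : ValuationSubring L}
  {Γ : Type} [Group Γ] [MulSemiringAction Γ L]

theorem s56fol_residue_p (hctx : mzo_Ctx p O L A Γ) :
    ((p : ℕ) : IsLocalRing.ResidueField O) = 0 := by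
  rw [← map_natCast (IsLocalRing.residue O), IsLocalRing.residue_eq_zero_iff,
    IsLocalRing.mem_maximalIdeal]
  exact hctx.r_not_unit

/-- the residue field of `O` has characteristic `p` -/
theorem s56fol_charP (hctx : mzo_Ctx p O L A Γ) : CharP (IsLocalRing.ResidueField O) p := by
  obtain ⟨q, hq⟩ := CharP.exists (IsLocalRing.ResidueField O)
  have h1 : q ∣ p := (CharP.cast_eq_zero_iff (IsLocalRing.ResidueField O) q p).1
    (s56fol_residue_p hctx)
  rcases (Nat.dvd_prime hp.out).1 h1 with h2 | h2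
  · exact absurd h2 (CharP.char_ne_one (IsLocalRing.ResidueField O) q)
  · rw [← h2]
    exact hq

/-- `residue x = residue x'` iff `p ∣ x - x'` -/
theorem s56fol_residue_eq_iff (hctx : mzo_Ctx p O L A Γ) (x x' : O) :
    IsLocalRing.residue O x = IsLocalRing.residue O x' ↔ (p : O) ∣ x - x' := by
  rw [← sub_eq_zero, ← map_sub, IsLocalRing.residue_eq_zero_iff, hctx.maximalIdeal_eq,
    Ideal.mem_span_singleton]

/-- `v (1 + p y) = 1` -/
theorem s56fol_val_one_add (hctx : mzo_Ctx p O L A Γ) (y : O) :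
    A.valuation (1 + (p : L) * algebraMap O L y) = 1 := by
  have : A.valuation ((p : L) * algebraMap O L y) < 1 := by
    rw [← A.mem_nonunits_iff, mul_comm]
    exact s56fg_mul_mem_nonunits A (hctx.mem_A y) hctx.r_mem
  exact Valuation.map_one_add_of_lt _ this

theorem s56fol_one_add_ne_zero (hctx : mzo_Ctx p O L A Γ) (y : O) :
    1 + (p : L) * algebraMap O L y ≠ 0 := by
  intro h0
  have := s56fol_val_one_add hctx y
  rw [h0, map_zero] at this
  exact zero_ne_one this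

/-- **uniqueness** of the leading coefficient modulo `p` -/
theorem s56fol_datum_uniq (hctx : mzo_Ctx p O L A Γ) {ζ : L} (hζ : ζ ^ p = 1)
    {a : Γ → ZMod p} {β β' : L} {x x' : O} (h : s56fol_IsDatum O p ζ a β x)
    (h' : s56fol_IsDatum O p ζ a β' x') : (p : O) ∣ x - x' := by
  set z := β / β' with hz
  have hzfix : ∀ s : Γ, s • z = z := by
    intro s
    have hE : ζ ^ (a s).val ≠ 0 := s56k_E_ne_zero hζ (a s)
    rw [hz, div_eq_mul_inv, smul_mul', smul_inv'', h.2.1, h'.2.1, mul_inv, mul_mul_mul_comm,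
      mul_inv_cancel₀ hE, one_mul]
  have hzp : z ^ p = (1 + (p : L) * algebraMap O L x) / (1 + (p : L) * algebraMap O L x') := by
    rw [hz, div_pow, h.2.2, h'.2.2]
  have hvz : A.valuation z = 1 := by
    have : A.valuation z ^ p = 1 := by
      rw [← map_pow, hzp, map_div₀, s56fol_val_one_add hctx, s56fol_val_one_add hctx, div_one]
    exact (pow_eq_one_iff.1 this).resolve_right hp.out.ne_zero
  have hzA : z ∈ A := by rw [← A.valuation_le_one_iff, hvz]
  obtain ⟨o, ho⟩ := hctx.exists_of_fixed hzA hzfix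
  have h1 : o ^ p * (1 + (p : O) * x') = 1 + (p : O) * x := by
    apply hctx.inj
    simp only [map_mul, map_pow, map_add, map_one, map_natCast, ho]
    rw [hzp, div_mul_cancel₀ _ (s56fol_one_add_ne_zero hctx x')]
  -- `o ≡ 1 mod p`
  have h2 : (p : O) ∣ o - 1 := by
    have := s56fol_charP hctx
    have hres : IsLocalRing.residue O o ^ p = 1 := by
      have := congrArg (IsLocalRing.residue O) h1
      simp only [map_mul, map_pow, map_add, map_one, map_natCast, s56fol_residue_p hctx,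
        zero_mul, add_zero, mul_one] at this
      exact this
    have h3 : (IsLocalRing.residue O o - 1) ^ p = 0 := by
      rw [sub_pow_char, hres, one_pow, sub_self]
    have h4 : IsLocalRing.residue O o = IsLocalRing.residue O 1 := by
      rw [map_one]
      exact sub_eq_zero.1 (pow_eq_zero_iff hp.out.ne_zero |>.1 h3)
    exact (s56fol_residue_eq_iff hctx o 1).1 h4
  -- `o ^ p ≡ 1 mod p²`
  have h5 : (p : O) ^ (1 + 1) ∣ o ^ p ^ 1 - 1 ^ p ^ 1 := dvd_sub_pow_of_dvd_sub h2 1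
  rw [pow_one, one_pow] at h5
  obtain ⟨w, hw⟩ := h5
  have h6 : o ^ p = 1 + (p : O) ^ (1 + 1) * w := by rw [← hw]; ring
  rw [h6] at h1
  refine ⟨w * (1 + (p : O) * x'), ?_⟩
  have hp0 : (p : O) ≠ 0 := hctx.r_ne_zero
  apply mul_left_cancel₀ hp0
  have h7 : (p : O) * x = (p : O) * x' + (p : O) ^ (1 + 1) * w * (1 + (p : O) * x') := by
    have := h1
    linear_combination (-1 : O) * this
  rw [mul_sub, h7]
  ring

end Residue

section Inj

variable {p : ℕ} [hp : Fact p.Prime] {O : Type} [CommRing O] [IsDomain O]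
  [IsDiscreteValuationRing O] {L : Type} [Field L] [Algebra O L] {A : ValuationSubring L}
  {Γ : Type} [Group Γ] [MulSemiringAction Γ L]

open Polynomial in
/-- **injectivity**: a datum with `p ∣ x` has a character vanishing on `ker ω` -/
theorem s56fol_datum_inj (hctx : mzo_Ctx p O L A Γ) (hp2 : p ≠ 2) {ζ : L}
    (hζ : IsPrimitiveRoot ζ p) {ω : Γ → ZMod p} (hω : ∀ s : Γ, s • ζ = ζ ^ (ω s).val)
    {a : Γ → ZMod p} {β : L} {x : O} (h : s56fol_IsDatum O p ζ a β x) (hx : (p : O) ∣ x) :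
    ∀ s : Γ, ω s = 1 → a s = 0 := by
  intro s hs
  by_contra has
  have hpp := hp.out
  have hζ1 : ζ ^ p = 1 := hζ.pow_eq_one
  set lam₀ := A.valuation (1 - ζ) with hlam₀
  have hlpow : lam₀ ^ (p - 1) = A.valuation (p : L) := s56fg_val_one_sub_zeta hpp hζ
  have hvp : A.valuation (p : L) < 1 := A.mem_nonunits_iff.1 hctx.r_mem
  have hvp0 : A.valuation (p : L) ≠ 0 := (_root_.map_ne_zero _).2 hctx.r_ne
  have hp1 : 1 < p - 1 := by
    have := hpp.two_le
    omega
  have hl0 : lam₀ ≠ 0 := by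
    intro h0
    rw [h0, zero_pow (by omega)] at hlpow
    exact hvp0 hlpow.symm
  have hllt : lam₀ < 1 := by
    by_contra hge
    rw [not_lt] at hge
    have : 1 ≤ lam₀ ^ (p - 1) := one_le_pow₀ hge
    rw [hlpow] at this
    exact absurd hvp (not_lt.2 this)
  have hvpl : A.valuation (p : L) < lam₀ := by
    rw [← hlpow]
    exact pow_lt_self_of_lt_one₀ (zero_lt_iff.2 hl0) hllt hp1
  -- `β ^ p - 1 = p² x₁`
  obtain ⟨x₁, rfl⟩ := hx
  have hβp : β ^ p - 1 = (p : L) ^ 2 * algebraMap O L x₁ := by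
    rw [h.2.2, map_mul, map_natCast]
    ring
  have hvβp : A.valuation (β ^ p - 1) ≤ A.valuation (p : L) ^ 2 := by
    rw [hβp, map_mul, map_pow]
    exact mul_le_of_le_one_right' ((A.valuation_le_one_iff _).2 (hctx.mem_A x₁))
  have hprod : β ^ p - 1 = ∏ μ ∈ nthRootsFinset p (1 : L), (β - μ) := by
    have := hζ.pow_sub_pow_eq_prod_sub_mul β 1 hpp.pos
    simpa only [one_pow, mul_one] using this
  -- some root of unity is close to `β`
  have hclose : ∃ μ ∈ nthRootsFinset p (1 : L), A.valuation (β - μ) < lam₀ := by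
    by_contra hno
    simp only [not_exists, not_and, not_lt] at hno
    have h1 := Finset.pow_card_le_prod (nthRootsFinset p (1 : L))
      (fun μ => A.valuation (β - μ)) lam₀ hno
    rw [hζ.card_nthRootsFinset, ← map_prod, ← hprod] at h1
    have h2 : lam₀ ^ p = A.valuation (p : L) * lam₀ := by
      rw [← hlpow, ← pow_succ]
      congr 1
      omega
    have h3 : A.valuation (p : L) ^ 2 < lam₀ ^ p := by
      rw [h2, pow_two]
      exact mul_lt_mul_of_pos_left hvpl (zero_lt_iff.2 hvp0)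
    exact absurd (h1.trans hvβp) (not_le.2 h3)
  obtain ⟨μ, hμ, hμv⟩ := hclose
  have hμp : μ ^ p = 1 := (mem_nthRootsFinset hpp.pos 1).1 hμ
  obtain ⟨t, ht⟩ := s56k_E_surj hζ hμp
  have hsζ : s • ζ = ζ := by rw [hω, hs, ZMod.val_one, pow_one]
  have hsμ : s • μ = μ := by rw [← ht, s56k_E, smul_pow', hsζ]
  -- `s (β - μ) - (β - μ) = (ζ ^ a(s) - 1) β`
  have h1 : s • (β - μ) - (β - μ) = (ζ ^ (a s).val - 1) * β := by
    rw [smul_sub, hsμ, h.2.1]
    ring
  have h2 : A.valuation (s • (β - μ)) < lam₀ := by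
    have h0 : s • (1 - ζ) = 1 - ζ := by rw [smul_sub, smul_one, hsζ]
    have := s56fl_val_lt_smul hctx s hμv
    rwa [h0] at this
  have h3 : A.valuation (s • (β - μ) - (β - μ)) < lam₀ := Valuation.map_sub_lt _ h2 hμv
  have hvβ : A.valuation β = 1 := by
    have : A.valuation β ^ p = 1 := by rw [← map_pow, h.2.2, s56fol_val_one_add hctx]
    exact (pow_eq_one_iff.1 this).resolve_right hpp.ne_zero
  have hndvd : ¬ p ∣ (a s).val := by
    intro hd
    have hpos : 0 < (a s).val := Nat.pos_of_ne_zero fun h0 => has ((ZMod.val_eq_zero _).1 h0)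
    exact absurd (Nat.le_of_dvd hpos hd) (not_le.2 (ZMod.val_lt _))
  have h4 : A.valuation ((ζ ^ (a s).val - 1) * β) = lam₀ := by
    rw [map_mul, hvβ, mul_one, ← Valuation.map_neg, neg_sub,
      s56fg_val_one_sub_zeta_pow hpp hζ hndvd]
  rw [h1, h4] at h3
  exact lt_irrefl _ h3

end Inj

section Frob

variable {p : ℕ} [hp : Fact p.Prime] {O : Type} [CommRing O] [IsDomain O]
  [IsDiscreteValuationRing O] {L : Type} [Field L] [Algebra O L] {A : ValuationSubring L}
  {Γ : Type} [Group Γ] [MulSemiringAction Γ L] (Φ : L ≃+* L) (c : Γ ≃* Γ)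

/-- `Φ` preserves `L^Γ` -/
theorem s56fol_frob_fixed (hΦc : ∀ (σ : Γ) (y : L), Φ (σ • y) = c σ • Φ y) {y : L}
    (hy : ∀ σ : Γ, σ • y = y) (s : Γ) : s • Φ y = Φ y := by
  have := hΦc (c.symm s) y
  rw [hy, MulEquiv.apply_symm_apply] at this
  exact this.symm

/-- `Φ` induces the Frobenius on the residue field of `O` -/
theorem s56fol_frob_O (hctx : mzo_Ctx p O L A Γ) (hΦA : ∀ y : L, y ∈ A ↔ Φ y ∈ A)
    (hΦp : ∀ y : L, y ∈ A → Φ y - y ^ p ∈ A.nonunits)
    (hΦc : ∀ (σ : Γ) (y : L), Φ (σ • y) = c σ • Φ y) (x : O) :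
    ∃ x' : O, algebraMap O L x' = Φ (algebraMap O L x) ∧
      IsLocalRing.residue O x' = IsLocalRing.residue O x ^ p := by
  obtain ⟨x', hx'⟩ := hctx.exists_of_fixed ((hΦA _).1 (hctx.mem_A x))
    (s56fol_frob_fixed Φ c hΦc (hctx.fixed x))
  refine ⟨x', hx', ?_⟩
  rw [← map_pow, s56fol_residue_eq_iff hctx]
  apply hctx.dvd_of_nonunit
  rw [map_sub, map_pow, hx']
  exact hΦp _ (hctx.mem_A x)

/-- `ω ∘ c = ω` -/
theorem s56fol_omega_c {ζ : L} (hζ : IsPrimitiveRoot ζ p) {ω : Γ → ZMod p}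
    (hω : ∀ s : Γ, s • ζ = ζ ^ (ω s).val)
    (hΦc : ∀ (σ : Γ) (y : L), Φ (σ • y) = c σ • Φ y) (σ : Γ) : ω (c σ) = ω σ := by
  have hy : (Φ.symm ζ) ^ p = 1 := by rw [← map_pow, hζ.pow_eq_one, map_one]
  obtain ⟨u, hu⟩ := s56k_E_surj hζ hy
  have h1 : σ • Φ.symm ζ = (Φ.symm ζ) ^ (ω σ).val := by
    rw [← hu, s56k_E, smul_pow', hω, ← pow_mul, ← pow_mul, mul_comm]
  have h2 := hΦc σ (Φ.symm ζ)
  rw [h1, map_pow, RingEquiv.apply_symm_apply, hω] at h2
  exact (s56k_E_injective hζ h2).symm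

/-- **Frobenius transport** of a datum -/
theorem s56fol_datum_frob (hctx : mzo_Ctx p O L A Γ) {ζ : L} (hζ : IsPrimitiveRoot ζ p)
    (hΦA : ∀ y : L, y ∈ A ↔ Φ y ∈ A) (hΦp : ∀ y : L, y ∈ A → Φ y - y ^ p ∈ A.nonunits)
    (hΦc : ∀ (σ : Γ) (y : L), Φ (σ • y) = c σ • Φ y) {ωφ : ZMod p} (hωφ : Φ ζ = ζ ^ ωφ.val)
    {a : Γ → ZMod p} {β : L} {x : O} (h : s56fol_IsDatum O p ζ a β x) :
    ∃ x' : O, s56fol_IsDatum O p ζ (fun s => ωφ * a (c.symm s)) (Φ β) x' ∧
      IsLocalRing.residue O x' = IsLocalRing.residue O x ^ p := by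
  obtain ⟨x', hx', hres⟩ := s56fol_frob_O Φ c hctx hΦA hΦp hΦc x
  refine ⟨x', ⟨?_, fun s => ?_, ?_⟩, hres⟩
  · exact (map_ne_zero_iff Φ Φ.injective).2 h.1
  · have h1 := hΦc (c.symm s) β
    rw [MulEquiv.apply_symm_apply, h.2.1, map_mul, map_pow, hωφ] at h1
    rw [← h1]
    congr 1
    exact (s56k_E_mul hζ.pow_eq_one ωφ (a (c.symm s))).symm
  · rw [← map_pow, h.2.2, map_add, map_one, map_mul, map_natCast, hx']

end Frob

end Fermat.Agent.S56
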