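/-
Project S56, node [LOC-p-FLAT], cell F-ORD / FO-LAM (helper17).  Prefix `s56fol_`.
THE SPACE `𝔑` OF PEU-RAMIFIE FROBENIUS-EIGEN `ω`-COCYCLES, ITS QUOTIENT `𝔅` BY THE COBOUNDARIES AND
THE LEADING-COEFFICIENT PAIRING `Λ : 𝔅 × Hom(k, 𝔽_p) → O/𝔪`.
Mathlib + `S56/Flat/Ord/Lam1`.
-/
import Mathlib
import Fermat.Agent.S56.Flat.Ord.Lam1

set_option autoImplicit false
set_option linter.unusedSectionVars false

noncomputable section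

namespace Fermat.Agent.S56

open Fermat.Agent.MZ

/-! ### `ω` and coboundaries -/

section Omega

variable {p : ℕ} [hp : Fact p.Prime] {L : Type} [Field L] {Γ : Type} [Group Γ]
  [MulSemiringAction Γ L] {ζ : L} (hζ : IsPrimitiveRoot ζ p) {ω : Γ → ZMod p}
  (hω : ∀ s : Γ, s • ζ = ζ ^ (ω s).val)

include hζ hω

theorem s56fol_omega_one : ω 1 = 1 := by
  have h := hω 1
  rw [one_smul] at h
  have h1 : s56k_E ζ (1 : ZMod p) = s56k_E ζ (ω 1) := by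
    rw [s56k_E, s56k_E, ZMod.val_one, pow_one]
    exact h
  exact (s56k_E_injective hζ h1).symm

theorem s56fol_omega_mul (s t : Γ) : ω (s * t) = ω s * ω t := by
  have h := hω (s * t)
  rw [mul_smul, hω t, smul_pow', hω s] at h
  have h1 : s56k_E ζ (ω s * ω t) = s56k_E ζ (ω (s * t)) := by
    rw [s56k_E_mul hζ.pow_eq_one]
    exact h
  exact (s56k_E_injective hζ h1).symm

theorem s56fol_omega_inv (s : Γ) : ω s⁻¹ = (ω s)⁻¹ := by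
  have h := s56fol_omega_mul hζ hω s s⁻¹
  rw [mul_inv_cancel, s56fol_omega_one hζ hω] at h
  exact eq_inv_of_mul_eq_one_right h.symm

/-- an `ω`-cocycle vanishing on `ker ω` is a coboundary -/
theorem s56fol_cob (hω1 : ∃ s : Γ, ω s ≠ 1) {M : Type} [AddCommGroup M] [Module (ZMod p) M]
    (ν : Γ → M) (hν : ∀ s t : Γ, ν (s * t) = ν s + ω s • ν t)
    (hker : ∀ s : Γ, ω s = 1 → ν s = 0) : ∃ x₀ : M, ∀ s : Γ, ν s = (ω s - 1) • x₀ := by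
  obtain ⟨s₀, hs₀⟩ := hω1
  have hu : ω s₀ - 1 ≠ 0 := sub_ne_zero.2 hs₀
  refine ⟨(ω s₀ - 1)⁻¹ • ν s₀, fun s => ?_⟩
  -- `ν (s s₀) = ν (s₀ s)`
  have hcomm : ν (s * s₀) = ν (s₀ * s) := by
    have ht : ω ((s₀ * s)⁻¹ * (s * s₀)) = 1 := by
      rw [s56fol_omega_mul hζ hω, s56fol_omega_inv hζ hω, s56fol_omega_mul hζ hω,
        s56fol_omega_mul hζ hω, mul_comm (ω s) (ω s₀)]
      have h0 : ω s₀ * ω s ≠ 0 := by
        intro h0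
        have h1 := s56fol_omega_mul hζ hω (s₀ * s) (s₀ * s)⁻¹
        rw [mul_inv_cancel, s56fol_omega_one hζ hω, s56fol_omega_mul hζ hω s₀ s, h0,
          zero_mul] at h1
        exact one_ne_zero h1
      exact inv_mul_cancel₀ h0
    have e : s * s₀ = (s₀ * s) * ((s₀ * s)⁻¹ * (s * s₀)) := by group
    rw [e, hν, hker _ ht, smul_zero, add_zero]
  rw [hν, hν] at hcomm
  -- `ν s + ω s • ν s₀ = ν s₀ + ω s₀ • ν s`
  have h1 : (ω s₀ - 1) • ν s = (ω s - 1) • ν s₀ := by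
    rw [sub_smul, sub_smul, one_smul, one_smul]
    have := hcomm
    rw [sub_eq_sub_iff_add_eq_add]
    rw [add_comm (ω s₀ • ν s), ← this, add_comm]
  rw [smul_smul, mul_comm, ← smul_smul, ← h1, smul_smul, inv_mul_cancel₀ hu, one_smul]

end Omega

/-! ### the space `𝔑` -/

section Space

variable {p : ℕ} [hp : Fact p.Prime] {O : Type} [CommRing O] [IsDomain O]
  [IsDiscreteValuationRing O] {L : Type} [Field L] [Algebra O L] {A : ValuationSubring L}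
  {Γ : Type} [Group Γ] [MulSemiringAction Γ L]
  {k : Type} [Field k] [Algebra (ZMod p) k]

/-- membership in `𝔑`: an `ω`-cocycle, eigenvector of the Frobenius on `ker ω`, all of whose
`𝔽_p`-components are peu ramifie -/
def s56fol_InN (O : Type) [CommRing O] {L : Type} [Field L] [Algebra O L]
    {Γ : Type} [Group Γ] [MulSemiringAction Γ L] {p : ℕ} {k : Type} [Field k]
    [Algebra (ZMod p) k] (ζ : L) (ω : Γ → ZMod p) (c : Γ ≃* Γ) (ψφ : k) (ν : Γ → k) : Prop :=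
  (∀ s t : Γ, ν (s * t) = ν s + algebraMap (ZMod p) k (ω s) * ν t) ∧
  (∀ s : Γ, ω s = 1 → ν (c s) = ψφ * ν s) ∧
  ∀ ℓ : k →ₗ[ZMod p] ZMod p, s56fo_Peu O p ζ (fun s => ℓ (ν s))

variable (O) in
/-- the `k`-space `𝔑` -/
def s56fol_N {ζ : L} (hζ1 : ζ ^ p = 1) (ω : Γ → ZMod p)
    (c : Γ ≃* Γ) (ψφ : k) : Submodule k (Γ → k) where
  carrier := {ν | s56fol_InN O ζ ω c ψφ ν}
  zero_mem' := by
    refine ⟨fun s t => ?_, fun s _ => ?_, fun ℓ => ?_⟩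
    · simp only [Pi.zero_apply, mul_zero, add_zero]
    · simp only [Pi.zero_apply, mul_zero]
    · refine ⟨1, 0, s56fol_datum_congr (s56fol_datum_zero ζ) fun s => ?_⟩
      simp only [Pi.zero_apply, map_zero]
  add_mem' := by
    rintro ν ν' ⟨h1, h2, h3⟩ ⟨h1', h2', h3'⟩
    refine ⟨fun s t => ?_, fun s hs => ?_, fun ℓ => ?_⟩
    · simp only [Pi.add_apply, h1 s t, h1' s t]
      ring
    · simp only [Pi.add_apply, h2 s hs, h2' s hs]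
      ring
    · obtain ⟨β, x, hd⟩ := h3 ℓ
      obtain ⟨β', x', hd'⟩ := h3' ℓ
      refine ⟨_, _, s56fol_datum_congr (s56fol_datum_mul hζ1 hd hd') fun s => ?_⟩
      simp only [Pi.add_apply, map_add]
  smul_mem' := by
    rintro κ ν ⟨h1, h2, h3⟩
    refine ⟨fun s t => ?_, fun s hs => ?_, fun ℓ => ?_⟩
    · simp only [Pi.smul_apply, smul_eq_mul, h1 s t]
      ring
    · simp only [Pi.smul_apply, smul_eq_mul, h2 s hs]
      ring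
    · obtain ⟨β, x, hd⟩ := h3 (ℓ ∘ₗ LinearMap.mulLeft (ZMod p) κ)
      refine ⟨β, x, s56fol_datum_congr hd fun s => ?_⟩
      simp only [LinearMap.comp_apply, LinearMap.mulLeft_apply, Pi.smul_apply, smul_eq_mul]

theorem s56fol_mem_N {ζ : L} (hζ1 : ζ ^ p = 1) (ω : Γ → ZMod p) (c : Γ ≃* Γ) (ψφ : k)
    (ν : Γ → k) : ν ∈ s56fol_N O hζ1 ω c ψφ ↔ s56fol_InN O ζ ω c ψφ ν := Iff.rfl

variable (O) in
/-- the subspace `𝔎` of the cocycles vanishing on `ker ω` -/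
def s56fol_K {ζ : L} (hζ1 : ζ ^ p = 1) (ω : Γ → ZMod p)
    (c : Γ ≃* Γ) (ψφ : k) : Submodule k ↥(s56fol_N O hζ1 ω c ψφ) where
  carrier := {ν | ∀ s : Γ, ω s = 1 → (ν : Γ → k) s = 0}
  zero_mem' := fun s _ => rfl
  add_mem' := by
    intro ν ν' h h' s hs
    show (ν : Γ → k) s + (ν' : Γ → k) s = 0
    rw [h s hs, h' s hs, add_zero]
  smul_mem' := by
    intro κ ν h s hs
    show κ • (ν : Γ → k) s = 0
    rw [h s hs, smul_zero]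

theorem s56fol_mem_K {ζ : L} (hζ1 : ζ ^ p = 1) (ω : Γ → ZMod p) (c : Γ ≃* Γ) (ψφ : k)
    (ν : ↥(s56fol_N O hζ1 ω c ψφ)) :
    ν ∈ s56fol_K O hζ1 ω c ψφ ↔ ∀ s : Γ, ω s = 1 → (ν : Γ → k) s = 0 := Iff.rfl

end Space

/-! ### the pairing `Λ₀` on `𝔑` -/

section Pairing

variable {p : ℕ} [hp : Fact p.Prime] {O : Type} [CommRing O] [IsDomain O]
  [IsDiscreteValuationRing O] {L : Type} [Field L] [Algebra O L] {A : ValuationSubring L}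
  {Γ : Type} [Group Γ] [MulSemiringAction Γ L]
  {k : Type} [Field k] [Algebra (ZMod p) k]
  {ζ : L} (hζ1 : ζ ^ p = 1) {ω : Γ → ZMod p} (c : Γ ≃* Γ) (ψφ : k)

theorem s56fol_peu_of_mem (ν : ↥(s56fol_N O hζ1 ω c ψφ)) (ℓ : k →ₗ[ZMod p] ZMod p) :
    ∃ (β : L) (x : O), s56fol_IsDatum O p ζ (fun s => ℓ ((ν : Γ → k) s)) β x :=
  ((s56fol_mem_N hζ1 ω c ψφ _).1 ν.2).2.2 ℓ

/-- the leading coefficient of `ℓ ∘ ν` -/
def s56fol_Lam0 (ν : ↥(s56fol_N O hζ1 ω c ψφ)) (ℓ : k →ₗ[ZMod p] ZMod p) :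
    IsLocalRing.ResidueField O :=
  IsLocalRing.residue O (s56fol_peu_of_mem hζ1 c ψφ ν ℓ).choose_spec.choose

theorem s56fol_Lam0_spec (hctx : mzo_Ctx p O L A Γ) (ν : ↥(s56fol_N O hζ1 ω c ψφ))
    (ℓ : k →ₗ[ZMod p] ZMod p) {β : L} {x : O}
    (h : s56fol_IsDatum O p ζ (fun s => ℓ ((ν : Γ → k) s)) β x) :
    s56fol_Lam0 hζ1 c ψφ ν ℓ = IsLocalRing.residue O x := by
  rw [s56fol_Lam0, s56fol_residue_eq_iff hctx]
  exact s56fol_datum_uniq hctx hζ1 (s56fol_peu_of_mem hζ1 c ψφ ν ℓ).choose_spec.choose_spec h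

theorem s56fol_Lam0_exists (ν : ↥(s56fol_N O hζ1 ω c ψφ)) (ℓ : k →ₗ[ZMod p] ZMod p) :
    ∃ (β : L) (x : O), s56fol_IsDatum O p ζ (fun s => ℓ ((ν : Γ → k) s)) β x ∧
      s56fol_Lam0 hζ1 c ψφ ν ℓ = IsLocalRing.residue O x :=
  ⟨_, _, (s56fol_peu_of_mem hζ1 c ψφ ν ℓ).choose_spec.choose_spec, rfl⟩

theorem s56fol_Lam0_add (hctx : mzo_Ctx p O L A Γ) (ν ν' : ↥(s56fol_N O hζ1 ω c ψφ))
    (ℓ : k →ₗ[ZMod p] ZMod p) :
    s56fol_Lam0 hζ1 c ψφ (ν + ν') ℓ = s56fol_Lam0 hζ1 c ψφ ν ℓ + s56fol_Lam0 hζ1 c ψφ ν' ℓ := by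
  obtain ⟨β, x, hd, hx⟩ := s56fol_Lam0_exists hζ1 c ψφ ν ℓ
  obtain ⟨β', x', hd', hx'⟩ := s56fol_Lam0_exists hζ1 c ψφ ν' ℓ
  have h := s56fol_datum_congr (s56fol_datum_mul hζ1 hd hd')
    (a' := fun s => ℓ (((ν + ν' : ↥(s56fol_N O hζ1 ω c ψφ)) : Γ → k) s)) fun s => by
      show ℓ ((ν : Γ → k) s) + ℓ ((ν' : Γ → k) s) = ℓ ((ν : Γ → k) s + (ν' : Γ → k) s)
      rw [map_add]
  rw [s56fol_Lam0_spec hζ1 c ψφ hctx _ ℓ h, hx, hx', map_add, map_add, map_mul, map_mul,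
    map_natCast, s56fol_residue_p hctx, zero_mul, zero_mul, add_zero]

theorem s56fol_Lam0_add_right (hctx : mzo_Ctx p O L A Γ) (ν : ↥(s56fol_N O hζ1 ω c ψφ))
    (ℓ ℓ' : k →ₗ[ZMod p] ZMod p) :
    s56fol_Lam0 hζ1 c ψφ ν (ℓ + ℓ') = s56fol_Lam0 hζ1 c ψφ ν ℓ + s56fol_Lam0 hζ1 c ψφ ν ℓ' := by
  obtain ⟨β, x, hd, hx⟩ := s56fol_Lam0_exists hζ1 c ψφ ν ℓ
  obtain ⟨β', x', hd', hx'⟩ := s56fol_Lam0_exists hζ1 c ψφ ν ℓ'
  have h := s56fol_datum_congr (s56fol_datum_mul hζ1 hd hd')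
    (a' := fun s => (ℓ + ℓ') ((ν : Γ → k) s)) fun s => by
      rw [LinearMap.add_apply]
  rw [s56fol_Lam0_spec hζ1 c ψφ hctx _ _ h, hx, hx', map_add, map_add, map_mul, map_mul,
    map_natCast, s56fol_residue_p hctx, zero_mul, zero_mul, add_zero]

/-- semilinearity: by definition -/
theorem s56fol_Lam0_smul (hctx : mzo_Ctx p O L A Γ) (κ : k) (ν : ↥(s56fol_N O hζ1 ω c ψφ))
    (ℓ : k →ₗ[ZMod p] ZMod p) :
    s56fol_Lam0 hζ1 c ψφ (κ • ν) ℓ =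
      s56fol_Lam0 hζ1 c ψφ ν (ℓ ∘ₗ LinearMap.mulLeft (ZMod p) κ) := by
  obtain ⟨β, x, hd, hx⟩ := s56fol_Lam0_exists hζ1 c ψφ ν (ℓ ∘ₗ LinearMap.mulLeft (ZMod p) κ)
  have h := s56fol_datum_congr hd
    (a' := fun s => ℓ (((κ • ν : ↥(s56fol_N O hζ1 ω c ψφ)) : Γ → k) s)) fun s => by
      show (ℓ ∘ₗ LinearMap.mulLeft (ZMod p) κ) ((ν : Γ → k) s) = ℓ (κ • (ν : Γ → k) s)
      rw [LinearMap.comp_apply, LinearMap.mulLeft_apply, smul_eq_mul]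
  rw [s56fol_Lam0_spec hζ1 c ψφ hctx _ ℓ h, hx]

end Pairing

/-! ### vanishing on `𝔎`, injectivity, Frobenius -/

section Props

variable {p : ℕ} [hp : Fact p.Prime] {O : Type} [CommRing O] [IsDomain O]
  [IsDiscreteValuationRing O] {L : Type} [Field L] [Algebra O L] {A : ValuationSubring L}
  {Γ : Type} [Group Γ] [MulSemiringAction Γ L]
  {k : Type} [Field k] [Algebra (ZMod p) k]
  {ζ : L} (hζ : IsPrimitiveRoot ζ p) {ω : Γ → ZMod p} (c : Γ ≃* Γ) (ψφ : k)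

/-- `ℓ (algebraMap t * y) = t * ℓ y` -/
theorem s56fol_ell_algebraMap (ℓ : k →ₗ[ZMod p] ZMod p) (t : ZMod p) (y : k) :
    ℓ (algebraMap (ZMod p) k t * y) = t * ℓ y := by
  rw [← Algebra.smul_def, map_smul, smul_eq_mul]

/-- the elements of `𝔎` are coboundaries -/
theorem s56fol_K_cob (hω : ∀ s : Γ, s • ζ = ζ ^ (ω s).val) (hω1 : ∃ s : Γ, ω s ≠ 1)
    (ν : ↥(s56fol_N O hζ.pow_eq_one ω c ψφ)) (hν : ν ∈ s56fol_K O hζ.pow_eq_one ω c ψφ) :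
    ∃ x₀ : k, ∀ s : Γ, (ν : Γ → k) s = (algebraMap (ZMod p) k (ω s) - 1) * x₀ := by
  have h1 := ((s56fol_mem_N hζ.pow_eq_one ω c ψφ _).1 ν.2).1
  obtain ⟨x₀, hx₀⟩ := s56fol_cob hζ hω hω1 (ν : Γ → k)
    (fun s t => by rw [h1 s t, Algebra.smul_def]) hν
  refine ⟨x₀, fun s => ?_⟩
  rw [hx₀ s, Algebra.smul_def, map_sub, map_one]

/-- `Λ₀` vanishes on `𝔎` -/
theorem s56fol_Lam0_K (hctx : mzo_Ctx p O L A Γ) (hω : ∀ s : Γ, s • ζ = ζ ^ (ω s).val)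
    (hω1 : ∃ s : Γ, ω s ≠ 1) (ν : ↥(s56fol_N O hζ.pow_eq_one ω c ψφ))
    (hν : ν ∈ s56fol_K O hζ.pow_eq_one ω c ψφ) (ℓ : k →ₗ[ZMod p] ZMod p) :
    s56fol_Lam0 hζ.pow_eq_one c ψφ ν ℓ = 0 := by
  obtain ⟨x₀, hx₀⟩ := s56fol_K_cob hζ c ψφ hω hω1 ν hν
  have h := s56fol_datum_congr (s56fol_datum_cob (O := O) hζ.pow_eq_one hω (ℓ x₀))
    (a' := fun s => ℓ ((ν : Γ → k) s)) fun s => by
      rw [hx₀ s, ← map_one (algebraMap (ZMod p) k), ← map_sub, s56fol_ell_algebraMap]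
  rw [s56fol_Lam0_spec hζ.pow_eq_one c ψφ hctx ν ℓ h, map_zero]

/-- **injectivity** -/
theorem s56fol_Lam0_inj (hctx : mzo_Ctx p O L A Γ) (hp2 : p ≠ 2)
    (hω : ∀ s : Γ, s • ζ = ζ ^ (ω s).val) (ν : ↥(s56fol_N O hζ.pow_eq_one ω c ψφ))
    (h0 : ∀ ℓ : k →ₗ[ZMod p] ZMod p, s56fol_Lam0 hζ.pow_eq_one c ψφ ν ℓ = 0) :
    ν ∈ s56fol_K O hζ.pow_eq_one ω c ψφ := by
  intro s hs
  rw [← Module.forall_dual_apply_eq_zero_iff (ZMod p)]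
  intro ℓ
  obtain ⟨β, x, hd, hx⟩ := s56fol_Lam0_exists hζ.pow_eq_one c ψφ ν ℓ
  rw [h0 ℓ] at hx
  have hpx : (p : O) ∣ x := by
    have := (s56fol_residue_eq_iff hctx x 0).1 (by rw [← hx, map_zero])
    rwa [sub_zero] at this
  exact s56fol_datum_inj hctx hp2 hζ hω hd hpx s hs

end Props

/-! ### the Frobenius -/

section FrobProp

variable {p : ℕ} [hp : Fact p.Prime] {O : Type} [CommRing O] [IsDomain O]
  [IsDiscreteValuationRing O] {L : Type} [Field L] [Algebra O L] {A : ValuationSubring L}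
  {Γ : Type} [Group Γ] [MulSemiringAction Γ L]
  {k : Type} [Field k] [Algebra (ZMod p) k]
  {ζ : L} (hζ : IsPrimitiveRoot ζ p) {ω : Γ → ZMod p} (c : Γ ≃* Γ) (ψφ : k)

/-- **Frobenius**: `Λ₀ (c₀ ν, ℓ) = Λ₀ (ν, ℓ) ^ p`, `c₀ = ωφ ψφ⁻¹` -/
theorem s56fol_Lam0_frob (hctx : mzo_Ctx p O L A Γ) (hω : ∀ s : Γ, s • ζ = ζ ^ (ω s).val)
    (hω1 : ∃ s : Γ, ω s ≠ 1) (Φ : L ≃+* L) (hΦA : ∀ y : L, y ∈ A ↔ Φ y ∈ A)
    (hΦp : ∀ y : L, y ∈ A → Φ y - y ^ p ∈ A.nonunits)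
    (hΦc : ∀ (σ : Γ) (y : L), Φ (σ • y) = c σ • Φ y) (hψ : ψφ ≠ 0)
    {ωφ : ZMod p} (hωφ : Φ ζ = ζ ^ ωφ.val) (ν : ↥(s56fol_N O hζ.pow_eq_one ω c ψφ))
    (ℓ : k →ₗ[ZMod p] ZMod p) :
    s56fol_Lam0 hζ.pow_eq_one c ψφ ((algebraMap (ZMod p) k ωφ * ψφ⁻¹) • ν) ℓ =
      s56fol_Lam0 hζ.pow_eq_one c ψφ ν ℓ ^ p := by
  have hζ1 := hζ.pow_eq_one
  obtain ⟨hcoc, heig, _⟩ := (s56fol_mem_N hζ1 ω c ψφ _).1 ν.2
  have hωc : ∀ σ : Γ, ω (c σ) = ω σ := s56fol_omega_c Φ c hζ hω hΦc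
  have hωcs : ∀ s : Γ, ω (c.symm s) = ω s := fun s => by
    rw [← hωc (c.symm s), MulEquiv.apply_symm_apply]
  obtain ⟨β, x, hd, hx⟩ := s56fol_Lam0_exists hζ1 c ψφ ν ℓ
  obtain ⟨x', hd', hx'⟩ := s56fol_datum_frob Φ c hctx hζ hΦA hΦp hΦc hωφ hd
  -- the two characters
  set a' : Γ → ZMod p := fun s => ωφ * ℓ ((ν : Γ → k) (c.symm s)) with ha'
  set a'' : Γ → ZMod p := fun s => ℓ (algebraMap (ZMod p) k ωφ * ψφ⁻¹ * (ν : Γ → k) s) with ha''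
  -- their difference is a coboundary
  have hcoc' : ∀ s t : Γ, a' (s * t) = a' s + ω s * a' t := by
    intro s t
    simp only [ha', map_mul, hcoc, map_add, s56fol_ell_algebraMap, hωcs]
    ring
  have hcoc'' : ∀ s t : Γ, a'' (s * t) = a'' s + ω s * a'' t := by
    intro s t
    simp only [ha'', hcoc]
    have e : algebraMap (ZMod p) k ωφ * ψφ⁻¹ *
        ((ν : Γ → k) s + algebraMap (ZMod p) k (ω s) * (ν : Γ → k) t) =
        algebraMap (ZMod p) k ωφ * ψφ⁻¹ * (ν : Γ → k) s +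
        algebraMap (ZMod p) k (ω s) * (algebraMap (ZMod p) k ωφ * ψφ⁻¹ * (ν : Γ → k) t) := by
      ring
    rw [e, map_add, s56fol_ell_algebraMap]
  have hker : ∀ s : Γ, ω s = 1 → a'' s - a' s = 0 := by
    intro s hs
    have h1 : (ν : Γ → k) s = ψφ * (ν : Γ → k) (c.symm s) := by
      have := heig (c.symm s) (by rw [hωcs, hs])
      rwa [MulEquiv.apply_symm_apply] at this
    simp only [ha', ha'']
    have e : algebraMap (ZMod p) k ωφ * ψφ⁻¹ * (ν : Γ → k) s =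
        algebraMap (ZMod p) k ωφ * (ν : Γ → k) (c.symm s) := by
      rw [h1, mul_assoc, ← mul_assoc ψφ⁻¹, inv_mul_cancel₀ hψ, one_mul]
    rw [e, s56fol_ell_algebraMap, sub_self]
  obtain ⟨t, ht⟩ := s56fol_cob hζ hω hω1 (fun s => a'' s - a' s)
    (fun s u => by
      show a'' (s * u) - a' (s * u) = a'' s - a' s + ω s • (a'' u - a' u)
      rw [hcoc', hcoc'', smul_eq_mul]
      ring) hker
  -- the datum of `a''`
  have h := s56fol_datum_congr (s56fol_datum_mul hζ1 hd' (s56fol_datum_cob (O := O) hζ1 hω t))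
    (a' := fun s =>
      ℓ ((((algebraMap (ZMod p) k ωφ * ψφ⁻¹) • ν : ↥(s56fol_N O hζ1 ω c ψφ)) : Γ → k) s))
    fun s => by
      show a' s + (ω s - 1) * t = a'' s
      have := ht s
      rw [smul_eq_mul] at this
      rw [← this]
      ring
  rw [s56fol_Lam0_spec hζ1 c ψφ hctx _ ℓ h, hx, ← hx', mul_zero, add_zero, add_zero]

end FrobProp

end Fermat.Agent.S56
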