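/-
Project S56, node [LOC-p-FLAT], cell F-ORD / FO-LAM (helper17).  Prefix `s56fol_`.
`theorem s56fol_main : s56fo_LangDep_stmt` (Flat/Ord/Defs.lean): two peu-ramifie `k`-valued
`ω`-cocycles on `Γ` which are eigenvectors of a Frobenius (same eigenvalue) are `k`-dependent
modulo coboundaries.  `𝔅 := 𝔑 ⧸ 𝔎` with the leading-coefficient pairing `Λ` (Lam2.lean) satisfies
the hypotheses of F-LANG (`s56fc_lang`, `m = 1`, `η = 1`, `g = 1`, `ξ = 1`).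
Mathlib + `S56/Flat/Ord/Lam2` + `S56/Flat/Lang`.
-/
import Mathlib
import Fermat.Agent.S56.Flat.Ord.Lam2
import Fermat.Agent.S56.Flat.Lang

set_option autoImplicit false
set_option linter.unusedSectionVars false
set_option linter.style.haveILetI false

noncomputable section

namespace Fermat.Agent.S56

open Fermat.Agent.MZ

/-- **cell FO-LAM** -/
theorem s56fol_main : s56fo_LangDep_stmt := by
  intro p _ O _ _ _ L _ _ A Γ _ _ hctx hp2 ζ hζ ω hω hω1 Φ c hΦA hΦp hΦc k _ _ _ ι₀ ψφ hψ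
    ν ν' hν hν' heig heig' hpeu hpeu'
  have hζ1 := hζ.pow_eq_one
  haveI : CharP k p := charP_of_injective_algebraMap (algebraMap (ZMod p) k).injective p
  haveI : CharP (IsLocalRing.ResidueField O) p := s56fol_charP hctx
  -- `Φ ζ = ζ ^ ωφ`
  have hΦζ : (Φ ζ) ^ p = 1 := by rw [← map_pow, hζ1, map_one]
  obtain ⟨ωφ, hωφ⟩ := s56k_E_surj hζ hΦζ
  have hωφ' : Φ ζ = ζ ^ ωφ.val := hωφ.symm
  have hωφ0 : ωφ ≠ 0 := by
    intro h0
    rw [h0, ZMod.val_zero, pow_zero] at hωφ'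
    have h1 : Φ ζ = Φ 1 := by rw [hωφ', map_one]
    exact hζ.ne_one (Fact.out : p.Prime).one_lt (Φ.injective h1)
  set c₀ : k := algebraMap (ZMod p) k ωφ * ψφ⁻¹ with hc₀def
  have hc₀ : c₀ ≠ 0 := by
    refine mul_ne_zero ?_ (inv_ne_zero hψ)
    exact (map_ne_zero_iff _ (algebraMap (ZMod p) k).injective).2 hωφ0
  -- the pairing on the quotient
  let Λ : (↥(s56fol_N O hζ1 ω c ψφ) ⧸ s56fol_K O hζ1 ω c ψφ) → (k →ₗ[ZMod p] ZMod p) →
      IsLocalRing.ResidueField O := fun B ℓ =>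
    s56fol_Lam0 hζ1 c ψφ (Submodule.Quotient.mk_surjective _ B).choose ℓ
  have hwd : ∀ (n n' : ↥(s56fol_N O hζ1 ω c ψφ)) (ℓ : k →ₗ[ZMod p] ZMod p),
      n - n' ∈ s56fol_K O hζ1 ω c ψφ →
      s56fol_Lam0 hζ1 c ψφ n ℓ = s56fol_Lam0 hζ1 c ψφ n' ℓ := by
    intro n n' ℓ h
    have e : n = n' + (n - n') := by abel
    rw [e, s56fol_Lam0_add hζ1 c ψφ hctx, s56fol_Lam0_K hζ c ψφ hctx hω hω1 _ h, add_zero]
  have hΛ : ∀ (n : ↥(s56fol_N O hζ1 ω c ψφ)) (ℓ : k →ₗ[ZMod p] ZMod p),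
      Λ (Submodule.Quotient.mk n) ℓ = s56fol_Lam0 hζ1 c ψφ n ℓ := by
    intro n ℓ
    apply hwd
    rw [← Submodule.Quotient.eq]
    exact (Submodule.Quotient.mk_surjective _ (Submodule.Quotient.mk n)).choose_spec
  -- F-LANG
  have hlang := s56fc_lang (p := p) ι₀ Λ
    (by
      intro B B' ℓ
      obtain ⟨n, rfl⟩ := Submodule.Quotient.mk_surjective _ B
      obtain ⟨n', rfl⟩ := Submodule.Quotient.mk_surjective _ B'
      rw [← Submodule.Quotient.mk_add, hΛ, hΛ, hΛ, s56fol_Lam0_add hζ1 c ψφ hctx])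
    (by
      intro B ℓ ℓ'
      obtain ⟨n, rfl⟩ := Submodule.Quotient.mk_surjective _ B
      rw [hΛ, hΛ, hΛ, s56fol_Lam0_add_right hζ1 c ψφ hctx])
    (by
      intro κ B ℓ
      obtain ⟨n, rfl⟩ := Submodule.Quotient.mk_surjective _ B
      rw [← Submodule.Quotient.mk_smul, hΛ, hΛ, s56fol_Lam0_smul hζ1 c ψφ hctx])
    (by
      intro B h0
      obtain ⟨n, rfl⟩ := Submodule.Quotient.mk_surjective _ B
      rw [Submodule.Quotient.mk_eq_zero]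
      exact s56fol_Lam0_inj hζ c ψφ hctx hp2 hω n fun ℓ => by rw [← hΛ]; exact h0 ℓ)
    1 one_pos (one_dvd _) c₀ hc₀ 1 one_ne_zero
    (by
      intro B ℓ
      obtain ⟨n, rfl⟩ := Submodule.Quotient.mk_surjective _ B
      rw [← Submodule.Quotient.mk_smul, hΛ, hΛ, pow_one, one_mul]
      exact s56fol_Lam0_frob hζ c ψφ hctx hω hω1 Φ hΦA hΦp hΦc hψ hωφ' n ℓ)
    1 1 (by intro B ℓ; rw [one_smul, one_mul]) 0 (by intro i _; rw [Nat.mod_one, Nat.mod_one])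
  -- apply to `ν, ν'`
  have hνN : ν ∈ s56fol_N O hζ1 ω c ψφ := ⟨hν, heig, hpeu⟩
  have hν'N : ν' ∈ s56fol_N O hζ1 ω c ψφ := ⟨hν', heig', hpeu'⟩
  obtain ⟨κ, κ', hκ, hdep⟩ := hlang (Submodule.Quotient.mk ⟨ν, hνN⟩)
    (Submodule.Quotient.mk ⟨ν', hν'N⟩)
  rw [← Submodule.Quotient.mk_smul, ← Submodule.Quotient.mk_smul, ← Submodule.Quotient.mk_add,
    Submodule.Quotient.mk_eq_zero] at hdep
  obtain ⟨x₀, hx₀⟩ := s56fol_K_cob hζ c ψφ hω hω1 _ hdep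
  exact ⟨κ, κ', x₀, hκ, fun s => hx₀ s⟩

end Fermat.Agent.S56
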