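/-
Project S56, node [LOC-p-FLAT], cell F-ORD (ordinary case; owner helper1).  Prefix `s56fo_`.
NORMALISATION OF THE UNRAMIFIED ADDITIVE CHARACTERS (pure group theory).

`I ≤ D ≤ G`, `φ ∈ D` such that `D = φ^ℕ · I · U` for every "open" subgroup `U` of a family `𝒰`
directed downwards.  The additive characters `A : D → k` which vanish on `I` and on some
`U ∈ 𝒰` are all multiples of ONE of them (`s56fo_norm`).
-/
import Mathlib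

set_option autoImplicit false
set_option linter.unusedSectionVars false

noncomputable section

namespace Fermat.Agent.S56

variable {G : Type*} [Group G] {k : Type*} [Field k]

/-- additive on `D`, zero on `I`, zero on `D ∩ U` for some `U ∈ 𝒰`. -/
def s56fo_IsUnr (D I : Subgroup G) (𝒰 : Set (Subgroup G)) (A : G → k) : Prop :=
  (∀ σ ∈ D, ∀ τ ∈ D, A (σ * τ) = A σ + A τ) ∧ (∀ s ∈ I, A s = 0) ∧
    ∃ U ∈ 𝒰, ∀ s ∈ D, s ∈ U → A s = 0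

theorem s56fo_unr_pow {D I : Subgroup G} {𝒰 : Set (Subgroup G)} {A : G → k}
    (hA : s56fo_IsUnr D I 𝒰 A) {φ : G} (hφ : φ ∈ D) (n : ℕ) : A (φ ^ n) = n * A φ := by
  induction n with
  | zero =>
    have h1 := hA.1 1 D.one_mem 1 D.one_mem
    rw [mul_one] at h1
    rw [pow_zero, Nat.cast_zero, zero_mul]
    exact left_eq_add.mp h1
  | succ n ih =>
    rw [pow_succ, hA.1 _ (D.pow_mem hφ n) _ hφ, ih, Nat.cast_succ]
    ring

theorem s56fo_unr_pair {D I : Subgroup G} (hID : I ≤ D) {𝒰 : Set (Subgroup G)}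
    (hinf : ∀ U ∈ 𝒰, ∀ V ∈ 𝒰, ∃ W ∈ 𝒰, W ≤ U ⊓ V) {φ : G} (hφ : φ ∈ D)
    (hgen : ∀ U ∈ 𝒰, ∀ d ∈ D, ∃ n : ℕ, ∃ i ∈ I, ∃ s ∈ U, d = φ ^ n * i * s)
    {A A' : G → k} (hA : s56fo_IsUnr D I 𝒰 A) (hA' : s56fo_IsUnr D I 𝒰 A') {d : G}
    (hd : d ∈ D) : ∃ n : ℕ, A d = n * A φ ∧ A' d = n * A' φ := by
  obtain ⟨U, hU, hAU⟩ := hA.2.2
  obtain ⟨U', hU', hAU'⟩ := hA'.2.2
  obtain ⟨W, hW, hWle⟩ := hinf U hU U' hU'
  obtain ⟨n, i, hi, s, hs, rfl⟩ := hgen W hW d hd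
  have hpD : φ ^ n ∈ D := D.pow_mem hφ n
  have hiD : i ∈ D := hID hi
  have hsD : s ∈ D := by
    have h1 : s = (φ ^ n * i)⁻¹ * (φ ^ n * i * s) := by group
    rw [h1]
    exact D.mul_mem (D.inv_mem (D.mul_mem hpD hiD)) hd
  refine ⟨n, ?_, ?_⟩
  · rw [hA.1 _ (D.mul_mem hpD hiD) _ hsD, hA.1 _ hpD _ hiD, hA.2.1 i hi,
      hAU s hsD (hWle hs).1, s56fo_unr_pow hA hφ, add_zero, add_zero]
  · rw [hA'.1 _ (D.mul_mem hpD hiD) _ hsD, hA'.1 _ hpD _ hiD, hA'.2.1 i hi,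
      hAU' s hsD (hWle hs).2, s56fo_unr_pow hA' hφ, add_zero, add_zero]

/-- **normalisation**: all unramified additive characters of finite level are multiples of one
function `A₀`. -/
theorem s56fo_norm (D I : Subgroup G) (hID : I ≤ D) (𝒰 : Set (Subgroup G))
    (hinf : ∀ U ∈ 𝒰, ∀ V ∈ 𝒰, ∃ W ∈ 𝒰, W ≤ U ⊓ V) {φ : G} (hφ : φ ∈ D)
    (hgen : ∀ U ∈ 𝒰, ∀ d ∈ D, ∃ n : ℕ, ∃ i ∈ I, ∃ s ∈ U, d = φ ^ n * i * s) :
    ∃ A₀ : G → k, (∀ s ∈ I, A₀ s = 0) ∧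
      ∀ A : G → k, s56fo_IsUnr D I 𝒰 A → ∃ a : k, ∀ σ ∈ D, A σ = a * A₀ σ := by
  by_cases h : ∃ As : G → k, s56fo_IsUnr D I 𝒰 As ∧ As φ ≠ 0
  · obtain ⟨As, hAs, hne⟩ := h
    refine ⟨fun σ => As σ / As φ, fun s hs => ?_, fun A hA => ⟨A φ, fun d hd => ?_⟩⟩
    · show As s / As φ = 0
      rw [hAs.2.1 s hs, zero_div]
    · obtain ⟨n, h1, h2⟩ := s56fo_unr_pair hID hinf hφ hgen hA hAs hd
      show A d = A φ * (As d / As φ)
      rw [h1, h2]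
      field_simp
  · push Not at h
    refine ⟨fun _ => 0, fun _ _ => rfl, fun A hA => ⟨0, fun d hd => ?_⟩⟩
    obtain ⟨n, h1, -⟩ := s56fo_unr_pair hID hinf hφ hgen hA hA hd
    rw [h1, h A hA, mul_zero, zero_mul]

end Fermat.Agent.S56
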