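/-
S56, node [LOC-p-FLAT], cell F-ORD / FO-PEU (helper10).  Prefix `s56fop_`.

`s56fop_main : s56fo_PeuOrder_stmt` — the cocycle of an extension of `ℤ/p` by `μ_p` which has an
order is PEU RAMIFIE.

Part 1 (this file): the group theory of `G = ⟨e, Q⟩` (cocycle identity for `a`, stabiliser of `Q`,
`Γ` acts non-trivially on `G` and on its dual) and Hilbert 90: a radical `β ≠ 0` with
`s • β = ζ ^ (a s).val * β` on all of `Γ`.
-/
import Mathlib
import Fermat.Agent.MZ.Hopf.Char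
import Fermat.Agent.S55.Trans.LocH90
import Fermat.Agent.S56.Flat.Ord.Defs

set_option autoImplicit false
set_option linter.unusedSectionVars false

namespace Fermat.Agent.S56

open Fermat.Agent.MZ Fermat.Agent.S55

noncomputable section

section Group

variable {p : ℕ} [hp : Fact p.Prime] {Γ : Type} [Group Γ] {G : Type} [AddCommGroup G]
  [DistribMulAction Γ G] [Module (ZMod p) G] {ω a : Γ → ZMod p} {e Q : G}

theorem s56fop_val_smul (c : ZMod p) (x : G) : c.val • x = c • x := by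
  rw [← Nat.cast_smul_eq_nsmul (ZMod p), ZMod.natCast_zmod_val]

theorem s56fop_smul_zsmul (s : Γ) (c : ZMod p) (x : G) : s • (c • x) = c • (s • x) := by
  rw [← s56fop_val_smul, ← s56fop_val_smul, smul_comm]

/-- the cocycle identity `a (g h) = a g + ω g * a h`. -/
theorem s56fop_coc (he : e ≠ 0) (hωe : ∀ s : Γ, s • e = ω s • e)
    (hQ : ∀ s : Γ, s • Q = Q + a s • e) (g h : Γ) : a (g * h) = a g + ω g * a h := by
  have h1 : (g * h) • Q = Q + (a g + ω g * a h) • e := by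
    rw [mul_smul, hQ h, smul_add, hQ g, s56fop_smul_zsmul, hωe g, add_smul, mul_smul, add_assoc,
      smul_comm (a h) (ω g) e]
  rw [hQ (g * h)] at h1
  have h2 : (a (g * h) - (a g + ω g * a h)) • e = 0 := by
    rw [sub_smul, add_left_cancel h1, sub_self]
  rcases smul_eq_zero.mp h2 with h3 | h3
  · exact sub_eq_zero.mp h3
  · exact absurd h3 he

/-- `s • Q = Q ↔ a s = 0`. -/
theorem s56fop_stab (he : e ≠ 0) (hQ : ∀ s : Γ, s • Q = Q + a s • e) (s : Γ) :
    s • Q = Q ↔ a s = 0 := by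
  rw [hQ s]
  constructor
  · intro h
    have h1 : a s • e = 0 := by
      have := add_left_cancel (h.trans (add_zero Q).symm)
      exact this
    rcases smul_eq_zero.mp h1 with h3 | h3
    · exact h3
    · exact absurd h3 he
  · intro h
    rw [h, zero_smul, add_zero]

/-- `Γ` acts non-trivially on `G`. -/
theorem s56fop_hG (he : e ≠ 0) (hωe : ∀ s : Γ, s • e = ω s • e) (hω : ∃ s : Γ, ω s ≠ 1) :
    ∃ (σ : Γ) (x : G), σ • x ≠ x := by
  obtain ⟨σ, hσ⟩ := hω
  refine ⟨σ, e, fun h => ?_⟩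
  rw [hωe σ] at h
  have h2 : (ω σ - 1) • e = 0 := by rw [sub_smul, one_smul, h, sub_self]
  rcases smul_eq_zero.mp h2 with h3 | h3
  · exact hσ (sub_eq_zero.mp h3)
  · exact he h3

end Group

section Dual

variable {p : ℕ} [hp : Fact p.Prime] {Γ : Type} [Group Γ] {G : Type} [AddCommGroup G]
  [DistribMulAction Γ G] [Module (ZMod p) G] [Finite G] {ω a : Γ → ZMod p} {e Q : G}
  {L : Type} [Field L] [MulSemiringAction Γ L]

theorem s56fop_char_zsmul (χ : mzo_Dual G L) (c : ZMod p) (x : G) : χ (c • x) = χ x ^ c.val := by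
  rw [← s56fop_val_smul, χ.map_nsmul]

/-- `Γ` acts non-trivially on the dual of `G`. -/
theorem s56fop_hGd (hL : ∀ n : ℕ, n ≠ 0 → ∃ ζ : L, IsPrimitiveRoot ζ n) {ζ : L}
    (hζ : IsPrimitiveRoot ζ p) (hωζ : ∀ s : Γ, s • ζ = ζ ^ (ω s).val)
    (hω : ∃ s : Γ, ω s ≠ 1) (hQ : ∀ s : Γ, s • Q = Q + a s • e)
    (hQne : ∀ c : ZMod p, Q ≠ c • e) :
    ∃ (σ : Γ) (χ : mzo_Dual G L), σ • χ ≠ χ := by
  obtain ⟨σ, hσ⟩ := hω
  have hσ1 : ω σ - 1 ≠ 0 := sub_ne_zero.mpr hσ
  have hx₀ : (ω σ - 1) • Q - a σ • e ≠ 0 := by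
    intro h0
    apply hQne ((ω σ - 1)⁻¹ * a σ)
    rw [mul_smul, ← sub_eq_zero.mp h0, smul_smul, inv_mul_cancel₀ hσ1, one_smul]
  obtain ⟨χ, hχ⟩ := mzo_ch_sep L hL G _ hx₀
  refine ⟨σ, χ, fun h => hχ ?_⟩
  have h1 := (mzo_Dual.smul_eq_self_iff σ χ).mp h Q
  -- `χ Q` is a `p`-th root of unity
  have hroot : χ Q ^ p = 1 := by
    rw [← χ.map_nsmul, ← Nat.cast_smul_eq_nsmul (ZMod p), ZMod.natCast_self, zero_smul, χ.map_zero]
  have : NeZero p := ⟨hp.out.ne_zero⟩
  obtain ⟨j, -, hj⟩ := hζ.eq_pow_of_pow_eq_one hroot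
  have h2 : σ • χ Q = χ (ω σ • Q) := by
    rw [s56fop_char_zsmul, ← hj, smul_pow', hωζ σ, ← pow_mul, ← pow_mul, mul_comm]
  rw [h2, hQ σ] at h1
  have h3 : (ω σ - 1) • Q - a σ • e = ω σ • Q - (Q + a σ • e) := by
    rw [sub_smul, one_smul]; abel
  rw [h3, χ.map_sub, h1, div_self (χ.ne_zero _)]

end Dual

section H90

variable {p : ℕ} [hp : Fact p.Prime] {Γ : Type} [Group Γ] {G : Type} [AddCommGroup G]
  [DistribMulAction Γ G] [Module (ZMod p) G] [Finite G] {ω a : Γ → ZMod p} {e Q : G}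
  {O : Type} [CommRing O] {L : Type} [Field L] [Algebra O L] [MulSemiringAction Γ L]
  {A : ValuationSubring L}

/-- the fixed field of a subgroup. -/
def s56fop_fixedField (U : Subgroup Γ) : Subfield L where
  carrier := {z | ∀ s ∈ U, s • z = z}
  mul_mem' ha hb s hs := by rw [smul_mul', ha s hs, hb s hs]
  one_mem' s _ := smul_one s
  add_mem' ha hb s hs := by rw [smul_add, ha s hs, hb s hs]
  zero_mem' s _ := smul_zero s
  neg_mem' ha s hs := by rw [smul_neg, ha s hs]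
  inv_mem' x hx s hs := by rw [smul_inv'', hx s hs]

theorem s56fop_pow_mod (ζ : L) (hζ : IsPrimitiveRoot ζ p) (n : ℕ) : ζ ^ (n % p) = ζ ^ n := by
  have h1 := pow_mod_orderOf ζ n
  rwa [← hζ.eq_orderOf] at h1

theorem s56fop_zeta_pow (ζ : L) (hζ : IsPrimitiveRoot ζ p) (c d : ZMod p) :
    ζ ^ (c + d).val = ζ ^ c.val * ζ ^ d.val := by
  rw [← pow_add]
  have : NeZero p := ⟨hp.out.ne_zero⟩
  have h1 : (c + d).val = (c.val + d.val) % p := ZMod.val_add c d
  rw [h1]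
  exact s56fop_pow_mod ζ hζ (c.val + d.val)

theorem s56fop_zeta_pow_mul (ζ : L) (hζ : IsPrimitiveRoot ζ p) (c d : ZMod p) :
    ζ ^ (c * d).val = (ζ ^ c.val) ^ d.val := by
  rw [← pow_mul]
  have : NeZero p := ⟨hp.out.ne_zero⟩
  have h1 : (c * d).val = (c.val * d.val) % p := ZMod.val_mul c d
  rw [h1]
  exact s56fop_pow_mod ζ hζ (c.val * d.val)

/-- **Hilbert 90**: a radical on all of `Γ`. -/
theorem s56fop_h90 {H : Subalgebra O (G → L)} (hH : mzo_IsOrder A Γ G H)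
    {ζ : L} (hζ : IsPrimitiveRoot ζ p) (hωζ : ∀ s : Γ, s • ζ = ζ ^ (ω s).val)
    (he : e ≠ 0) (hωe : ∀ s : Γ, s • e = ω s • e) (hQ : ∀ s : Γ, s • Q = Q + a s • e) :
    ∃ β : L, β ≠ 0 ∧ ∀ s : Γ, s • β = ζ ^ (a s).val * β := by
  classical
  -- the kernel of the action on `G`
  let U : Subgroup Γ := (MulAction.toPermHom Γ G).ker
  have hUmem : ∀ s : Γ, s ∈ U ↔ ∀ x : G, s • x = x := by
    intro s
    rw [MonoidHom.mem_ker]
    constructor
    · intro h x
      have := congrArg (fun f : Equiv.Perm G => f x) h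
      exact this
    · intro h
      ext x
      exact h x
  have : U.FiniteIndex := Subgroup.finiteIndex_ker _
  have hU : ∀ s : Γ, s ∈ U ↔ ∀ z ∈ s56fop_fixedField (L := L) U, s • z = z := by
    intro s
    constructor
    · intro hs z hz
      exact hz s hs
    · intro hs
      rw [hUmem]
      intro x
      by_contra hne
      obtain ⟨φ, hφ, hφne⟩ := hH.sep _ _ hne
      apply hφne
      rw [hH.equiv φ hφ s x]
      apply hs
      intro u hu
      rw [← hH.equiv φ hφ u x, (hUmem u).mp hu x]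
  have hζ0 : ζ ≠ 0 := hζ.ne_zero hp.out.ne_zero
  obtain ⟨b, hb0, hb⟩ := tl_h90_of_finiteIndex (s56fop_fixedField (L := L) U) U hU
    (fun s => ζ ^ (a s).val) (fun s => pow_ne_zero _ hζ0)
    (fun g h => by
      show ζ ^ (a (g * h)).val = ζ ^ (a g).val * g • ζ ^ (a h).val
      rw [s56fop_coc he hωe hQ g h, s56fop_zeta_pow ζ hζ, smul_pow', hωζ g,
        s56fop_zeta_pow_mul ζ hζ])
    (fun g s hs => by
      show ζ ^ (a (g * s)).val = ζ ^ (a g).val
      have h1 : a s = 0 := (s56fop_stab he hQ s).mp ((hUmem s).mp hs Q)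
      rw [s56fop_coc he hωe hQ g s, h1, mul_zero, add_zero])
  refine ⟨b⁻¹, inv_ne_zero hb0, fun s => ?_⟩
  have h1 := hb s
  rw [smul_inv'']
  have h2 : b⁻¹ = (ζ ^ (a s).val)⁻¹ * (s • b)⁻¹ := by rw [← mul_inv, h1]
  rw [h2, ← mul_assoc, mul_inv_cancel₀ (pow_ne_zero _ hζ0), one_mul]

end H90

end

end Fermat.Agent.S56
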