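/-
S56, node [LOC-p-FLAT], cell F-ORD / FO-PEU (helper10), Part 2.  Prefix `s56fop_`.

* `s56fop_caseA` : a radical `β` on all of `Γ` with `v (β ^ p) = v p ^ (p i')` can be normalised to
  a peu-ramifie datum (`hperf`);
* `s56fop_caseB` : a radical `β` with `v (β ^ p) = v p ^ i`, `p ∤ i`, is impossible when `G` has an
  order (different of the point field: `s56fd_sq` + `s56fe_main_mono` + `s56kt_T5_peu` +
  `s56f_df_main`);
* `s56fop_main : s56fo_PeuOrder_stmt`.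
-/
import Mathlib
import Fermat.Agent.S56.Flat.Ord.Peu
import Fermat.Agent.S56.Flat.Mono
import Fermat.Agent.S56.Flat.LD
import Fermat.Agent.S56.Flat.Efn
import Fermat.Agent.S56.Flat.Diff
import Fermat.Agent.S56.Flat.SSAux
import Fermat.Agent.S56.KumT.Ctx

set_option autoImplicit false
set_option linter.unusedSectionVars false

namespace Fermat.Agent.S56

open Fermat.Agent.MZ Polynomial

noncomputable section

section CaseA

variable {p : ℕ} {O : Type} [CommRing O] [IsDomain O] [IsDiscreteValuationRing O]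
  {L : Type} [Field L] [Algebra O L] {A : ValuationSubring L}
  {Γ : Type} [Group Γ] [MulSemiringAction Γ L]

theorem s56fop_smul_zpow (s : Γ) (x : L) (n : ℤ) : s • x ^ n = (s • x) ^ n :=
  map_zpow₀ (MulSemiringAction.toRingHom Γ L s) x n

/-- **case `p ∣ i`**: normalisation to a peu-ramifie datum. -/
theorem s56fop_caseA (hctx : mzo_Ctx p O L A Γ)
    (hperf : ∀ x : O, ∃ y : O, algebraMap O L (y ^ p - x) ∈ A.nonunits)
    {ζ β : L} {a : Γ → ZMod p} (hζp : ζ ^ p = 1) (hβ0 : β ≠ 0)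
    (hβ : ∀ s : Γ, s • β = ζ ^ (a s).val * β) {i' : ℤ}
    (hv : A.valuation (β ^ p) = A.valuation (p : L) ^ ((p : ℤ) * i')) : s56fo_Peu O p ζ a := by
  have hpne : (p : L) ≠ 0 := hctx.r_ne
  have hvp0 : A.valuation (p : L) ≠ 0 := (Valuation.ne_zero_iff _).mpr hpne
  have hp0 : p ≠ 0 := hctx.r_prime.ne_zero
  obtain ⟨π, hπ⟩ : ∃ π : L, π = (p : L) ^ i' := ⟨_, rfl⟩
  have hπ0 : π ≠ 0 := by rw [hπ]; exact zpow_ne_zero _ hpne
  have hπfix : ∀ s : Γ, s • π = π := fun s => by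
    rw [hπ, s56fop_smul_zpow, mzo_smul_natCast]
  have hvπ : A.valuation π = A.valuation (p : L) ^ i' := by rw [hπ, map_zpow₀]
  -- `β₁ = β / π` has `v (β₁ ^ p) = 1`
  have hβ1 : ∀ s : Γ, s • (β * π⁻¹) = ζ ^ (a s).val * (β * π⁻¹) := fun s => by
    rw [smul_mul', smul_inv'', hπfix s, hβ s, mul_assoc]
  have hv1 : A.valuation ((β * π⁻¹) ^ p) = 1 := by
    rw [mul_pow, map_mul, hv, inv_pow, map_inv₀, map_pow, hvπ, mul_comm (p : ℤ) i', zpow_mul,
      zpow_natCast]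
    exact mul_inv_cancel₀ (pow_ne_zero _ (zpow_ne_zero _ hvp0))
  have hfix1 : ∀ s : Γ, s • (β * π⁻¹) ^ p = (β * π⁻¹) ^ p := fun s => by
    rw [smul_pow', hβ1 s, mul_pow, ← pow_mul, mul_comm _ p, pow_mul, hζp, one_pow, one_mul]
  have hmem1 : (β * π⁻¹) ^ p ∈ A := by
    rw [← A.valuation_le_one_iff, hv1]
  obtain ⟨o, ho⟩ := hctx.exists_of_fixed hmem1 hfix1
  obtain ⟨y, hy⟩ := hperf o
  obtain ⟨x₁, hx₁⟩ := hctx.dvd_of_nonunit hy
  -- `y` is a unit of `O`
  have hyu : IsUnit y := by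
    by_contra hnu
    have h1 : A.valuation (algebraMap O L y) < 1 :=
      (ValuationSubring.mem_nonunits_iff (A := A)).mp ((hctx.nonunit_iff y).mpr hnu)
    have h2 : A.valuation (algebraMap O L (y ^ p)) < 1 := by
      rw [map_pow, map_pow]
      exact pow_lt_one₀ zero_le h1 hp0
    have h3 : A.valuation (algebraMap O L (y ^ p - o)) < 1 :=
      (ValuationSubring.mem_nonunits_iff (A := A)).mp hy
    have h4 : algebraMap O L o = algebraMap O L (y ^ p) - algebraMap O L (y ^ p - o) := by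
      rw [← map_sub]; congr 1; ring
    have h5 : A.valuation (algebraMap O L o) < 1 := by
      rw [h4]
      exact lt_of_le_of_lt (A.valuation.map_sub _ _) (max_lt h2 h3)
    rw [ho, hv1] at h5
    exact lt_irrefl _ h5
  obtain ⟨y', hy'⟩ := hyu.exists_right_inv
  have hy'0 : algebraMap O L y' ≠ 0 := by
    intro h0
    have := congrArg (algebraMap O L) hy'
    rw [map_mul, h0, mul_zero, map_one] at this
    exact zero_ne_one this
  refine ⟨β * π⁻¹ * algebraMap O L y', -(x₁ * y' ^ p),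
    mul_ne_zero (mul_ne_zero hβ0 (inv_ne_zero hπ0)) hy'0, fun s => ?_, ?_⟩
  · rw [smul_mul', hβ1 s, hctx.fixed y' s, mul_assoc]
  · rw [mul_pow, ← ho, ← map_pow, ← map_mul]
    have h1 : o * y' ^ p = 1 + ((p : ℕ) : O) * (-(x₁ * y' ^ p)) := by
      have h2 : o = y ^ p - ((p : ℕ) : O) * x₁ := by rw [← hx₁]; ring
      have h3 : y ^ p * y' ^ p = 1 := by rw [← mul_pow, hy', one_pow]
      rw [h2, sub_mul, h3]; ring
    rw [h1, map_add, map_one, map_mul, map_natCast]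

end CaseA

section CaseB

variable {p : ℕ} [hp : Fact p.Prime] {O : Type} [CommRing O] [IsDomain O]
  [IsDiscreteValuationRing O]
  {L : Type} [Field L] [Algebra O L] {A : ValuationSubring L}
  {Γ : Type} [Group Γ] [MulSemiringAction Γ L]
  {G : Type} [AddCommGroup G] [DistribMulAction Γ G] [Fintype G] [DecidableEq G]
  [Module (ZMod p) G] {ω a : Γ → ZMod p} {e Q : G}

/-- a radical is fixed exactly by the kernel of its character. -/
theorem s56fop_rad_fix {ζ β : L} (hζ : IsPrimitiveRoot ζ p) (hβ0 : β ≠ 0)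
    (hβ : ∀ s : Γ, s • β = ζ ^ (a s).val * β) (s : Γ) : s • β = β ↔ a s = 0 := by
  have : NeZero p := ⟨hp.out.ne_zero⟩
  rw [hβ s]
  constructor
  · intro h
    have h1 : ζ ^ (a s).val = 1 := by
      have h2 : ζ ^ (a s).val * β = 1 * β := by rw [h, one_mul]
      exact mul_right_cancel₀ hβ0 h2
    have h3 := (hζ.pow_eq_one_iff_dvd _).mp h1
    have h4 : (a s).val = 0 := Nat.eq_zero_of_dvd_of_lt h3 (ZMod.val_lt _)
    exact (ZMod.val_eq_zero _).mp h4
  · intro h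
    rw [h, ZMod.val_zero, pow_zero, one_mul]

/-- **case `p ∤ i`** is impossible. -/
theorem s56fop_caseB (hctx : mzo_Ctx p O L A Γ)
    (hL : ∀ n : ℕ, n ≠ 0 → ∃ ζ : L, IsPrimitiveRoot ζ n)
    {H : Subalgebra O (G → L)} (hH : mzo_IsOrder A Γ G H) (hcard : Fintype.card G = p ^ 2)
    {ζ : L} (hζ : IsPrimitiveRoot ζ p) (hωζ : ∀ s : Γ, s • ζ = ζ ^ (ω s).val)
    (hω : ∃ s : Γ, ω s ≠ 1) (he : e ≠ 0) (hωe : ∀ s : Γ, s • e = ω s • e)
    (hQ : ∀ s : Γ, s • Q = Q + a s • e) (hQne : ∀ c : ZMod p, Q ≠ c • e)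
    {β : L} (hβ0 : β ≠ 0) (hβ : ∀ s : Γ, s • β = ζ ^ (a s).val * β) {m : ℕ}
    (hv : A.valuation (β ^ p) = A.valuation (p : L) ^ m) (hpm : ¬ p ∣ m) : False := by
  have : NeZero p := ⟨hp.out.ne_zero⟩
  have hpG : ∀ x : G, p • x = 0 := fun x => by
    rw [← Nat.cast_smul_eq_nsmul (ZMod p), ZMod.natCast_self, zero_smul]
  -- the stabiliser of `Q` and a transversal
  obtain ⟨R, hR⟩ := s56fa_exists_transversal (Γ := Γ) Q (Set.toFinite _)
  have hSQ : ∀ σ : Γ, σ ∈ MulAction.stabilizer Γ Q ↔ σ • Q = Q := fun σ =>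
    MulAction.mem_stabilizer_iff
  have hSβ : ∀ σ : Γ, σ ∈ MulAction.stabilizer Γ Q ↔ σ • β = β := fun σ => by
    rw [hSQ, s56fop_stab he hQ, s56fop_rad_fix hζ hβ0 hβ]
  -- the element of the trace dual
  have hfixu : ∀ σ : Γ, σ • β ^ p = β ^ p := fun σ => by
    rw [smul_pow', hβ σ, mul_pow, ← pow_mul, mul_comm _ p, pow_mul, hζ.pow_eq_one, one_pow,
      one_mul]
  obtain ⟨y, hyS, hdual, hnot⟩ := s56kt_T5_peu hctx hfixu hv hpm rfl hR
    (fun s hs => (hSβ s).mp hs)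
  -- `p δ₀ ∈ H`
  obtain ⟨hlam, -⟩ := s56fd_sq hctx hL hH hcard (s56fop_hG he hωe hω)
    (s56fop_hGd hL hζ hωζ hω hQ hQne)
  -- the uniformiser of the point field
  have hfin : (MulAction.orbit Γ β).Finite := by
    apply Set.Finite.subset (Set.finite_range (fun c : ZMod p => ζ ^ c.val * β))
    rintro _ ⟨s, rfl⟩
    exact ⟨a s, (hβ s).symm⟩
  obtain ⟨ϖ, hϖ, hiff, -, hmono⟩ := s56fe_main_mono hctx β hfin
  have hN : ∀ b ∈ A, (∀ s ∈ MulAction.stabilizer Γ Q, s • b = b) →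
      ∃ g : O[X], aeval ϖ g = b := by
    intro b hb hbS
    obtain ⟨o, ho⟩ := hmono b hb (fun σ hσ => hbS σ ((hSβ σ).mpr hσ))
    refine ⟨∑ i : Fin hfin.toFinset.card, C (o i) * X ^ (i : ℕ), ?_⟩
    rw [map_sum, ho]
    refine Finset.sum_congr rfl fun i _ => ?_
    rw [map_mul, aeval_C, map_pow, aeval_X]
  have hmain := s56f_df_main hctx hH hlam p hpG hR hSQ (ValuationSubring.nonunits_subset hϖ)
    (fun s hs => (hiff s).mpr ((hSβ s).mp hs)) hN hyS hdual
  apply hnot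
  have h1 : (p : L) ^ 2 * y ^ 2 = (p : L) * (p : L) * y ^ 2 := by ring
  rw [h1]
  exact hmain

end CaseB

section Main

/-- **cell FO-PEU.** -/
theorem s56fop_main : s56fo_PeuOrder_stmt := by
  intro p O _ _ _ L _ _ A Γ _ _ hctx _ hL hperf ζ hζ G _ _ _ H hH hcard hpG ω a e Q hωζ hω he hωe
    hQ hQne
  classical
  have : Fact p.Prime := ⟨hctx.r_prime⟩
  have : NeZero p := ⟨hctx.r_prime.ne_zero⟩
  let _ : Module (ZMod p) G := AddCommGroup.zmodModule hpG
  let _ : Fintype G := Fintype.ofFinite G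
  have hωe' : ∀ s : Γ, s • e = ω s • e := fun s => by rw [hωe s, s56fop_val_smul]
  have hQ' : ∀ s : Γ, s • Q = Q + a s • e := fun s => by rw [hQ s, s56fop_val_smul]
  have hQne' : ∀ c : ZMod p, Q ≠ c • e := fun c => by
    rw [← s56fop_val_smul]; exact hQne c.val
  have hcard' : Fintype.card G = p ^ 2 := by rw [← Nat.card_eq_fintype_card, hcard]
  -- Hilbert 90
  obtain ⟨β, hβ0, hβ⟩ := s56fop_h90 hH hζ hωζ he hωe' hQ'
  have hfixu : ∀ σ : Γ, σ • β ^ p = β ^ p := fun σ => by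
    rw [smul_pow', hβ σ, mul_pow, ← pow_mul, mul_comm _ p, pow_mul, hζ.pow_eq_one, one_pow,
      one_mul]
  obtain ⟨i, hi⟩ := s56fm_val_fixed hctx (pow_ne_zero p hβ0) hfixu
  by_cases hpi : (p : ℤ) ∣ i
  · obtain ⟨i', rfl⟩ := hpi
    exact s56fop_caseA hctx hperf hζ.pow_eq_one hβ0 hβ hi
  · exfalso
    -- scale `β` by a power of `p` to make the exponent a natural number
    have hpne : (p : L) ≠ 0 := hctx.r_ne
    have hvp0 : A.valuation (p : L) ≠ 0 := (Valuation.ne_zero_iff _).mpr hpne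
    obtain ⟨N, hN⟩ : ∃ N : ℕ, 0 ≤ i + (p : ℤ) * N := by
      refine ⟨i.natAbs, ?_⟩
      have h1 : (1 : ℤ) ≤ p := by exact_mod_cast hctx.r_prime.one_le
      have h2 : -(i.natAbs : ℤ) ≤ i := by omega
      have h3 : (0 : ℤ) ≤ (i.natAbs : ℤ) := Int.natCast_nonneg _
      nlinarith
    obtain ⟨m, hm⟩ := Int.eq_ofNat_of_zero_le hN
    have hpm : ¬ p ∣ m := by
      intro hd
      apply hpi
      have h1 : (p : ℤ) ∣ (m : ℤ) := Int.natCast_dvd_natCast.mpr hd
      rw [← hm] at h1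
      exact (Int.dvd_add_left (Dvd.intro _ rfl)).mp h1
    have hβN0 : β * (p : L) ^ N ≠ 0 := mul_ne_zero hβ0 (pow_ne_zero _ hpne)
    have hβN : ∀ s : Γ, s • (β * (p : L) ^ N) = ζ ^ (a s).val * (β * (p : L) ^ N) := fun s => by
      rw [smul_mul', smul_pow', mzo_smul_natCast, hβ s, mul_assoc]
    have hvN : A.valuation ((β * (p : L) ^ N) ^ p) = A.valuation (p : L) ^ m := by
      rw [mul_pow, map_mul, hi, ← pow_mul, map_pow, ← zpow_natCast (A.valuation (p : L)) (N * p),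
        ← zpow_add₀ hvp0, ← zpow_natCast (A.valuation (p : L)) m, ← hm]
      congr 1
      push_cast
      ring
    exact s56fop_caseB hctx hL hH hcard' hζ hωζ hω he hωe' hQ' hQne' hβN0 hβN hvN hpm

end Main

end

end Fermat.Agent.S56
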