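/-
Project S56, node [LOC-p-FLAT], cell F-ORD (ordinary case; owner helper1).  Prefix `s56fo_`.
**THE ORDINARY CASE OF [LOC-p-FLAT].**

`rb : FramedResidual k`, `P | p` a place of `Q̄`, and the inertia group `I_P` acts trivially on
`k² / k u₀` for some `u₀ ≠ 0`.  Then the cocycles of the flat lifts of `rb` to `k[ε]` with
cyclotomic determinant span a space of dimension `≤ h⁰(D_P, ad⁰) + 1` modulo the coboundaries on
`D_P` (`s56fo_main`).
-/
import Mathlib
import Fermat.Agent.S56.Flat.Ord.Dep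
import Fermat.Agent.S56.Flat.Ord.Norm
import Fermat.Agent.S56.Flat.Ord.Peu2
import Fermat.Agent.S56.Flat.Ord.Lam

set_option autoImplicit false
set_option linter.unusedSectionVars false
set_option linter.style.haveILetI false

noncomputable section

namespace Fermat.Agent.S56

open Fermat.Agent.MZ Fermat.Agent.FF Fermat.Agent.S53 Matrix ExtCitation Module

variable {k : Type} [Field k] {p : ℕ} [Fact p.Prime] [Algebra (ZMod p) k]

/-- the open subgroups of `G_ℚ`. -/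
def s56fo_opens : Set (Subgroup GQ) :=
  {U | ∃ L : IntermediateField ℚ ff_Qb, FiniteDimensional ℚ L ∧ U = L.fixingSubgroup}

theorem s56fo_opens_inf : ∀ U ∈ s56fo_opens, ∀ V ∈ s56fo_opens, ∃ W ∈ s56fo_opens, W ≤ U ⊓ V := by
  rintro U ⟨L, hL, rfl⟩ V ⟨L', hL', rfl⟩
  haveI := hL
  haveI := hL'
  refine ⟨(L ⊔ L').fixingSubgroup, ⟨L ⊔ L', IntermediateField.finiteDimensional_sup L L', rfl⟩, ?_⟩
  rw [IntermediateField.fixingSubgroup_sup]

/-- **the ordinary case of [LOC-p-FLAT]**, given the two seams. -/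
theorem s56fo_main_of [Finite k] (hPeu : s56fo_PeuOrder_stmt) (hLam : s56fo_LangDep_stmt)
    (hp2 : p ≠ 2) (rb : FramedResidual k) (P : ValuationSubring ff_Qb) (hP : P.LiesOverPrime p)
    (hord : ∃ u₀ : Fin 2 → k, u₀ ≠ 0 ∧ ∀ s ∈ P.inertiaSubgroupIn ℚ, ∀ v : Fin 2 → k,
      ∃ t : k, rb s *ᵥ v - v = t • u₀) :
    s56a_LocShape rb (P.decompositionSubgroup ℚ)
      (fun r => r.toGaloisRepAdic.DetIsCyclotomic p ∧ r.toGaloisRepAdic.IsFlatAt p) 1 := by
  classical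
  have hpr : p.Prime := Fact.out
  by_cases hex : (s56fo_F p rb).Nonempty
  · obtain ⟨u₀, hu, hord⟩ := hord
    obtain ⟨u₁, hu01⟩ := s56fo_detw_surjective hu 1
    obtain ⟨Dg, hDtr, hD1, hD2⟩ := s56o_exists_Dg hu
    haveI : NeZero p := ⟨hpr.ne_zero⟩
    obtain ⟨ζ, hζ⟩ := HasEnoughRootsOfUnity.exists_primitiveRoot ff_Qb p
    have hdet : ∀ σ : GQ, (rb σ).det = ((cycloExp p σ : ℕ) : k) := by
      obtain ⟨c, r, hr, hdet, -, -⟩ := hex
      intro σ
      rw [← hr, s56fo_det_bar r hdet]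
    have S : s56fo_Data p rb P u₀ u₁ Dg ζ := ⟨hP, hp2, hu01, hord, hDtr, hD1, hD2, hζ, hdet⟩
    have hID := s56fo_inertia_le P
    -- the normalised unramified character
    obtain ⟨φ, hφ, hF, -, -, -⟩ := s56fo_frob p P hP
    obtain ⟨A₀, -, hA₀⟩ := s56fo_norm (k := k) (P.decompositionSubgroup ℚ)
      (P.inertiaSubgroupIn ℚ) hID s56fo_opens s56fo_opens_inf hφ (by
        rintro U ⟨L, hL, rfl⟩ d hd
        haveI := hL
        exact s56ld_frob_gen' P L hF hpr hP hd)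
    -- the shape of the cocycle of a flat lift
    have h1 : ∀ c ∈ s56fo_F p rb, s56fo_Shape rb (P.decompositionSubgroup ℚ) u₀ Dg A₀ c := by
      rintro c ⟨r, hr, hdetr, hflat, rfl⟩
      obtain ⟨m, A, hm, hshape, hAadd, hAI, hAone, -⟩ :=
        s56fo_lift hPeu hp2 rb P hP hu01 hord hD1 hD2 hζ r hr hdetr hflat
      obtain ⟨L, hL, hlev⟩ := s56t_exists_level r
      have hunr : s56fo_IsUnr (P.decompositionSubgroup ℚ) (P.inertiaSubgroupIn ℚ) s56fo_opens A :=
        ⟨hAadd, hAI, L.fixingSubgroup, ⟨L, hL, rfl⟩, fun s hs hsU =>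
          hAone s hs (hlev s ((IntermediateField.mem_fixingSubgroup_iff _ _).1 hsU))⟩
      obtain ⟨a, ha⟩ := hA₀ A hunr
      refine ⟨m, a, hm, fun σ hσ => ?_⟩
      rw [← ha σ hσ]
      exact hshape σ hσ
    have hcount := s56fo_count rb (P.decompositionSubgroup ℚ) u₀ hu Dg hDtr hD1
      (fun σ hσ => S.d_Dg hσ) A₀ (s56fo_F p rb) h1 (s56fo_dep hPeu hLam S hex)
    exact ⟨Submodule.span k (s56fo_F p rb),
      fun r hr hPr => Submodule.subset_span ⟨r, hr, hPr.1, hPr.2, rfl⟩, hcount.1, hcount.2⟩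
  · refine ⟨⊥, fun r hr hPr => absurd ⟨_, r, hr, hPr.1, hPr.2, rfl⟩ hex, ?_⟩
    obtain ⟨hfin, -, hle1⟩ := s56o_count_abs
      ((s56a_cobOn rb (P.decompositionSubgroup ℚ)).comap
        (⊥ : Submodule k (GQ → Matrix (Fin 2) (Fin 2) k)).subtype) 0 0
      (fun c => ⟨0, 0, by
        have : c = 0 := Subsingleton.elim _ _
        rw [this]
        simp⟩)
    refine ⟨hfin, ?_⟩
    have := hle1 1 0 (Or.inl one_ne_zero) (by simp)
    omega

/-- **THE ORDINARY CASE OF [LOC-p-FLAT]** (unconditional). -/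
theorem s56fo_main [Finite k] (hp2 : p ≠ 2) (rb : FramedResidual k)
    (P : ValuationSubring ff_Qb) (hP : P.LiesOverPrime p)
    (hord : ∃ u₀ : Fin 2 → k, u₀ ≠ 0 ∧ ∀ s ∈ P.inertiaSubgroupIn ℚ, ∀ v : Fin 2 → k,
      ∃ t : k, rb s *ᵥ v - v = t • u₀) :
    s56a_LocShape rb (P.decompositionSubgroup ℚ)
      (fun r => r.toGaloisRepAdic.DetIsCyclotomic p ∧ r.toGaloisRepAdic.IsFlatAt p) 1 :=
  s56fo_main_of s56fop_main s56fol_main hp2 rb P hP hord

end Fermat.Agent.S56
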