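/-
Project S56, node [LOC-p-FLAT], cell F-ORD (ordinary case; owner helper1).  Prefix `s56fo_`.
THE LIFTED LINE OF A FLAT DEFORMATION IN THE ORDINARY CASE.

`r : FramedRep k[ε]` flat at `p`, `P` a place over `p` with inertia group `I_P`; the reduction `r̄`
is ORDINARY: `(s - 1) V̄ ⊆ k u₀` for `s ∈ I_P`, and some `s₀ ∈ I_P` has `r̄ s₀ u₀ = x₀ u₀`, `x₀ ≠ 1`.
Then there is `b₀ ∈ k[ε]²` lifting `u₀` with `(s - 1) V ⊆ k[ε] b₀` for all `s ∈ I_P`
(`s56fo_line`).

Proof: the order `H` of `V = k[ε]²` (`s56fi_order`), its connected part `X⁰` (`s56fl_X0`);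
`(s - 1) v ∈ X⁰` (L2); an `I_P`-invariant additive map onto a group killed by `p` kills `X⁰`
((REL) with the trivial action: `s56fo_rel_triv`); applied to `v ↦ det (v mod ε, u₀)` on `V` and
to `w ↦ det (w, u₀)` on `ε V̄ ≅ V̄` (restricted order).
-/
import Mathlib
import Fermat.Agent.S56.Flat.Inst
import Fermat.Agent.S56.Flat.Near
import Fermat.Agent.S56.LocP.Alg

set_option autoImplicit false
set_option linter.unusedSectionVars false
set_option linter.style.haveILetI false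

noncomputable section

namespace Fermat.Agent.S56

open Fermat.Agent.MZ Fermat.Agent.FF Fermat.Agent.S53 Matrix

/-! ### (REL) with the trivial action -/

section Rel

variable {r : ℕ} {O : Type} [CommRing O] [IsDomain O] [IsDiscreteValuationRing O]
  {L : Type} [Field L] [Algebra O L] {A : ValuationSubring L}
  {Γ : Type} [Group Γ] [MulSemiringAction Γ L]
  {G : Type} [AddCommGroup G] [DistribMulAction Γ G] {H : Subalgebra O (G → L)}

/-- **(REL), trivial action**: a `Γ`-invariant additive map onto a group killed by `r` (odd) kills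
the connected part. -/
theorem s56fo_rel_triv [Finite G] (hctx : mzo_Ctx r O L A Γ) (hr2 : r ≠ 2)
    (hH : mzo_IsOrder A Γ G H) {E : Type} [AddCommGroup E] (π : G →+ E)
    (hπ : Function.Surjective π) (hπe : ∀ (σ : Γ) (x : G), π (σ • x) = π x) {x : G}
    (hx : x ∈ s56fl_X0 hH) (hrx : r • π x = 0) : π x = 0 := by
  letI : DistribMulAction Γ E :=
    { smul := fun _ e => e
      one_smul := fun _ => rfl
      mul_smul := fun _ _ _ => rfl
      smul_zero := fun _ => rfl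
      smul_add := fun _ _ _ => rfl }
  exact s56fl_rel hctx hr2 hH π hπ (fun σ x => hπe σ x) hx (fun _ => rfl) hrx

/-- the connected part of a restricted order. -/
theorem s56fo_X0_restr {F : Type} [AddCommGroup F] [DistribMulAction Γ F] (ι : F →+ G)
    (hH : mzo_IsOrder A Γ G H) (hH' : mzo_IsOrder A Γ F (mzo_restr (⇑ι) H)) {w : F}
    (hw : ι w ∈ s56fl_X0 hH) : w ∈ s56fl_X0 hH' := by
  rw [s56fl_mem_X0] at hw ⊢
  rintro _ ⟨φ, hφ, rfl⟩
  have := hw φ hφ
  simpa only [Function.comp_apply, map_zero] using this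

end Rel

/-! ### the determinant pairing with `u₀` -/

section Det

variable {k : Type} [Field k]

/-- `w ↦ det (w, u₀)` -/
def s56fo_detw (u₀ : Fin 2 → k) : (Fin 2 → k) →+ k where
  toFun w := w 0 * u₀ 1 - w 1 * u₀ 0
  map_zero' := by simp
  map_add' v w := by simp only [Pi.add_apply]; ring

theorem s56fo_detw_apply (u₀ w : Fin 2 → k) : s56fo_detw u₀ w = w 0 * u₀ 1 - w 1 * u₀ 0 := rfl

theorem s56fo_detw_smul (u₀ : Fin 2 → k) (t : k) : s56fo_detw u₀ (t • u₀) = 0 := by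
  rw [s56fo_detw_apply]
  simp only [Pi.smul_apply, smul_eq_mul]
  ring

theorem s56fo_detw_surjective {u₀ : Fin 2 → k} (hu : u₀ ≠ 0) :
    Function.Surjective (s56fo_detw u₀) := by
  intro a
  by_cases h1 : u₀ 1 = 0
  · have h0 : u₀ 0 ≠ 0 := by
      intro h0
      apply hu
      funext i
      fin_cases i
      · exact h0
      · exact h1
    refine ⟨![0, - a / u₀ 0], ?_⟩
    rw [s56fo_detw_apply]
    simp only [Matrix.cons_val_zero, Matrix.cons_val_one]
    field_simp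
    ring
  · refine ⟨![a / u₀ 1, 0], ?_⟩
    rw [s56fo_detw_apply]
    simp only [Matrix.cons_val_zero, Matrix.cons_val_one]
    field_simp
    ring

/-- `det (w, u₀) = 0` ⟹ `w ∈ k u₀`. -/
theorem s56fo_detw_eq_zero {u₀ : Fin 2 → k} (hu : u₀ ≠ 0) {w : Fin 2 → k}
    (h : s56fo_detw u₀ w = 0) : ∃ t : k, w = t • u₀ := by
  rw [s56fo_detw_apply] at h
  by_cases h1 : u₀ 1 = 0
  · have h0 : u₀ 0 ≠ 0 := by
      intro h0
      apply hu
      funext i
      fin_cases i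
      · exact h0
      · exact h1
    rw [h1, mul_zero, zero_sub, neg_eq_zero, mul_eq_zero] at h
    have hw1 : w 1 = 0 := h.resolve_right h0
    refine ⟨w 0 / u₀ 0, ?_⟩
    funext i
    fin_cases i
    · simp only [Fin.zero_eta, Pi.smul_apply, smul_eq_mul]
      field_simp
    · simp only [Fin.mk_one, Pi.smul_apply, smul_eq_mul, h1, mul_zero]
      exact hw1
  · refine ⟨w 1 / u₀ 1, ?_⟩
    funext i
    fin_cases i
    · simp only [Fin.zero_eta, Pi.smul_apply, smul_eq_mul]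
      field_simp
      linear_combination h
    · simp only [Fin.mk_one, Pi.smul_apply, smul_eq_mul]
      field_simp

end Det

/-! ### the lifted line -/

section Line

variable {k : Type} [Field k]

/-- `w ↦ det (w, u₀)` on the module `k²` of a matrix representation. -/
def s56fo_detM (B : GQ →* Matrix (Fin 2) (Fin 2) k) (u₀ : Fin 2 → k) : s56fi_Mod B →+ k where
  toFun w := s56fo_detw u₀ (s56fi_vec B w)
  map_zero' := map_zero (s56fo_detw u₀)
  map_add' _ _ := map_add (s56fo_detw u₀) _ _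

theorem s56fo_detM_apply (B : GQ →* Matrix (Fin 2) (Fin 2) k) (u₀ : Fin 2 → k) (w : s56fi_Mod B) :
    s56fo_detM B u₀ w = s56fo_detw u₀ (s56fi_vec B w) := rfl

theorem s56fo_detM_surjective (B : GQ →* Matrix (Fin 2) (Fin 2) k) {u₀ : Fin 2 → k} (hu : u₀ ≠ 0) :
    Function.Surjective (s56fo_detM B u₀) := fun a => by
  obtain ⟨w, hw⟩ := s56fo_detw_surjective hu a
  exact ⟨s56fi_of B w, hw⟩

/-- invariance of `det (·, u₀)` under a matrix `M` with `(M - 1) V̄ ⊆ k u₀`. -/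
theorem s56fo_detM_smul (B : GQ →* Matrix (Fin 2) (Fin 2) k) (u₀ : Fin 2 → k) (σ : GQ)
    (h : ∀ v : Fin 2 → k, ∃ t : k, B σ *ᵥ v - v = t • u₀) (w : s56fi_Mod B) :
    s56fo_detM B u₀ (σ • w) = s56fo_detM B u₀ w := by
  obtain ⟨t, ht⟩ := h (s56fi_vec B w)
  have h1 : s56fi_vec B (σ • w) = s56fi_vec B w + t • u₀ := by
    rw [← ht]
    show (B σ).mulVec (s56fi_vec B w) = _
    abel
  rw [s56fo_detM_apply, s56fo_detM_apply, h1, map_add, s56fo_detw_smul, add_zero]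

/-- `ε (t u₀) = (0, t) • b₀` when `b₀` lifts `u₀`. -/
theorem s56fo_eps_smul_eq (r : FramedRep (DualNumber k)) (b₀ : s56fi_Mod r.toMonoidHom)
    (u₀ : Fin 2 → k) (hb₀ : ∀ i, (s56fi_vec _ b₀ i).fst = u₀ i) (t : k) :
    s56fi_eps r (s56fi_of _ (t • u₀)) = (TrivSqZeroExt.inr t : DualNumber k) • b₀ := by
  funext i
  show TrivSqZeroExt.inr ((t • u₀) i) = (TrivSqZeroExt.inr t : DualNumber k) * s56fi_vec _ b₀ i
  apply TrivSqZeroExt.ext
  · rw [TrivSqZeroExt.fst_inr, TrivSqZeroExt.fst_mul, TrivSqZeroExt.fst_inr, zero_mul]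
  · rw [TrivSqZeroExt.snd_inr, DualNumber.snd_mul, TrivSqZeroExt.fst_inr, TrivSqZeroExt.snd_inr,
      zero_mul, zero_add, hb₀ i, Pi.smul_apply, smul_eq_mul]

/-- **the lifted line.** -/
theorem s56fo_line [Finite k] (p : ℕ) [Fact p.Prime] (hp2 : p ≠ 2) (hpk : (p : k) = 0)
    (r : FramedRep (DualNumber k)) (hflat : r.toGaloisRepAdic.IsFlatAt p)
    (P : ValuationSubring ff_Qb) (hP : P.LiesOverPrime p)
    {u₀ : Fin 2 → k} (hu : u₀ ≠ 0)
    (hord : ∀ s ∈ P.inertiaSubgroupIn ℚ, ∀ v : Fin 2 → k, ∃ t : k,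
      s56t_bar r s *ᵥ v - v = t • u₀)
    {s₀ : GQ} (hs₀ : s₀ ∈ P.inertiaSubgroupIn ℚ) {x₀ : k}
    (hx₀ : s56t_bar r s₀ *ᵥ u₀ = x₀ • u₀) (hx₀1 : x₀ ≠ 1) :
    ∃ b₀ w₀ : Fin 2 → DualNumber k, s56oa_vfst b₀ = u₀ ∧ b₀ = r s₀ *ᵥ w₀ - w₀ ∧
      ∀ s ∈ P.inertiaSubgroupIn ℚ, ∀ v : Fin 2 → DualNumber k, ∃ α : DualNumber k,
        r s *ᵥ v - v = α • b₀ := by
  classical
  have hctx := mzg_ctx p P hP
  haveI : IsDiscreteValuationRing ↥(ffi_O P ↥(ffi_L P)) := mzg_ctx_dvr p P hP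
  haveI : Finite (DualNumber k) := inferInstanceAs (Finite (k × k))
  obtain ⟨H, hH⟩ := s56fi_order r p hflat P hP
  have hH' := mzo_restr_isOrder (s56fi_eps r) (s56fi_eps_injective r)
    (fun (σ : ↥(P.inertiaSubgroupIn ℚ)) x => s56fi_eps_smul r (σ : GQ) x) hH
  -- the two invariant maps
  have hpk' : ∀ a : k, p • a = 0 := fun a => by rw [nsmul_eq_mul, hpk, zero_mul]
  have hK1 : ∀ x : s56fi_Mod r.toMonoidHom, x ∈ s56fl_X0 hH →
      s56fo_detM (s56t_bar r) u₀ (s56fi_red r x) = 0 := by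
    intro x hx
    refine s56fo_rel_triv hctx hp2 hH ((s56fo_detM (s56t_bar r) u₀).comp (s56fi_red r))
      ((s56fo_detM_surjective _ hu).comp (s56fi_red_surjective r)) (fun σ y => ?_) hx (hpk' _)
    show s56fo_detM (s56t_bar r) u₀ (s56fi_red r ((σ : GQ) • y)) = _
    rw [s56fi_red_smul, s56fo_detM_smul _ _ _ (hord _ σ.2)]
    rfl
  have hK2 : ∀ w : s56fi_Mod (s56t_bar r), s56fi_eps r w ∈ s56fl_X0 hH →
      s56fo_detM (s56t_bar r) u₀ w = 0 := by
    intro w hw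
    have hw' := s56fo_X0_restr (s56fi_eps r) hH hH' hw
    refine s56fo_rel_triv hctx hp2 hH' (s56fo_detM (s56t_bar r) u₀)
      (s56fo_detM_surjective _ hu) (fun σ y => ?_) hw' (hpk' _)
    exact s56fo_detM_smul _ _ _ (hord _ σ.2) y
  -- the generator
  set vt : s56fi_Mod r.toMonoidHom := s56fi_of _ (s56oa_vinl u₀) with hvt
  set σ₀ : ↥(P.inertiaSubgroupIn ℚ) := ⟨s₀, hs₀⟩ with hσ₀
  have hx₀' : x₀ - 1 ≠ 0 := sub_ne_zero.mpr hx₀1
  set g₀ : s56fi_Mod r.toMonoidHom := σ₀ • vt - vt with hg₀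
  have hsm : ∀ a : DualNumber k, a • g₀ ∈ s56fl_X0 hH := by
    intro a
    have h1 : a • g₀ = σ₀ • (a • vt) - a • vt := by
      rw [hg₀, smul_sub]
      congr 1
      exact (s56fi_smul_comm r.toMonoidHom (σ₀ : GQ) a vt).symm
    rw [h1]
    exact s56fl_smul_sub_mem_X0 hctx hH σ₀ _
  set c : DualNumber k := TrivSqZeroExt.inl (x₀ - 1)⁻¹ with hc
  set b₀ : s56fi_Mod r.toMonoidHom := c • g₀ with hb₀
  have hg₀fst : ∀ i, (s56fi_vec _ g₀ i).fst = (x₀ - 1) * u₀ i := by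
    intro i
    have h1 : s56fi_vec _ (s56fi_red r g₀) = (x₀ - 1) • u₀ := by
      rw [hg₀, map_sub]
      show s56fi_vec _ (s56fi_red r ((s₀ : GQ) • vt)) - s56fi_vec _ (s56fi_red r vt) = _
      rw [s56fi_red_smul]
      have h2 : s56fi_vec _ (s56fi_red r vt) = u₀ := rfl
      show (s56t_bar r s₀).mulVec (s56fi_vec _ (s56fi_red r vt)) - _ = _
      rw [h2, hx₀, sub_smul, one_smul]
    exact congrFun h1 i
  have hb₀fst : ∀ i, (s56fi_vec _ b₀ i).fst = u₀ i := by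
    intro i
    show ((c : DualNumber k) * s56fi_vec _ g₀ i).fst = u₀ i
    rw [TrivSqZeroExt.fst_mul, hg₀fst, hc, TrivSqZeroExt.fst_inl, ← mul_assoc,
      inv_mul_cancel₀ hx₀', one_mul]
  refine ⟨s56fi_vec _ b₀, s56fi_vec _ (c • vt), funext hb₀fst, ?_, ?_⟩
  · show b₀ = (s₀ : GQ) • (c • vt) - c • vt
    rw [hb₀, hg₀, smul_sub]
    congr 1
    exact (s56fi_smul_comm r.toMonoidHom s₀ c vt).symm
  · intro s hs v
    set σ : ↥(P.inertiaSubgroupIn ℚ) := ⟨s, hs⟩ with hσ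
    set y : s56fi_Mod r.toMonoidHom := σ • s56fi_of _ v - s56fi_of _ v with hy
    have hyX : y ∈ s56fl_X0 hH := s56fl_smul_sub_mem_X0 hctx hH σ _
    obtain ⟨a, ha⟩ := s56fo_detw_eq_zero hu (hK1 y hyX)
    set y' : s56fi_Mod r.toMonoidHom := y - (TrivSqZeroExt.inl a : DualNumber k) • b₀ with hy'
    have hy'X : y' ∈ s56fl_X0 hH := by
      refine (s56fl_X0 hH).sub_mem hyX ?_
      rw [hb₀, smul_smul]
      exact hsm _
    have hy'red : s56fi_red r y' = 0 := by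
      funext i
      show (s56fi_vec _ y' i).fst = 0
      have h1 : (s56fi_vec _ y i).fst = a * u₀ i := congrFun ha i
      show (s56fi_vec _ y i - (TrivSqZeroExt.inl a : DualNumber k) * s56fi_vec _ b₀ i).fst = 0
      rw [TrivSqZeroExt.fst_sub, TrivSqZeroExt.fst_mul, TrivSqZeroExt.fst_inl, hb₀fst, h1,
        sub_self]
    obtain ⟨w, hw⟩ := (s56fi_red_eq_zero_iff r y').mp hy'red
    obtain ⟨b, hb⟩ := s56fo_detw_eq_zero hu (hK2 w (by rw [hw]; exact hy'X))
    have hw2 : s56fi_eps r w = (TrivSqZeroExt.inr b : DualNumber k) • b₀ := by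
      have : w = s56fi_of _ (b • u₀) := hb
      rw [this]
      exact s56fo_eps_smul_eq r b₀ u₀ hb₀fst b
    refine ⟨TrivSqZeroExt.inl a + TrivSqZeroExt.inr b, ?_⟩
    show y = ((TrivSqZeroExt.inl a + TrivSqZeroExt.inr b : DualNumber k)) • b₀
    rw [add_smul, ← hw2, hw, hy']
    abel

end Line

end Fermat.Agent.S56
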