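/-
Project S56, node [LOC-p-FLAT], cell F-ORD (ordinary case; owner helper1).  Prefix `s56fo_`.
FROM THE LIFTED LINE TO THE SHAPE OF THE COCYCLE (pure linear algebra over `k[ε]`).

`r : FramedRep k[ε]`, `I ⊴ D` subgroups of `G_ℚ`, `b₀ = (r s₀ - 1) w₀` (`s₀ ∈ I`) a lift of `u₀`
with `(r s - 1) V ⊆ k[ε] b₀` for `s ∈ I` (`s56fo_line`), `det (u₁, u₀) = 1`, `det r σ ∈ k` on `D`.
Then (`s56fo_alg`) for a trace-zero `m` and a function `A : G_ℚ → k`: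
* `c σ - ∂m σ - A σ • Dg ∈ W₀` on `D`; `A` is additive on `D` and vanishes on `I` and on `ker r`;
* for `s ∈ I`: `r s b₀ = det (r s) b₀`, and `r s b₁ - b₁ = α b₀` (`b₁` the constant lift of `u₁`)
  with `r̄ s u₁ - u₁ = α₀ u₀` and `(c s - ∂m s) u₁ = α₁ u₀`  (THE DICTIONARY between the
  `I`-module `k[ε]²` and the cocycle).
-/
import Mathlib
import Fermat.Agent.S56.LocP.Alg
import Fermat.Agent.S56.Flat.Ord.Line

set_option autoImplicit false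
set_option linter.unusedSectionVars false
set_option linter.style.haveILetI false

noncomputable section

namespace Fermat.Agent.S56

open Fermat.Agent.S53 Matrix

variable {k : Type} [Field k]

/-! ### coordinates with respect to `(b₀, b₁)` -/

/-- the matrix with columns `b₀`, `b₁`. -/
def s56fo_colMat (b₀ b₁ : Fin 2 → DualNumber k) : Matrix (Fin 2) (Fin 2) (DualNumber k) :=
  Matrix.of fun i j => if j = 0 then b₀ i else b₁ i

theorem s56fo_colMat_mulVec (b₀ b₁ w : Fin 2 → DualNumber k) :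
    s56fo_colMat b₀ b₁ *ᵥ w = w 0 • b₀ + w 1 • b₁ := by
  funext i
  simp only [s56fo_colMat, Matrix.mulVec, dotProduct, Fin.sum_univ_two, Matrix.of_apply,
    if_true, Fin.one_eq_zero_iff, OfNat.ofNat_ne_one, if_false, Pi.add_apply, Pi.smul_apply,
    smul_eq_mul]
  ring

theorem s56fo_colMat_det (b₀ b₁ : Fin 2 → DualNumber k) :
    (s56fo_colMat b₀ b₁).det = b₀ 0 * b₁ 1 - b₁ 0 * b₀ 1 := by
  rw [Matrix.det_fin_two]
  simp only [s56fo_colMat, Matrix.of_apply, if_true, Fin.one_eq_zero_iff, OfNat.ofNat_ne_one,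
    if_false]

theorem s56fo_isUnit_dual {a : DualNumber k} (h : a.fst ≠ 0) : IsUnit a := by
  refine IsUnit.of_mul_eq_one (TrivSqZeroExt.inl a.fst⁻¹ - TrivSqZeroExt.inr (a.snd * (a.fst⁻¹) ^ 2)) ?_
  apply TrivSqZeroExt.ext
  · simp only [TrivSqZeroExt.fst_mul, TrivSqZeroExt.fst_sub, TrivSqZeroExt.fst_inl,
      TrivSqZeroExt.fst_inr, sub_zero, TrivSqZeroExt.fst_one]
    exact mul_inv_cancel₀ h
  · simp only [DualNumber.snd_mul, TrivSqZeroExt.fst_sub, TrivSqZeroExt.fst_inl,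
      TrivSqZeroExt.fst_inr, sub_zero, TrivSqZeroExt.snd_sub, TrivSqZeroExt.snd_inl,
      TrivSqZeroExt.snd_inr, zero_sub, TrivSqZeroExt.snd_one]
    field_simp
    ring

theorem s56fo_colMat_isUnit {b₀ b₁ : Fin 2 → DualNumber k}
    (h : s56fo_detw (s56oa_vfst b₁) (s56oa_vfst b₀) ≠ 0) : IsUnit (s56fo_colMat b₀ b₁).det := by
  apply s56fo_isUnit_dual
  rw [s56fo_colMat_det]
  rw [s56fo_detw_apply] at h
  simpa only [TrivSqZeroExt.fst_sub, TrivSqZeroExt.fst_mul, s56oa_vfst, mul_comm] using h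

/-- **coordinates**: existence and uniqueness. -/
theorem s56fo_coords {b₀ b₁ : Fin 2 → DualNumber k}
    (h : s56fo_detw (s56oa_vfst b₁) (s56oa_vfst b₀) ≠ 0) :
    (∀ v : Fin 2 → DualNumber k, ∃ a b : DualNumber k, v = a • b₀ + b • b₁) ∧
    (∀ a b : DualNumber k, a • b₀ + b • b₁ = 0 → a = 0 ∧ b = 0) := by
  have hM := s56fo_colMat_isUnit h
  set M := s56fo_colMat b₀ b₁ with hMdef
  constructor
  · intro v
    refine ⟨(M⁻¹ *ᵥ v) 0, (M⁻¹ *ᵥ v) 1, ?_⟩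
    rw [← s56fo_colMat_mulVec, ← hMdef, Matrix.mulVec_mulVec, Matrix.mul_nonsing_inv _ hM,
      Matrix.one_mulVec]
  · intro a b hab
    have h1 : M *ᵥ ![a, b] = 0 := by
      rw [hMdef, s56fo_colMat_mulVec]
      simpa using hab
    have h2 : M⁻¹ *ᵥ (M *ᵥ ![a, b]) = ![a, b] := by
      rw [Matrix.mulVec_mulVec, Matrix.nonsing_inv_mul _ hM, Matrix.one_mulVec]
    rw [h1, Matrix.mulVec_zero] at h2
    have ha := congrFun h2 0
    have hb := congrFun h2 1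
    simp only [Pi.zero_apply, Matrix.cons_val_zero, Matrix.cons_val_one] at ha hb
    exact ⟨ha.symm, hb.symm⟩

/-! ### the matrix `m₁` with `m₁ u₀ = w`, `m₁ u₁ = 0` -/

/-- the matrix `v ↦ det (u₁, v) • w`. -/
def s56fo_m1 (u₁ w : Fin 2 → k) : Matrix (Fin 2) (Fin 2) k :=
  Matrix.of fun i j => w i * (if j = 0 then - u₁ 1 else u₁ 0)

theorem s56fo_m1_mulVec (u₁ w v : Fin 2 → k) :
    s56fo_m1 u₁ w *ᵥ v = (- s56fo_detw u₁ v) • w := by
  funext i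
  simp only [s56fo_m1, Matrix.mulVec, dotProduct, Fin.sum_univ_two, Matrix.of_apply, if_true,
    Fin.one_eq_zero_iff, OfNat.ofNat_ne_one, if_false, Pi.smul_apply, smul_eq_mul,
    s56fo_detw_apply]
  ring

theorem s56fo_detw_swap (u v : Fin 2 → k) : s56fo_detw u v = - s56fo_detw v u := by
  rw [s56fo_detw_apply, s56fo_detw_apply]
  ring

theorem s56fo_detw_self (u : Fin 2 → k) : s56fo_detw u u = 0 := by
  rw [s56fo_detw_apply]
  ring

/-! ### the line is stable under the normaliser -/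

section Stable

variable (r : FramedRep (DualNumber k)) {D I : Subgroup GQ}
  (hnorm : ∀ σ ∈ D, ∀ s ∈ I, σ * s * σ⁻¹ ∈ I)
  {b₀ w₀ : Fin 2 → DualNumber k} {s₀ : GQ} (hs₀ : s₀ ∈ I) (hbw : b₀ = r s₀ *ᵥ w₀ - w₀)
  (hline : ∀ s ∈ I, ∀ v : Fin 2 → DualNumber k, ∃ α : DualNumber k, r s *ᵥ v - v = α • b₀)

include hnorm hs₀ hbw hline in
theorem s56fo_stable {σ : GQ} (hσ : σ ∈ D) : ∃ x : DualNumber k, r σ *ᵥ b₀ = x • b₀ := by
  obtain ⟨α, hα⟩ := hline _ (hnorm σ hσ s₀ hs₀) (r σ *ᵥ w₀)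
  refine ⟨α, ?_⟩
  rw [← hα, hbw, Matrix.mulVec_sub, Matrix.mulVec_mulVec, Matrix.mulVec_mulVec, ← r.map_mul,
    ← r.map_mul]
  congr 3
  group

end Stable

/-! ### one matrix -/

section One

variable {u₀ u₁ : Fin 2 → k} (hu01 : s56fo_detw u₀ u₁ = 1)
  {b₀ : Fin 2 → DualNumber k} (hb₀ : s56oa_vfst b₀ = u₀)

include hu01 in
theorem s56fo_u0_ne : u₀ ≠ 0 := by
  rintro rfl
  rw [s56fo_detw_apply] at hu01
  simp at hu01

include hu01 hb₀ in
theorem s56fo_coords_hyp :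
    s56fo_detw (s56oa_vfst (s56oa_vinl u₁)) (s56oa_vfst b₀) ≠ 0 := by
  rw [s56oa_vfst_vinl, hb₀, s56fo_detw_swap, hu01]
  exact neg_ne_zero.mpr one_ne_zero

include hu01 hb₀ in
/-- **triangular form of one matrix** stabilising the line. -/
theorem s56fo_tri (R : Matrix (Fin 2) (Fin 2) (DualNumber k)) {x : DualNumber k}
    (hx : R *ᵥ b₀ = x • b₀) :
    ∃ z a : DualNumber k, R *ᵥ s56oa_vinl u₁ = a • b₀ + z • s56oa_vinl u₁ ∧ R.det = x * z ∧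
      ∀ v : Fin 2 → DualNumber k, ∃ α : DualNumber k, R *ᵥ v - z • v = α • b₀ := by
  have hc := s56fo_coords (s56fo_coords_hyp hu01 hb₀)
  obtain ⟨a, z, haz⟩ := hc.1 (R *ᵥ s56oa_vinl u₁)
  refine ⟨z, a, haz, ?_, fun v => ?_⟩
  · -- determinant
    set M := s56fo_colMat b₀ (s56oa_vinl u₁) with hM
    have hMu := s56fo_colMat_isUnit (s56fo_coords_hyp hu01 hb₀)
    have hRM : R * M = M * !![x, a; 0, z] := by
      apply Matrix.mulVec_injective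
      funext w
      rw [← Matrix.mulVec_mulVec, ← Matrix.mulVec_mulVec, hM, s56fo_colMat_mulVec,
        s56fo_colMat_mulVec, Matrix.mulVec_add, Matrix.mulVec_smul, Matrix.mulVec_smul, hx, haz]
      funext i
      simp only [Matrix.mulVec, dotProduct, Fin.sum_univ_two, Matrix.of_apply,
        Matrix.cons_val', Matrix.cons_val_zero, Matrix.cons_val_fin_one, Matrix.cons_val_one,
        Pi.add_apply, Pi.smul_apply, smul_eq_mul]
      ring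
    have h2 := congrArg Matrix.det hRM
    rw [Matrix.det_mul, Matrix.det_mul, Matrix.det_fin_two_of, mul_zero, sub_zero, mul_comm] at h2
    exact hMu.mul_left_cancel h2
  · obtain ⟨a', b', hv⟩ := hc.1 v
    refine ⟨a' * (x - z) + b' * a, ?_⟩
    rw [hv, Matrix.mulVec_add, Matrix.mulVec_smul, Matrix.mulVec_smul, hx, haz]
    funext i
    simp only [Pi.add_apply, Pi.smul_apply, Pi.sub_apply, smul_eq_mul]
    ring

include hu01 hb₀ in
theorem s56fo_m1_spec :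
    s56fo_m1 u₁ (s56oa_vsnd b₀) *ᵥ s56oa_vfst b₀ = s56oa_vsnd b₀ ∧
      s56fo_m1 u₁ (s56oa_vsnd b₀) *ᵥ u₁ = 0 := by
  constructor
  · rw [s56fo_m1_mulVec, hb₀, ← s56fo_detw_swap, hu01, one_smul]
  · rw [s56fo_m1_mulVec, s56fo_detw_self, neg_zero, zero_smul]

include hu01 hb₀ in
/-- **the shape of one matrix**: `N' B⁻¹ - (x₁ / x₀) Dg ∈ W₀`. -/
theorem s56fo_one_shape (R : Matrix (Fin 2) (Fin 2) (DualNumber k))
    (Binv : Matrix (Fin 2) (Fin 2) k) (hinv : Binv * s56t_fst R = 1)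
    (hinv' : s56t_fst R * Binv = 1) {x z : DualNumber k} (hx : R *ᵥ b₀ = x • b₀)
    (hz : ∀ v : Fin 2 → DualNumber k, ∃ α : DualNumber k, R *ᵥ v - z • v = α • b₀)
    (hxz : (x * z).snd = 0) {Dg : Matrix (Fin 2) (Fin 2) k} (hD1 : Dg *ᵥ u₀ = u₀)
    (hD2 : ∀ w : Fin 2 → k, ∃ t : k, Dg *ᵥ w = t • u₀ - w) :
    x.fst ≠ 0 ∧
    (s56t_snd R + (s56t_fst R * s56fo_m1 u₁ (s56oa_vsnd b₀) -
      s56fo_m1 u₁ (s56oa_vsnd b₀) * s56t_fst R)) * Binv - (x.snd / x.fst) • Dg ∈ s56oa_W0 u₀ := by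
  have hu := s56fo_u0_ne hu01
  obtain ⟨hm, -⟩ := s56fo_m1_spec hu01 hb₀
  obtain ⟨e1, e2, e3, e4⟩ := s56oa_core R b₀ x z _ hm hx hz
  rw [hb₀] at e1 e2 e3 e4
  obtain ⟨hx0, hBi⟩ := s56oa_inv_eigen hinv hu e1
  set N' := s56t_snd R + (s56t_fst R * s56fo_m1 u₁ (s56oa_vsnd b₀) -
      s56fo_m1 u₁ (s56oa_vsnd b₀) * s56t_fst R) with hN'
  set A := x.snd / x.fst with hA
  have hAz : z.snd = - A * z.fst := by
    rw [DualNumber.snd_mul] at hxz
    rw [hA]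
    field_simp
    linear_combination hxz
  refine ⟨hx0, ?_, fun v => ?_⟩
  · rw [Matrix.sub_mulVec, Matrix.smul_mulVec, ← Matrix.mulVec_mulVec, hBi, Matrix.mulVec_smul,
      e3, hD1, smul_smul, ← sub_smul]
    have : x.fst⁻¹ * x.snd - A = 0 := by rw [hA]; field_simp; ring
    rw [this, zero_smul]
  · obtain ⟨t', ht'⟩ := e2 (Binv *ᵥ v)
    rw [Matrix.mulVec_mulVec, hinv', Matrix.one_mulVec] at ht'
    obtain ⟨t, ht⟩ := e4 (Binv *ᵥ v)
    obtain ⟨t'', ht''⟩ := hD2 v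
    refine ⟨A * t' + t - A * t'', ?_⟩
    rw [Matrix.sub_mulVec, Matrix.smul_mulVec, ← Matrix.mulVec_mulVec, ht'']
    funext i
    have ha := congrFun ht' i
    have hb := congrFun ht i
    simp only [Pi.sub_apply, Pi.smul_apply, smul_eq_mul] at ha hb ⊢
    linear_combination hb + A * ha + ((Binv *ᵥ v) i) * hAz

include hu01 hb₀ in
/-- **the dictionary for one matrix** acting trivially on the quotient, with `x ∈ k`. -/
theorem s56fo_one_dict (R : Matrix (Fin 2) (Fin 2) (DualNumber k))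
    (Binv : Matrix (Fin 2) (Fin 2) k) (hinv : Binv * s56t_fst R = 1)
    {x z a : DualNumber k} (hx : R *ᵥ b₀ = x • b₀) (hx1 : x.snd = 0)
    (hz : ∀ v : Fin 2 → DualNumber k, ∃ α : DualNumber k, R *ᵥ v - z • v = α • b₀)
    (ha : R *ᵥ s56oa_vinl u₁ - s56oa_vinl u₁ = a • b₀) :
    s56t_fst R *ᵥ u₁ - u₁ = a.fst • u₀ ∧
    ((s56t_snd R + (s56t_fst R * s56fo_m1 u₁ (s56oa_vsnd b₀) -
      s56fo_m1 u₁ (s56oa_vsnd b₀) * s56t_fst R)) * Binv) *ᵥ u₁ = a.snd • u₀ := by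
  have hu := s56fo_u0_ne hu01
  obtain ⟨hm, hm1⟩ := s56fo_m1_spec hu01 hb₀
  obtain ⟨e1, -, e3, -⟩ := s56oa_core R b₀ x z _ hm hx hz
  rw [hb₀] at e1 e3 hm
  obtain ⟨hx0, hBi⟩ := s56oa_inv_eigen hinv hu e1
  have f1 : s56t_fst R *ᵥ u₁ - u₁ = a.fst • u₀ := by
    have := congrArg s56oa_vfst ha
    rwa [s56oa_vfst_sub, s56oa_vfst_mulVec, s56oa_vfst_vinl, s56oa_vfst_smul, hb₀] at this
  have f2 : s56t_snd R *ᵥ u₁ = a.fst • s56oa_vsnd b₀ + a.snd • u₀ := by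
    have := congrArg s56oa_vsnd ha
    rwa [s56oa_vsnd_sub, s56oa_vsnd_mulVec, s56oa_vsnd_vinl, s56oa_vfst_vinl, Matrix.mulVec_zero,
      zero_add, sub_zero, s56oa_vsnd_smul, hb₀] at this
  have hBu1 : s56t_fst R *ᵥ u₁ = u₁ + a.fst • u₀ := by rw [← f1]; abel
  set m₁ := s56fo_m1 u₁ (s56oa_vsnd b₀) with hm₁
  have f3 : (s56t_snd R + (s56t_fst R * m₁ - m₁ * s56t_fst R)) *ᵥ u₁ = a.snd • u₀ := by
    rw [Matrix.add_mulVec, Matrix.sub_mulVec, ← Matrix.mulVec_mulVec, ← Matrix.mulVec_mulVec,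
      hm1, Matrix.mulVec_zero, hBu1, Matrix.mulVec_add, hm1, Matrix.mulVec_smul, hm, f2]
    abel
  have f4 : Binv *ᵥ u₁ = u₁ - (a.fst * x.fst⁻¹) • u₀ := by
    have h1 := congrArg (fun w => Binv *ᵥ w) hBu1
    simp only [Matrix.mulVec_mulVec, hinv, Matrix.one_mulVec, Matrix.mulVec_add,
      Matrix.mulVec_smul, hBi, smul_smul] at h1
    rw [eq_sub_iff_add_eq]
    exact h1.symm
  refine ⟨f1, ?_⟩
  rw [← Matrix.mulVec_mulVec, f4, Matrix.mulVec_sub, Matrix.mulVec_smul, f3, e3, hx1, zero_smul,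
    smul_zero, sub_zero]

end One

/-! ### the group level -/

/-- **F-ORD, algebra**: from the lifted line to the shape of the cocycle and the dictionary. -/
theorem s56fo_alg (h2 : (2 : k) ≠ 0) (r : FramedRep (DualNumber k)) {D I : Subgroup GQ}
    (hID : I ≤ D) (hnorm : ∀ σ ∈ D, ∀ s ∈ I, σ * s * σ⁻¹ ∈ I)
    (hdet : ∀ σ ∈ D, ((r σ).det).snd = 0)
    {u₀ u₁ : Fin 2 → k} (hu01 : s56fo_detw u₀ u₁ = 1)
    {b₀ w₀ : Fin 2 → DualNumber k} (hb₀ : s56oa_vfst b₀ = u₀) {s₀ : GQ} (hs₀ : s₀ ∈ I)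
    (hbw : b₀ = r s₀ *ᵥ w₀ - w₀)
    (hline : ∀ s ∈ I, ∀ v : Fin 2 → DualNumber k, ∃ α : DualNumber k, r s *ᵥ v - v = α • b₀)
    {Dg : Matrix (Fin 2) (Fin 2) k} (hD1 : Dg *ᵥ u₀ = u₀)
    (hD2 : ∀ w : Fin 2 → k, ∃ t : k, Dg *ᵥ w = t • u₀ - w) :
    ∃ (m : Matrix (Fin 2) (Fin 2) k) (A : GQ → k), m.trace = 0 ∧
      (∀ σ ∈ D, s56t_coc r σ - (s56t_bar r σ * m * s56t_bar r σ⁻¹ - m) - A σ • Dg
        ∈ s56oa_W0 u₀) ∧
      (∀ σ ∈ D, ∀ τ ∈ D, A (σ * τ) = A σ + A τ) ∧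
      (∀ s ∈ I, A s = 0) ∧ (∀ s ∈ D, r s = 1 → A s = 0) ∧
      (∀ s ∈ I, r s *ᵥ b₀ = (r s).det • b₀) ∧
      (∀ s ∈ I, ∃ α : DualNumber k, r s *ᵥ s56oa_vinl u₁ - s56oa_vinl u₁ = α • b₀ ∧
        s56t_bar r s *ᵥ u₁ - u₁ = α.fst • u₀ ∧
        (s56t_coc r s - (s56t_bar r s * m * s56t_bar r s⁻¹ - m)) *ᵥ u₁ = α.snd • u₀) := by
  classical
  have hc := s56fo_coords (s56fo_coords_hyp hu01 hb₀)
  -- the eigenvalue on the line
  have hst : ∀ σ ∈ D, ∃ x : DualNumber k, r σ *ᵥ b₀ = x • b₀ :=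
    fun σ hσ => s56fo_stable r hnorm hs₀ hbw hline hσ
  let xt : GQ → DualNumber k := fun σ => if h : σ ∈ D then (hst σ h).choose else 1
  have hxt : ∀ σ ∈ D, r σ *ᵥ b₀ = xt σ • b₀ := by
    intro σ hσ
    simp only [xt, dif_pos hσ]
    exact (hst σ hσ).choose_spec
  have huniq : ∀ x x' : DualNumber k, x • b₀ = x' • b₀ → x = x' := by
    intro x x' h
    have h1 : (x - x') • b₀ + (0 : DualNumber k) • s56oa_vinl u₁ = 0 := by
      rw [sub_smul, h, sub_self, zero_smul, add_zero]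
    exact sub_eq_zero.mp (hc.2 _ _ h1).1
  have hxt_mul : ∀ σ ∈ D, ∀ τ ∈ D, xt (σ * τ) = xt σ * xt τ := by
    intro σ hσ τ hτ
    apply huniq
    rw [← hxt _ (D.mul_mem hσ hτ), r.map_mul, ← Matrix.mulVec_mulVec, hxt τ hτ,
      Matrix.mulVec_smul, hxt σ hσ, smul_smul, mul_comm]
  have hxt_one : ∀ s ∈ D, r s = 1 → xt s = 1 := by
    intro s hs h1
    apply huniq
    rw [← hxt s hs, h1, Matrix.one_mulVec, one_smul]
  have hxt_fst : ∀ σ ∈ D, (xt σ).fst ≠ 0 := by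
    intro σ hσ h0
    have h1 : xt σ * xt σ⁻¹ = 1 := by
      rw [← hxt_mul σ hσ _ (D.inv_mem hσ), mul_inv_cancel]
      exact hxt_one 1 D.one_mem r.map_one
    have := congrArg TrivSqZeroExt.fst h1
    rw [TrivSqZeroExt.fst_mul, h0, zero_mul, TrivSqZeroExt.fst_one] at this
    exact zero_ne_one this
  -- the matrix `m`
  set m₁ := s56fo_m1 u₁ (s56oa_vsnd b₀) with hm₁
  have hcoc : ∀ σ : GQ, s56t_coc r σ - (s56t_bar r σ * (-(m₁ - (m₁.trace / 2) • (1 : Matrix (Fin 2) (Fin 2) k))) * s56t_bar r σ⁻¹ - (-(m₁ - (m₁.trace / 2) • (1 : Matrix (Fin 2) (Fin 2) k)))) =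
      (s56t_snd (r σ) + (s56t_fst (r σ) * m₁ - m₁ * s56t_fst (r σ))) * s56t_bar r σ⁻¹ := by
    intro σ
    exact s56oa_twist_eq (s56t_bar r σ) (s56t_bar r σ⁻¹) (s56t_snd (r σ)) m₁
      (m₁.trace / 2) (s56t_bar_mul_inv r σ)
  refine ⟨-(m₁ - (m₁.trace / 2) • (1 : Matrix (Fin 2) (Fin 2) k)),
    fun σ => (xt σ).snd / (xt σ).fst, ?_, ?_, ?_, ?_, ?_, ?_, ?_⟩
  · rw [Matrix.trace_neg, Matrix.trace_sub, Matrix.trace_smul, Matrix.trace_one, smul_eq_mul]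
    simp only [Fintype.card_fin, Nat.cast_ofNat]
    field_simp
    ring
  · intro σ hσ
    obtain ⟨z, a, -, hdz, hz⟩ := s56fo_tri hu01 hb₀ (r σ) (hxt σ hσ)
    have hxz : (xt σ * z).snd = 0 := by rw [← hdz]; exact hdet σ hσ
    rw [hcoc σ]
    exact (s56fo_one_shape hu01 hb₀ (r σ) (s56t_bar r σ⁻¹) (s56t_bar_inv_mul r σ)
      (s56t_bar_mul_inv r σ) (hxt σ hσ) hz hxz hD1 hD2).2
  · intro σ hσ τ hτ
    have h1 := hxt_fst σ hσ
    have h2' := hxt_fst τ hτ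
    beta_reduce
    rw [hxt_mul σ hσ τ hτ, DualNumber.snd_mul, TrivSqZeroExt.fst_mul]
    field_simp
    ring
  · intro s hs
    obtain ⟨z, a, haz, hdz, hz⟩ := s56fo_tri hu01 hb₀ (r s) (hxt s (hID hs))
    obtain ⟨α', hα'⟩ := hline s hs (s56oa_vinl u₁)
    have h1 : (a - α') • b₀ + (z - 1) • s56oa_vinl u₁ = 0 := by
      rw [sub_smul, sub_smul, one_smul, ← hα', haz]
      abel
    have hz1 : z = 1 := sub_eq_zero.mp (hc.2 _ _ h1).2
    have := hdet s (hID hs)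
    rw [hdz, hz1, mul_one] at this
    beta_reduce
    rw [this, zero_div]
  · intro s hs h1
    beta_reduce
    rw [hxt_one s hs h1, TrivSqZeroExt.snd_one, zero_div]
  · intro s hs
    obtain ⟨z, a, haz, hdz, hz⟩ := s56fo_tri hu01 hb₀ (r s) (hxt s (hID hs))
    obtain ⟨α', hα'⟩ := hline s hs (s56oa_vinl u₁)
    have h1 : (a - α') • b₀ + (z - 1) • s56oa_vinl u₁ = 0 := by
      rw [sub_smul, sub_smul, one_smul, ← hα', haz]
      abel
    have hz1 : z = 1 := sub_eq_zero.mp (hc.2 _ _ h1).2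
    rw [hdz, hz1, mul_one]
    exact hxt s (hID hs)
  · intro s hs
    obtain ⟨z, a, haz, hdz, hz⟩ := s56fo_tri hu01 hb₀ (r s) (hxt s (hID hs))
    obtain ⟨α', hα'⟩ := hline s hs (s56oa_vinl u₁)
    have h1 : (a - α') • b₀ + (z - 1) • s56oa_vinl u₁ = 0 := by
      rw [sub_smul, sub_smul, one_smul, ← hα', haz]
      abel
    have hz1 : z = 1 := sub_eq_zero.mp (hc.2 _ _ h1).2
    have hx1 : (xt s).snd = 0 := by
      have := hdet s (hID hs)
      rwa [hdz, hz1, mul_one] at this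
    obtain ⟨f1, f2⟩ := s56fo_one_dict hu01 hb₀ (r s) (s56t_bar r s⁻¹) (s56t_bar_inv_mul r s)
      (hxt s (hID hs)) hx1 hz hα'
    refine ⟨α', hα', f1, ?_⟩
    rw [hcoc s]
    exact f2

end Fermat.Agent.S56
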