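/-
Project S56, node [LOC-p-FLAT], cell F-ORD (ordinary case; owner helper1).  Prefix `s56fo_`.
THE SUBQUOTIENT OF ORDER `p²` AND THE PEU-RAMIFIE PROPERTY OF THE COCYCLE OF A FLAT MODULE.

`V` a finite `Γ`-module killed by `p` with an order; `j : X → V` an injective `𝔽_p`-linear map on
whose image `Γ` acts through `ω` (`s • j a = j (ω s • a)`); `b₁ ∈ V` with `s • b₁ = b₁ + j (bt s)`
and `𝔽_p b₁ ∩ j X = 0`; `ℓ' : X → 𝔽_p` linear.  Then (given the seam `s56fo_PeuOrder_stmt`) the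
`ω`-cocycle `ℓ' ∘ bt` is peu ramifie (`s56fo_peu_of_order`).

Proof: `F := 𝔽_p × X` with `s • (n, a) = (n, ω s a + n bt s)` embeds in `V` (restricted order,
`mzo_restr_isOrder`) and maps onto `G := 𝔽_p × 𝔽_p`, `s • (n, y) = (n, ω s y + n ℓ'(bt s))`
(quotient order, `mzhp_seamQuot`); `e := (0, 1)`, `Q := (1, 0)`.
-/
import Mathlib
import Fermat.Agent.S56.Flat.Ord.Defs
import Fermat.Agent.MZ.Hopf.Basic
import Fermat.Agent.MZ.Hopf.Quot

set_option autoImplicit false
set_option linter.unusedSectionVars false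
set_option linter.style.haveILetI false

noncomputable section

namespace Fermat.Agent.S56

open Fermat.Agent.MZ

/-- the cyclotomic character is multiplicative. -/
theorem s56fo_omega_mul {p : ℕ} [Fact p.Prime] {L : Type} [Field L] {Γ : Type} [Group Γ]
    [MulSemiringAction Γ L] {ζ : L} (hζ : IsPrimitiveRoot ζ p) (ω : Γ → ZMod p)
    (hω : ∀ s : Γ, s • ζ = ζ ^ (ω s).val) :
    ω 1 = 1 ∧ ∀ s t : Γ, ω (s * t) = ω s * ω t := by
  have hp : 0 < p := (Fact.out : p.Prime).pos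
  have key : ∀ a b : ZMod p, ζ ^ a.val = ζ ^ b.val → a = b := by
    intro a b h
    have h1 := hζ.pow_inj (ZMod.val_lt a) (ZMod.val_lt b) h
    exact ZMod.val_injective p h1
  constructor
  · apply key
    rw [← hω 1, one_smul, ZMod.val_one, pow_one]
  · intro s t
    apply key
    rw [← hω (s * t), mul_smul, hω t, smul_pow', hω s, ← pow_mul, ZMod.val_mul,
      ← pow_eq_pow_mod _ hζ.pow_eq_one]

/-- the trivial cocycle is peu ramifie. -/
theorem s56fo_peu_zero (O : Type) [CommRing O] {L : Type} [Field L] [Algebra O L]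
    {Γ : Type} [Group Γ] [MulSemiringAction Γ L] (p : ℕ) (ζ : L) :
    s56fo_Peu O p ζ (fun _ : Γ => (0 : ZMod p)) := by
  refine ⟨1, 0, one_ne_zero, fun s => ?_, ?_⟩
  · rw [smul_one, ZMod.val_zero, pow_zero, one_mul]
  · rw [one_pow, map_zero, mul_zero, add_zero]

section SubQ

variable {p : ℕ} [Fact p.Prime] {O : Type} [CommRing O] [IsDomain O] [IsDiscreteValuationRing O]
  {L : Type} [Field L] [Algebra O L] {A : ValuationSubring L}
  {Γ : Type} [Group Γ] [MulSemiringAction Γ L]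

/-- the action of `Γ` on `𝔽_p × X`: `s • (n, a) = (n, ω s a + n bt s)`. -/
@[reducible] def s56fo_extAction {X : Type} [AddCommGroup X] [Module (ZMod p) X]
    (ω : Γ → ZMod p) (bt : Γ → X) (hω1 : ω 1 = 1) (hωm : ∀ s t : Γ, ω (s * t) = ω s * ω t)
    (hb1 : bt 1 = 0) (hbm : ∀ s t : Γ, bt (s * t) = bt s + ω s • bt t) :
    DistribMulAction Γ (ZMod p × X) where
  smul s x := (x.1, ω s • x.2 + x.1 • bt s)
  one_smul x := by
    show (x.1, ω 1 • x.2 + x.1 • bt 1) = x
    rw [hω1, hb1, one_smul, smul_zero, add_zero]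
  mul_smul s t x := by
    show (x.1, ω (s * t) • x.2 + x.1 • bt (s * t)) =
      (x.1, ω s • (ω t • x.2 + x.1 • bt t) + x.1 • bt s)
    rw [hωm, hbm]
    simp only [smul_add, smul_smul, mul_comm x.1 (ω s)]
    congr 1
    abel
  smul_zero s := by
    show ((0 : ZMod p × X).1, ω s • (0 : ZMod p × X).2 + (0 : ZMod p × X).1 • bt s) = 0
    simp
  smul_add s x y := by
    show ((x + y).1, ω s • (x + y).2 + (x + y).1 • bt s) =
      (x.1, ω s • x.2 + x.1 • bt s) + (y.1, ω s • y.2 + y.1 • bt s)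
    rw [Prod.fst_add, Prod.snd_add, smul_add, add_smul, Prod.mk_add_mk]
    congr 1
    abel

/-- a `Γ`-action by additive maps commutes with the `𝔽_p`-structure. -/
theorem s56fo_smul_zmod {V : Type} [AddCommGroup V] [Module (ZMod p) V] [DistribMulAction Γ V]
    (s : Γ) (n : ZMod p) (v : V) : s • (n • v) = n • (s • v) := by
  have h : ∀ w : V, n • w = n.val • w := fun w => by
    conv_lhs => rw [← ZMod.natCast_zmod_val n]
    exact Nat.cast_smul_eq_nsmul (ZMod p) n.val w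
  rw [h, h, smul_comm s n.val v]

/-- **the cocycle of a module with an order is peu ramifie.** -/
theorem s56fo_peu_of_order (hPeu : s56fo_PeuOrder_stmt)
    (hctx : mzo_Ctx p O L A Γ) (hp2 : p ≠ 2)
    (hL : ∀ n : ℕ, n ≠ 0 → ∃ ζ : L, IsPrimitiveRoot ζ n)
    (hperf : ∀ x : O, ∃ y : O, algebraMap O L (y ^ p - x) ∈ A.nonunits)
    {ζ : L} (hζ : IsPrimitiveRoot ζ p)
    {V : Type} [AddCommGroup V] [Module (ZMod p) V] [DistribMulAction Γ V] [Finite V]
    {H : Subalgebra O (V → L)} (hH : mzo_IsOrder A Γ V H)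
    {X : Type} [AddCommGroup X] [Module (ZMod p) X] [Finite X]
    (j : X →ₗ[ZMod p] V) (hj : Function.Injective j)
    (ω : Γ → ZMod p) (hω : ∀ s : Γ, s • ζ = ζ ^ (ω s).val) (hω1 : ∃ s : Γ, ω s ≠ 1)
    (hjs : ∀ (s : Γ) (a : X), s • j a = j (ω s • a))
    (b₁ : V) (bt : Γ → X) (hb₁ : ∀ s : Γ, s • b₁ = b₁ + j (bt s))
    (hind : ∀ (n : ZMod p) (a : X), n • b₁ + j a = 0 → n = 0)
    (ℓ' : X →ₗ[ZMod p] ZMod p) :
    s56fo_Peu O p ζ (fun s => ℓ' (bt s)) := by
  classical
  by_cases hℓ : ℓ' = 0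
  · have : (fun s : Γ => ℓ' (bt s)) = fun _ => (0 : ZMod p) := by
      funext s
      rw [hℓ, LinearMap.zero_apply]
    rw [this]
    exact s56fo_peu_zero O p ζ
  obtain ⟨a₁, ha₁⟩ : ∃ a₁ : X, ℓ' a₁ = 1 := by
    obtain ⟨a, ha⟩ : ∃ a, ℓ' a ≠ 0 := by
      by_contra h
      push Not at h
      exact hℓ (LinearMap.ext h)
    refine ⟨(ℓ' a)⁻¹ • a, ?_⟩
    rw [map_smul, smul_eq_mul, inv_mul_cancel₀ ha]
  obtain ⟨hω1', hωm⟩ := s56fo_omega_mul hζ ω hω
  -- the cocycle identities of `bt`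
  have hb1 : bt 1 = 0 := by
    have h := hb₁ 1
    rw [one_smul] at h
    have h2 : j (bt 1) = 0 := by
      have := congrArg (fun v => v - b₁) h
      simpa using this.symm
    exact hj (by rw [h2, map_zero])
  have hbm : ∀ s t : Γ, bt (s * t) = bt s + ω s • bt t := by
    intro s t
    apply hj
    have h := hb₁ (s * t)
    rw [mul_smul, hb₁ t, smul_add, hb₁ s, hjs, add_assoc] at h
    rw [map_add]
    exact (add_left_cancel h).symm
  letI := s56fo_extAction ω bt hω1' hωm hb1 hbm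
  -- the embedding
  let ι : ZMod p × X →+ V :=
    { toFun := fun x => x.1 • b₁ + j x.2
      map_zero' := by simp
      map_add' := fun x y => by
        rw [Prod.fst_add, Prod.snd_add, add_smul, map_add]
        abel }
  have hι : Function.Injective ι := by
    rw [injective_iff_map_eq_zero]
    intro x hx
    have hx' : x.1 • b₁ + j x.2 = 0 := hx
    have h1 := hind _ _ hx'
    rw [h1, zero_smul, zero_add] at hx'
    have h2 : x.2 = 0 := hj (by rw [hx', map_zero])
    exact Prod.ext h1 h2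
  have hιe : ∀ (s : Γ) (x : ZMod p × X), ι (s • x) = s • ι x := by
    intro s x
    show x.1 • b₁ + j (ω s • x.2 + x.1 • bt s) = s • (x.1 • b₁ + j x.2)
    rw [smul_add, s56fo_smul_zmod, hb₁, hjs, map_add, map_smul, map_smul, smul_add]
    abel
  have hHF := mzo_restr_isOrder ι hι hιe hH
  -- the quotient `G = 𝔽_p × 𝔽_p`
  have ha1 : (fun s => ℓ' (bt s)) 1 = 0 := by
    show ℓ' (bt 1) = 0
    rw [hb1, map_zero]
  have ham : ∀ s t : Γ, (fun s => ℓ' (bt s)) (s * t) =
      (fun s => ℓ' (bt s)) s + ω s • (fun s => ℓ' (bt s)) t := by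
    intro s t
    show ℓ' (bt (s * t)) = ℓ' (bt s) + ω s • ℓ' (bt t)
    rw [hbm, map_add, map_smul]
  let actG : DistribMulAction Γ (ZMod p × ZMod p) :=
    s56fo_extAction ω (fun s => ℓ' (bt s)) hω1' hωm ha1 ham
  let π : ZMod p × X →+ ZMod p × ZMod p :=
    { toFun := fun x => (x.1, ℓ' x.2)
      map_zero' := by simp
      map_add' := fun x y => by
        rw [Prod.fst_add, Prod.snd_add, map_add, Prod.mk_add_mk] }
  have hπ : Function.Surjective π := by
    rintro ⟨n, y⟩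
    refine ⟨(n, y • a₁), ?_⟩
    show (n, ℓ' (y • a₁)) = (n, y)
    rw [map_smul, ha₁, smul_eq_mul, mul_one]
  have hπe : ∀ (s : Γ) (x : ZMod p × X), π (s • x) = actG.toMulAction.toSMul.smul s (π x) := by
    intro s x
    show (x.1, ℓ' (ω s • x.2 + x.1 • bt s)) = (x.1, ω s • ℓ' x.2 + x.1 • ℓ' (bt s))
    rw [map_add, map_smul, map_smul]
  have hHG := (@mzhp_seamQuot p O _ _ _ L _ _ A Γ _ _ hctx (ZMod p × X) _ _ _
    (ZMod p × ZMod p) _ actG π hπ hπe (mzo_restr (⇑ι) H) hHF).1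
  -- apply the seam
  have hp := (Fact.out : p.Prime)
  refine @hPeu p O _ _ _ L _ _ A Γ _ _ hctx hp2 hL hperf ζ hζ (ZMod p × ZMod p) _ actG _
    (mzo_pull (⇑π) (mzo_restr (⇑ι) H)) hHG ?_ ?_ ω (fun s => ℓ' (bt s)) (0, 1) (1, 0) hω hω1
    ?_ ?_ ?_ ?_
  · rw [Nat.card_prod, Nat.card_zmod, sq]
  · intro x
    rw [← Nat.cast_smul_eq_nsmul (ZMod p), ZMod.natCast_self, zero_smul]
  · intro h
    have := congrArg Prod.snd h
    exact one_ne_zero this
  · intro s
    show ((0 : ZMod p), ω s • (1 : ZMod p) + (0 : ZMod p) • ℓ' (bt s)) = (ω s).val • ((0 : ZMod p), (1 : ZMod p))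
    rw [← Nat.cast_smul_eq_nsmul (ZMod p), ZMod.natCast_zmod_val, Prod.smul_mk, smul_zero,
      zero_smul, add_zero]
  · intro s
    show ((1 : ZMod p), ω s • (0 : ZMod p) + (1 : ZMod p) • ℓ' (bt s)) =
      ((1 : ZMod p), (0 : ZMod p)) + (ℓ' (bt s)).val • ((0 : ZMod p), (1 : ZMod p))
    rw [← Nat.cast_smul_eq_nsmul (ZMod p), ZMod.natCast_zmod_val, Prod.smul_mk, smul_zero,
      smul_zero, zero_add, one_smul, Prod.mk_add_mk, add_zero, zero_add, smul_eq_mul, mul_one]
  · intro n h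
    have := congrArg Prod.fst h
    rw [← Nat.cast_smul_eq_nsmul (ZMod p), Prod.smul_mk, smul_zero] at this
    exact one_ne_zero this

end SubQ

end Fermat.Agent.S56
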