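/-
Project S56, node [LOC-p-FLAT], cell F-ORD (ordinary case; owner helper1).  Prefix `s56fo_`.
THE DATA OF ONE FLAT LIFT IN THE ORDINARY CASE (concrete: `G_ℚ`, a place `P | p`).

`rb` with `(s - 1) V̄ ⊆ k u₀` for `s ∈ I_P`, `det (u₁, u₀) = 1`; `r` a flat lift of `rb` to `k[ε]`
with cyclotomic determinant.  Then (`s56fo_lift`, given the seam `s56fo_PeuOrder_stmt`):
`c_r = ∂m + A Dg + n` on `D_P` with `n` valued in `W₀`, `A` additive on `D_P`, zero on `I_P` and on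
`ker r`, and for all `𝔽_p`-linear `ℓ₀ ℓ₁ : k → 𝔽_p` the `ω`-cocycle
`s ↦ ℓ₀ (coefficient of r̄ s u₁ - u₁) + ℓ₁ (coefficient of (c_r s - ∂m s) u₁)` on `I_P` is peu
ramifie.
-/
import Mathlib
import Fermat.Agent.S56.Flat.Ord.Line
import Fermat.Agent.S56.Flat.Ord.Alg
import Fermat.Agent.S56.Flat.Ord.SubQ
import Fermat.Agent.S56.LocP.Dim

set_option autoImplicit false
set_option linter.unusedSectionVars false
set_option linter.style.haveILetI false

noncomputable section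

namespace Fermat.Agent.S56

open Fermat.Agent.MZ Fermat.Agent.FF Fermat.Agent.S53 Matrix ExtCitation

variable {k : Type} [Field k]

/-! ### the `u₀`-coefficient and the determinant -/

/-- the coefficient of `u₀` (when `det (u₁, u₀) = 1`): `w ↦ - det (w, u₁)`. -/
def s56fo_co (u₁ : Fin 2 → k) : (Fin 2 → k) →+ k := - s56fo_detw u₁

theorem s56fo_co_apply (u₁ w : Fin 2 → k) : s56fo_co u₁ w = - s56fo_detw u₁ w := rfl

theorem s56fo_co_smul {u₀ u₁ : Fin 2 → k} (hu01 : s56fo_detw u₀ u₁ = 1) (t : k) :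
    s56fo_co u₁ (t • u₀) = t := by
  rw [s56fo_co_apply, s56fo_detw_apply]
  rw [s56fo_detw_apply] at hu01
  simp only [Pi.smul_apply, smul_eq_mul]
  linear_combination t * hu01

theorem s56fo_detw_mulVec (M : Matrix (Fin 2) (Fin 2) k) (u v : Fin 2 → k) :
    s56fo_detw (M *ᵥ u) (M *ᵥ v) = M.det * s56fo_detw u v := by
  rw [s56fo_detw_apply, s56fo_detw_apply, Matrix.det_fin_two]
  simp only [Matrix.mulVec, dotProduct, Fin.sum_univ_two]
  ring

/-- a matrix with `(M - 1) V̄ ⊆ k u₀` acts on `u₀` through its determinant. -/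
theorem s56fo_det_eigen {u₀ u₁ : Fin 2 → k} (hu01 : s56fo_detw u₀ u₁ = 1)
    (M : Matrix (Fin 2) (Fin 2) k) (h : ∀ v : Fin 2 → k, ∃ t : k, M *ᵥ v - v = t • u₀) :
    M *ᵥ u₀ = M.det • u₀ := by
  obtain ⟨t, ht⟩ := h u₀
  obtain ⟨b, hb⟩ := h u₁
  have h0 : M *ᵥ u₀ = (1 + t) • u₀ := by rw [add_smul, one_smul, ← ht]; abel
  have h1 : M *ᵥ u₁ = u₁ + b • u₀ := by rw [← hb]; abel
  have h2 := s56fo_detw_mulVec M u₀ u₁
  rw [h0, h1, hu01, mul_one, map_add, s56fo_detw_apply, s56fo_detw_apply] at h2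
  rw [s56fo_detw_apply] at hu01
  simp only [Pi.smul_apply, smul_eq_mul] at h2
  have h3 : M.det = 1 + t := by linear_combination (-1 : k) * h2 + (1 + t) * hu01
  rw [h3, h0]

/-! ### the residue field of `O` is perfect -/

theorem s56fo_hperf (p : ℕ) [Fact p.Prime] (P : ValuationSubring ff_Qb) (hP : P.LiesOverPrime p)
    (x : ↥(ffi_O P ↥(ffi_L P))) :
    ∃ y : ↥(ffi_O P ↥(ffi_L P)),
      algebraMap ↥(ffi_O P ↥(ffi_L P)) ff_Qb (y ^ p - x) ∈ P.nonunits := by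
  have hctx := mzg_ctx p P hP
  haveI : IsDiscreteValuationRing ↥(ffi_O P ↥(ffi_L P)) := mzg_ctx_dvr p P hP
  have hp := (Fact.out : p.Prime)
  obtain ⟨y', hy'⟩ := IsAlgClosed.exists_pow_nat_eq (algebraMap ↥(ffi_O P ↥(ffi_L P)) ff_Qb x) hp.pos
  have hy'P : y' ∈ P := by
    rw [← P.valuation_le_one_iff]
    have h1 : P.valuation (y' ^ p) ≤ 1 := by
      rw [hy']
      exact (P.valuation_le_one_iff _).mpr (hctx.mem_A x)
    rw [map_pow] at h1
    by_contra h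
    rw [not_le] at h
    exact absurd h1 (not_le.mpr (one_lt_pow₀ h hp.ne_zero))
  obtain ⟨y, hy⟩ := hctx.res_full y' hy'P
  refine ⟨y, ?_⟩
  rw [map_sub, map_pow, ← hy', ← neg_sub]
  apply mzo_nonunits_neg
  rw [← geom_sum₂_mul]
  refine mzo_mem_mul_nonunits (P.sum_mem fun i _ => ?_) hy
  exact P.mul_mem _ _ (pow_mem hy'P _) (pow_mem (hctx.mem_A y) _)

/-! ### inertia is normal in the decomposition group -/

theorem s56fo_inertia_le (A : ValuationSubring ff_Qb) :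
    A.inertiaSubgroupIn ℚ ≤ A.decompositionSubgroup ℚ := by
  intro s hs
  obtain ⟨x, -, rfl⟩ := hs
  exact x.2

theorem s56fo_inertia_conj (A : ValuationSubring ff_Qb) {σ s : GQ}
    (hσ : σ ∈ A.decompositionSubgroup ℚ) (hs : s ∈ A.inertiaSubgroupIn ℚ) :
    σ * s * σ⁻¹ ∈ A.inertiaSubgroupIn ℚ := by
  obtain ⟨x, hx, rfl⟩ := hs
  have hn : (ValuationSubring.inertiaSubgroup ℚ A).Normal := by
    unfold ValuationSubring.inertiaSubgroup
    infer_instance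
  have := hn.conj_mem x hx ⟨σ, hσ⟩
  exact ⟨_, this, rfl⟩

/-! ### the determinant of a lift with cyclotomic determinant -/

section Lift

variable {p : ℕ} [Fact p.Prime] [Algebra (ZMod p) k]

theorem s56fo_charP : (p : k) = 0 := by
  haveI : CharP k p := charP_of_injective_algebraMap (algebraMap (ZMod p) k).injective p
  exact CharP.cast_eq_zero k p

theorem s56fo_two_ne (hp2 : p ≠ 2) : (2 : k) ≠ 0 := by
  haveI : CharP k p := charP_of_injective_algebraMap (algebraMap (ZMod p) k).injective p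
  intro h
  have h' : ((2 : ℕ) : k) = 0 := by exact_mod_cast h
  rw [CharP.cast_eq_zero_iff k p] at h'
  have := Nat.le_of_dvd (by norm_num) h'
  have := (Fact.out : p.Prime).two_le
  omega

theorem s56fo_det_lift (r : FramedRep (DualNumber k))
    (hdet : r.toGaloisRepAdic.DetIsCyclotomic p) (σ : GQ) :
    (r σ).det = ((cycloExp p σ : ℕ) : DualNumber k) := by
  have hp0 : (p : k) = 0 := s56fo_charP
  have hpA : Ideal.span {((p ^ 1 : ℕ) : DualNumber k)} = ⊥ := by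
    rw [pow_one, s56oa_natCast_eq_zero hp0, Ideal.span_singleton_eq_bot]
  have := hdet.2 1 σ (cycloExp p σ) (fun μ hμ =>
    Fermat.Agent.S14.Reduction.apply_of_pow_eq_one p σ (by rwa [pow_one] at hμ))
  rw [hpA, Ideal.mem_bot, sub_eq_zero] at this
  rw [← this]
  exact (LinearMap.det_toLin' _).symm

theorem s56fo_det_bar (r : FramedRep (DualNumber k))
    (hdet : r.toGaloisRepAdic.DetIsCyclotomic p) (σ : GQ) :
    (s56t_bar r σ).det = ((cycloExp p σ : ℕ) : k) := by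
  have h1 := s56fo_det_lift r hdet σ
  have h2 : (s56t_bar r σ).det = ((r σ).det).fst := by
    rw [s56t_bar_apply]
    exact (RingHom.map_det (TrivSqZeroExt.fstHom k k k : DualNumber k →ₐ[k] k).toRingHom (r σ)).symm
  rw [h2, h1, TrivSqZeroExt.fst_natCast]

/-- the `𝔽_p`-linear form `a + ε b ↦ ℓ₀ a + ℓ₁ b` on `k[ε]`. -/
def s56fo_ell (ℓ₀ ℓ₁ : k →ₗ[ZMod p] ZMod p) : DualNumber k →ₗ[ZMod p] ZMod p where
  toFun x := ℓ₀ x.fst + ℓ₁ x.snd
  map_add' x y := by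
    rw [TrivSqZeroExt.fst_add, TrivSqZeroExt.snd_add, map_add, map_add]
    abel
  map_smul' n x := by
    rw [TrivSqZeroExt.fst_smul, TrivSqZeroExt.snd_smul, map_smul, map_smul, RingHom.id_apply,
      smul_add]

theorem s56fo_ell_apply (ℓ₀ ℓ₁ : k →ₗ[ZMod p] ZMod p) (x : DualNumber k) :
    s56fo_ell ℓ₀ ℓ₁ x = ℓ₀ x.fst + ℓ₁ x.snd := rfl

/-- **the data of one flat lift.** -/
theorem s56fo_lift [Finite k] (hPeu : s56fo_PeuOrder_stmt) (hp2 : p ≠ 2)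
    (rb : FramedResidual k) (P : ValuationSubring ff_Qb) (hP : P.LiesOverPrime p)
    {u₀ u₁ : Fin 2 → k} (hu01 : s56fo_detw u₀ u₁ = 1)
    (hord : ∀ s ∈ P.inertiaSubgroupIn ℚ, ∀ v : Fin 2 → k, ∃ t : k, rb s *ᵥ v - v = t • u₀)
    {Dg : Matrix (Fin 2) (Fin 2) k} (hD1 : Dg *ᵥ u₀ = u₀)
    (hD2 : ∀ w : Fin 2 → k, ∃ t : k, Dg *ᵥ w = t • u₀ - w)
    {ζ : ff_Qb} (hζ : IsPrimitiveRoot ζ p)
    (r : FramedRep (DualNumber k)) (hr : ∀ σ, s56t_bar r σ = rb σ)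
    (hdet : r.toGaloisRepAdic.DetIsCyclotomic p) (hflat : r.toGaloisRepAdic.IsFlatAt p) :
    ∃ (m : Matrix (Fin 2) (Fin 2) k) (A : GQ → k), m.trace = 0 ∧
      (∀ σ ∈ P.decompositionSubgroup ℚ,
        s56t_coc r σ - s56o_d rb m σ - A σ • Dg ∈ s56oa_W0 u₀) ∧
      (∀ σ ∈ P.decompositionSubgroup ℚ, ∀ τ ∈ P.decompositionSubgroup ℚ,
        A (σ * τ) = A σ + A τ) ∧
      (∀ s ∈ P.inertiaSubgroupIn ℚ, A s = 0) ∧
      (∀ s ∈ P.decompositionSubgroup ℚ, r s = 1 → A s = 0) ∧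
      ∀ ℓ₀ ℓ₁ : k →ₗ[ZMod p] ZMod p, s56fo_Peu ↥(ffi_O P ↥(ffi_L P)) p ζ
        (fun s : ↥(P.inertiaSubgroupIn ℚ) => ℓ₀ (s56fo_co u₁ (rb (s : GQ) *ᵥ u₁ - u₁)) +
          ℓ₁ (s56fo_co u₁ ((s56t_coc r (s : GQ) - s56o_d rb m (s : GQ)) *ᵥ u₁))) := by
  classical
  have hpr : p.Prime := Fact.out
  haveI : CharP k p := charP_of_injective_algebraMap (algebraMap (ZMod p) k).injective p
  have hp0 : (p : k) = 0 := s56fo_charP
  have h2 : (2 : k) ≠ 0 := s56fo_two_ne hp2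
  have h3 : 3 ≤ p := by
    have := hpr.two_le
    omega
  have hu := s56fo_u0_ne hu01
  have hctx := mzg_ctx p P hP
  haveI : IsDiscreteValuationRing ↥(ffi_O P ↥(ffi_L P)) := mzg_ctx_dvr p P hP
  haveI : Finite (DualNumber k) := inferInstanceAs (Finite (k × k))
  -- an element of inertia on which `ω ≠ 1`
  obtain ⟨s₀, hs₀, hne⟩ := Fermat.Agent.MZ.mzj_ch_main p h3 P hP
  have hord' : ∀ s ∈ P.inertiaSubgroupIn ℚ, ∀ v : Fin 2 → k, ∃ t : k,
      s56t_bar r s *ᵥ v - v = t • u₀ := fun s hs v => by rw [hr]; exact hord s hs v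
  have hx₀ : s56t_bar r s₀ *ᵥ u₀ = (s56t_bar r s₀).det • u₀ :=
    s56fo_det_eigen hu01 _ (hord' s₀ hs₀)
  have hx₀1 : (s56t_bar r s₀).det ≠ 1 := by
    rw [s56fo_det_bar r hdet]
    intro h1
    apply hne
    apply (algebraMap (ZMod p) k).injective
    rw [map_natCast, map_one, h1]
  -- the line
  obtain ⟨b₀, w₀, hb₀, hbw, hline⟩ := s56fo_line p hp2 hp0 r hflat P hP hu hord' hs₀ hx₀ hx₀1
  -- the algebra
  have hdet' : ∀ σ ∈ P.decompositionSubgroup ℚ, ((r σ).det).snd = 0 := fun σ _ => by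
    rw [s56fo_det_lift r hdet, TrivSqZeroExt.snd_natCast]
  obtain ⟨m, A, hm, hshape, hAadd, hAI, hAone, hdetI, hdict⟩ :=
    s56fo_alg h2 r (s56fo_inertia_le P) (fun σ hσ s hs => s56fo_inertia_conj P hσ hs) hdet' hu01
      hb₀ hs₀ hbw hline hD1 hD2
  have hd : ∀ σ, s56t_bar r σ * m * s56t_bar r σ⁻¹ - m = s56o_d rb m σ := fun σ => by
    rw [hr, hr]
    rfl
  refine ⟨m, A, hm, fun σ hσ => ?_, hAadd, hAI, hAone, fun ℓ₀ ℓ₁ => ?_⟩
  · rw [← hd]
    exact hshape σ hσ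
  -- the peu ramifie property
  obtain ⟨H, hH⟩ := s56fi_order r p hflat P hP
  have hc := s56fo_coords (s56fo_coords_hyp hu01 hb₀)
  letI modV : Module (ZMod p) (s56fi_Mod r.toMonoidHom) :=
    inferInstanceAs (Module (ZMod p) (Fin 2 → DualNumber k))
  let j : DualNumber k →ₗ[ZMod p] s56fi_Mod r.toMonoidHom :=
    { toFun := fun a => s56fi_of _ (a • b₀)
      map_add' := fun a a' => add_smul a a' b₀
      map_smul' := fun n a => smul_assoc n a b₀ }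
  have hj : Function.Injective j := by
    rw [injective_iff_map_eq_zero]
    intro a ha
    have h1 : a • b₀ + (0 : DualNumber k) • s56oa_vinl u₁ = 0 := by
      rw [zero_smul, add_zero]
      exact ha
    exact (hc.2 _ _ h1).1
  let ω : ↥(P.inertiaSubgroupIn ℚ) → ZMod p := fun s => ((cycloExp p (s : GQ) : ℕ) : ZMod p)
  have hω : ∀ s : ↥(P.inertiaSubgroupIn ℚ), s • ζ = ζ ^ (ω s).val := by
    intro s
    show (s : GQ) ζ = ζ ^ (((cycloExp p (s : GQ) : ℕ) : ZMod p)).val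
    rw [ZMod.val_natCast, ← pow_eq_pow_mod _ hζ.pow_eq_one]
    exact Fermat.Agent.S14.Reduction.apply_of_pow_eq_one p (s : GQ) hζ.pow_eq_one
  have hω1 : ∃ s : ↥(P.inertiaSubgroupIn ℚ), ω s ≠ 1 := ⟨⟨s₀, hs₀⟩, hne⟩
  have hnat : ∀ (n : ℕ) (a : DualNumber k), ((n : ZMod p)) • a = (n : DualNumber k) * a := by
    intro n a
    rw [Nat.cast_smul_eq_nsmul, nsmul_eq_mul]
  have hjs : ∀ (s : ↥(P.inertiaSubgroupIn ℚ)) (a : DualNumber k), s • j a = j (ω s • a) := by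
    intro s a
    show s56fi_of _ ((r (s : GQ)) *ᵥ (a • b₀)) = s56fi_of _ ((ω s • a) • b₀)
    rw [Matrix.mulVec_smul, hdetI _ s.2, s56fo_det_lift r hdet, hnat, smul_smul, mul_comm]
  have hdict' : ∀ s ∈ P.inertiaSubgroupIn ℚ, ∃ α : DualNumber k,
      r s *ᵥ s56oa_vinl u₁ - s56oa_vinl u₁ = α • b₀ ∧ rb s *ᵥ u₁ - u₁ = α.fst • u₀ ∧
        (s56t_coc r s - s56o_d rb m s) *ᵥ u₁ = α.snd • u₀ := by
    intro s hs
    obtain ⟨α, f1, f2, f3⟩ := hdict s hs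
    exact ⟨α, f1, by rw [← hr]; exact f2, by rw [← hd]; exact f3⟩
  let bt : ↥(P.inertiaSubgroupIn ℚ) → DualNumber k := fun s => (hdict' (s : GQ) s.2).choose
  have hbt := fun s : ↥(P.inertiaSubgroupIn ℚ) => (hdict' (s : GQ) s.2).choose_spec
  have hb₁ : ∀ s : ↥(P.inertiaSubgroupIn ℚ),
      s • (s56fi_of r.toMonoidHom (s56oa_vinl u₁)) = s56fi_of _ (s56oa_vinl u₁) + j (bt s) := by
    intro s
    show s56fi_of _ ((r (s : GQ)) *ᵥ s56oa_vinl u₁) = s56fi_of _ (s56oa_vinl u₁ + bt s • b₀)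
    rw [← (hbt s).1]
    congr 1
    abel
  have hind : ∀ (n : ZMod p) (a : DualNumber k),
      n • (s56fi_of r.toMonoidHom (s56oa_vinl u₁)) + j a = 0 → n = 0 := by
    intro n a h
    have h1 : a • b₀ + ((n.val : ℕ) : DualNumber k) • s56oa_vinl u₁ = 0 := by
      have e : n • (s56fi_of r.toMonoidHom (s56oa_vinl u₁)) =
          s56fi_of _ (((n.val : ℕ) : DualNumber k) • s56oa_vinl u₁) := by
        conv_lhs => rw [← ZMod.natCast_zmod_val n]
        show ((n.val : ℕ) : ZMod p) • (s56oa_vinl u₁ : Fin 2 → DualNumber k) = _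
        rw [Nat.cast_smul_eq_nsmul, ← Nat.cast_smul_eq_nsmul (DualNumber k)]
        rfl
      rw [e] at h
      rw [add_comm]
      exact h
    have h2 := (hc.2 _ _ h1).2
    have h3' := congrArg TrivSqZeroExt.fst h2
    rw [TrivSqZeroExt.fst_natCast, TrivSqZeroExt.fst_zero, CharP.cast_eq_zero_iff k p] at h3'
    have h4 : n.val = 0 := Nat.eq_zero_of_dvd_of_lt h3' (ZMod.val_lt n)
    exact (ZMod.val_eq_zero n).mp h4
  have hL : ∀ n : ℕ, n ≠ 0 → ∃ ζ' : ff_Qb, IsPrimitiveRoot ζ' n := fun n hn => by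
    haveI : NeZero n := ⟨hn⟩
    exact HasEnoughRootsOfUnity.exists_primitiveRoot ff_Qb n
  have hmain := s56fo_peu_of_order hPeu hctx hp2 hL (s56fo_hperf p P hP) hζ hH j hj ω hω hω1 hjs
    (s56fi_of r.toMonoidHom (s56oa_vinl u₁)) bt hb₁ hind (s56fo_ell ℓ₀ ℓ₁)
  have hfun : (fun s : ↥(P.inertiaSubgroupIn ℚ) => s56fo_ell ℓ₀ ℓ₁ (bt s)) =
      (fun s : ↥(P.inertiaSubgroupIn ℚ) => ℓ₀ (s56fo_co u₁ (rb (s : GQ) *ᵥ u₁ - u₁)) +
          ℓ₁ (s56fo_co u₁ ((s56t_coc r (s : GQ) - s56o_d rb m (s : GQ)) *ᵥ u₁))) := by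
    funext s
    obtain ⟨-, f1, f2⟩ := hbt s
    have e1 := congrArg (s56fo_co u₁) f1
    have e2 := congrArg (s56fo_co u₁) f2
    rw [s56fo_co_smul hu01] at e1 e2
    rw [s56fo_ell_apply, e1, e2]
  rw [← hfun]
  exact hmain

end Lift

end Fermat.Agent.S56
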