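/-
Project S56, node [LOC-p-FLAT], cell F-ORD (ordinary case; owner helper1).  Prefix `s56fo_`.
THE SEAM `s56f_Ord_stmt` OF Flat/Main.lean IS CLOSED, AND WITH IT `s56a_LocPFlat_stmt`:

  `s56fo_ord_closed : s56f_Ord_stmt`
  `s56fo_locPFlat : s56a_LocPFlat_stmt := s56f_main s56fhi_inst s56fje_excl s56fo_ord_closed`.
-/
import Mathlib
import Fermat.Agent.S56.Flat.Ord.Main
import Fermat.Agent.S56.Flat.Main
import Fermat.Agent.S56.Flat.SSInstShape
import Fermat.Agent.S56.Flat.SSExclSeam

set_option autoImplicit false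
set_option linter.unusedSectionVars false

noncomputable section

namespace Fermat.Agent.S56

open Fermat.Agent.FF Fermat.Agent.S53 Matrix

/-- the seam F-ORD of `Flat/Main.lean`. -/
theorem s56fo_ord_closed : s56f_Ord_stmt := by
  intro p _ hp2 k _ _ _ rb hord
  exact s56fo_main hp2 rb (padicPlace p) (Fermat.Agent.S55.pl_padicPlace_liesOver p) hord

/-- **[LOC-p-FLAT] is closed.** -/
theorem s56fo_locPFlat : s56a_LocPFlat_stmt :=
  s56f_main s56fhi_inst s56fje_excl s56fo_ord_closed

end Fermat.Agent.S56
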