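/-
S56, node [LOC-p-FLAT], cell F-ORD (helper1), prefix `s56fo_`: THE COUNT IN THE ORDINARY CASE.

Matrix level, abstract.  `rb : FramedResidual k`, `D ≤ G_ℚ`, `u₀ ≠ 0` the stable line,
`W₀ = s56oa_W0 u₀ = Hom(V̄/L̄, L̄) = k g`, `Dg` the diagonal matrix of the Borel (trace `0`,
`Dg u₀ = u₀`, `∂Dg` with values in `W₀` on `D`), `A₀ : G_ℚ → k` (a fixed unramified additive
character), `F` a set of cochains (the cocycles of the flat lifts).

* `s56fo_Shape` : `c = ∂m + (a A₀) Dg + n` on `D` with `n` valued in `W₀` (the shape of the cocycle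
  of a flat lift of an ordinary `rb`: stable line, unramified quotient).
* `s56fo_N`     : the `W₀`-valued (on `D`) cochains cohomologous to an element of `C = span F`.
* `s56fo_Dep`   : any two of them are dependent modulo the coboundaries of `W₀` (this is where
  "peu ramifié" and the Kummer levels enter).
* `s56fo_count` : then `C` modulo the coboundaries on `D` has dimension `≤ h⁰(D, ad⁰) + 1`.
-/
import Mathlib
import Fermat.Agent.S56.LocP.Dim

set_option autoImplicit false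
set_option linter.unusedSectionVars false
set_option linter.style.haveILetI false

open Module Matrix
open Fermat.Agent.S53 ExtCitation

namespace Fermat.Agent.S56

noncomputable section

variable {k : Type} [Field k]

/-- `c = ∂m + (a A₀) Dg + n` on `D`, with `n` valued in `W₀`. -/
def s56fo_Shape (rb : FramedResidual k) (D : Subgroup GQ) (u₀ : Fin 2 → k)
    (Dg : Matrix (Fin 2) (Fin 2) k) (A₀ : GQ → k) (c : GQ → Matrix (Fin 2) (Fin 2) k) : Prop :=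
  ∃ (m : Matrix (Fin 2) (Fin 2) k) (a : k), m.trace = 0 ∧
    ∀ σ ∈ D, c σ - s56o_d rb m σ - (a * A₀ σ) • Dg ∈ s56oa_W0 u₀

/-- `c = ∂m + n` on `D`, with `n` valued in `W₀`. -/
def s56fo_Shape0 (rb : FramedResidual k) (D : Subgroup GQ) (u₀ : Fin 2 → k)
    (c : GQ → Matrix (Fin 2) (Fin 2) k) : Prop :=
  ∃ m : Matrix (Fin 2) (Fin 2) k, m.trace = 0 ∧ ∀ σ ∈ D, c σ - s56o_d rb m σ ∈ s56oa_W0 u₀

/-- the `W₀`-valued (on `D`) cochains cohomologous to an element of `C`. -/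
def s56fo_N (rb : FramedResidual k) (D : Subgroup GQ) (u₀ : Fin 2 → k)
    (C : Submodule k (GQ → Matrix (Fin 2) (Fin 2) k)) : Set (GQ → Matrix (Fin 2) (Fin 2) k) :=
  {n | (∀ σ ∈ D, n σ ∈ s56oa_W0 u₀) ∧ ∃ c ∈ C, ∃ m : Matrix (Fin 2) (Fin 2) k, m.trace = 0 ∧
    ∀ σ ∈ D, n σ = c σ - s56o_d rb m σ}

/-- any two elements of `N` are dependent modulo the coboundaries of `W₀ = k g`. -/
def s56fo_Dep (rb : FramedResidual k) (D : Subgroup GQ) (u₀ : Fin 2 → k)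
    (N : Set (GQ → Matrix (Fin 2) (Fin 2) k)) : Prop :=
  ∀ n ∈ N, ∀ n' ∈ N, ∃ a a' x : k, (a ≠ 0 ∨ a' ≠ 0) ∧
    ∀ σ ∈ D, a • n σ + a' • n' σ = s56o_d rb (x • s56oa_gen u₀) σ

theorem s56fo_d_zero (rb : FramedResidual k) (σ : GQ) : s56o_d rb 0 σ = 0 := by
  unfold s56o_d
  simp

theorem s56fo_d_neg (rb : FramedResidual k) (m : Matrix (Fin 2) (Fin 2) k) (σ : GQ) :
    s56o_d rb (-m) σ = - s56o_d rb m σ := by
  rw [← neg_one_smul k m, s56o_d_smul, neg_one_smul]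

theorem s56fo_d_sub (rb : FramedResidual k) (m m' : Matrix (Fin 2) (Fin 2) k) (σ : GQ) :
    s56o_d rb (m - m') σ = s56o_d rb m σ - s56o_d rb m' σ := by
  rw [sub_eq_add_neg, s56o_d_add, s56fo_d_neg, ← sub_eq_add_neg]

/-- the shape is stable under linear combinations. -/
theorem s56fo_shape_span (rb : FramedResidual k) (D : Subgroup GQ) (u₀ : Fin 2 → k)
    (Dg : Matrix (Fin 2) (Fin 2) k) (A₀ : GQ → k)
    (F : Set (GQ → Matrix (Fin 2) (Fin 2) k))
    (h1 : ∀ c ∈ F, s56fo_Shape rb D u₀ Dg A₀ c) :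
    ∀ c ∈ Submodule.span k F, s56fo_Shape rb D u₀ Dg A₀ c := by
  intro c hc
  induction hc using Submodule.span_induction with
  | mem c hc => exact h1 c hc
  | zero =>
    refine ⟨0, 0, Matrix.trace_zero _ _, fun σ _ => ?_⟩
    rw [Pi.zero_apply, s56fo_d_zero, zero_mul, zero_smul, sub_zero, sub_zero]
    exact Submodule.zero_mem _
  | add c c' _ _ ih ih' =>
    obtain ⟨m, a, hm, h⟩ := ih
    obtain ⟨m', a', hm', h'⟩ := ih'
    refine ⟨m + m', a + a', by rw [Matrix.trace_add, hm, hm', add_zero], fun σ hσ => ?_⟩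
    have e : (c + c') σ - s56o_d rb (m + m') σ - ((a + a') * A₀ σ) • Dg =
        (c σ - s56o_d rb m σ - (a * A₀ σ) • Dg) + (c' σ - s56o_d rb m' σ - (a' * A₀ σ) • Dg) := by
      rw [Pi.add_apply, s56o_d_add, add_mul, add_smul]
      abel
    rw [e]
    exact Submodule.add_mem _ (h σ hσ) (h' σ hσ)
  | smul b c _ ih =>
    obtain ⟨m, a, hm, h⟩ := ih
    refine ⟨b • m, b * a, by rw [Matrix.trace_smul, hm, smul_zero], fun σ hσ => ?_⟩
    have e : (b • c) σ - s56o_d rb (b • m) σ - (b * a * A₀ σ) • Dg =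
        b • (c σ - s56o_d rb m σ - (a * A₀ σ) • Dg) := by
      rw [Pi.smul_apply, s56o_d_smul, smul_sub, smul_sub, smul_smul, mul_assoc]
    rw [e]
    exact Submodule.smul_mem _ _ (h σ hσ)

/-- **the count in the ordinary case.** -/
theorem s56fo_count (rb : FramedResidual k) (D : Subgroup GQ) (u₀ : Fin 2 → k) (hu : u₀ ≠ 0)
    (Dg : Matrix (Fin 2) (Fin 2) k) (hDtr : Dg.trace = 0) (hD1 : Dg *ᵥ u₀ = u₀)
    (hDW : ∀ σ ∈ D, s56o_d rb Dg σ ∈ s56oa_W0 u₀)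
    (A₀ : GQ → k) (F : Set (GQ → Matrix (Fin 2) (Fin 2) k))
    (h1 : ∀ c ∈ F, s56fo_Shape rb D u₀ Dg A₀ c)
    (h2 : s56fo_Dep rb D u₀ (s56fo_N rb D u₀ (Submodule.span k F))) :
    FiniteDimensional k (↥(Submodule.span k F) ⧸
      (s56a_cobOn rb D).comap (Submodule.span k F).subtype) ∧
    finrank k (↥(Submodule.span k F) ⧸
      (s56a_cobOn rb D).comap (Submodule.span k F).subtype) ≤ finrank k (s56a_inv rb D) + 1 := by
  set C := Submodule.span k F with hC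
  have hgtr : (s56oa_gen u₀).trace = 0 := s56oa_W0_trace hu (s56oa_gen_mem u₀)
  have hS := s56fo_shape_span rb D u₀ Dg A₀ F h1
  -- dependency modulo coboundaries of two elements of `C` of shape `0`
  have hdep : ∀ c ∈ C, ∀ c' ∈ C, ∀ m m' : Matrix (Fin 2) (Fin 2) k, m.trace = 0 → m'.trace = 0 →
      (∀ σ ∈ D, c σ - s56o_d rb m σ ∈ s56oa_W0 u₀) →
      (∀ σ ∈ D, c' σ - s56o_d rb m' σ ∈ s56oa_W0 u₀) →
      ∃ a a' x : k, (a ≠ 0 ∨ a' ≠ 0) ∧ ∀ σ ∈ D, a • c σ + a' • c' σ =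
        s56o_d rb (a • m + a' • m' + x • s56oa_gen u₀) σ := by
    intro c hc c' hc' m m' hm hm' h h'
    obtain ⟨a, a', x, hne, hx⟩ := h2 (fun σ => c σ - s56o_d rb m σ)
      ⟨h, c, hc, m, hm, fun σ _ => rfl⟩ (fun σ => c' σ - s56o_d rb m' σ)
      ⟨h', c', hc', m', hm', fun σ _ => rfl⟩
    refine ⟨a, a', x, hne, fun σ hσ => ?_⟩
    have := hx σ hσ
    rw [s56o_d_add, s56o_d_add, s56o_d_smul, s56o_d_smul, ← this, smul_sub, smul_sub]
    abel
  have hcob : ∀ (c : GQ → Matrix (Fin 2) (Fin 2) k) (m : Matrix (Fin 2) (Fin 2) k),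
      m.trace = 0 → (∀ σ ∈ D, c σ = s56o_d rb m σ) → c ∈ s56a_cobOn rb D := by
    intro c m hm h
    exact ⟨m, hm, h⟩
  -- a generator of the shape-`0` part modulo coboundaries
  have hc₂ : ∃ c₂ ∈ C, s56fo_Shape0 rb D u₀ c₂ ∧ ∀ c ∈ C, s56fo_Shape0 rb D u₀ c →
      ∃ b : k, c - b • c₂ ∈ s56a_cobOn rb D := by
    by_cases hall : ∀ c ∈ C, s56fo_Shape0 rb D u₀ c → c ∈ s56a_cobOn rb D
    · refine ⟨0, Submodule.zero_mem _, ⟨0, Matrix.trace_zero _ _, fun σ _ => ?_⟩, fun c hc h0 => ?_⟩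
      · rw [Pi.zero_apply, s56fo_d_zero, sub_zero]
        exact Submodule.zero_mem _
      · exact ⟨0, by rw [zero_smul, sub_zero]; exact hall c hc h0⟩
    · push Not at hall
      obtain ⟨c₂, hc₂C, hc₂0, hc₂n⟩ := hall
      refine ⟨c₂, hc₂C, hc₂0, fun c hc h0 => ?_⟩
      obtain ⟨m, hm, h⟩ := h0
      obtain ⟨m₂, hm₂, h₂⟩ := hc₂0
      obtain ⟨a, a', x, hne, hx⟩ := hdep c hc c₂ hc₂C m m₂ hm hm₂ h h₂
      have htr : (a • m + a' • m₂ + x • s56oa_gen u₀).trace = 0 := by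
        rw [Matrix.trace_add, Matrix.trace_add, Matrix.trace_smul, Matrix.trace_smul,
          Matrix.trace_smul, hm, hm₂, hgtr]
        simp
      have hmem : a • c + a' • c₂ ∈ s56a_cobOn rb D := hcob _ _ htr fun σ hσ => hx σ hσ
      have ha : a ≠ 0 := by
        intro ha0
        rw [ha0, zero_smul, zero_add] at hmem
        have ha' : a' ≠ 0 := by
          rcases hne with h | h
          · exact absurd ha0 h
          · exact h
        apply hc₂n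
        have := Submodule.smul_mem _ a'⁻¹ hmem
        rwa [smul_smul, inv_mul_cancel₀ ha', one_smul] at this
      refine ⟨-(a⁻¹ * a'), ?_⟩
      have := Submodule.smul_mem _ a⁻¹ hmem
      rw [smul_add, smul_smul, smul_smul, inv_mul_cancel₀ ha, one_smul] at this
      rwa [neg_smul, sub_neg_eq_add]
  -- an element carrying the diagonal part
  have hc₁ : ∃ c₁ ∈ C, ∀ c ∈ C, ∃ b : k, s56fo_Shape0 rb D u₀ (c - b • c₁) := by
    by_cases hex : ∃ c₁ ∈ C, ∃ (m₁ : Matrix (Fin 2) (Fin 2) k) (a₁ : k), a₁ ≠ 0 ∧ m₁.trace = 0 ∧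
        ∀ σ ∈ D, c₁ σ - s56o_d rb m₁ σ - (a₁ * A₀ σ) • Dg ∈ s56oa_W0 u₀
    · obtain ⟨c₁, hc₁C, m₁, a₁, ha₁, hm₁, h₁⟩ := hex
      refine ⟨c₁, hc₁C, fun c hc => ?_⟩
      obtain ⟨m, a, hm, h⟩ := hS c hc
      refine ⟨a * a₁⁻¹, m - (a * a₁⁻¹) • m₁, by
        rw [Matrix.trace_sub, Matrix.trace_smul, hm, hm₁, smul_zero, sub_zero], fun σ hσ => ?_⟩
      have e : (c - (a * a₁⁻¹) • c₁) σ - s56o_d rb (m - (a * a₁⁻¹) • m₁) σ =
          (c σ - s56o_d rb m σ - (a * A₀ σ) • Dg) -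
            (a * a₁⁻¹) • (c₁ σ - s56o_d rb m₁ σ - (a₁ * A₀ σ) • Dg) := by
        rw [Pi.sub_apply, Pi.smul_apply, s56fo_d_sub, s56o_d_smul, smul_sub, smul_sub, smul_smul]
        have : a * a₁⁻¹ * (a₁ * A₀ σ) = a * A₀ σ := by
          field_simp
        rw [this]
        abel
      rw [e]
      exact Submodule.sub_mem _ (h σ hσ) (Submodule.smul_mem _ _ (h₁ σ hσ))
    · refine ⟨0, Submodule.zero_mem _, fun c hc => ⟨0, ?_⟩⟩
      obtain ⟨m, a, hm, h⟩ := hS c hc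
      have ha : a = 0 := by
        by_contra ha
        exact hex ⟨c, hc, m, a, ha, hm, h⟩
      refine ⟨m, hm, fun σ hσ => ?_⟩
      have := h σ hσ
      rwa [ha, zero_mul, zero_smul, sub_zero, ← sub_zero c, ← zero_smul k (0 : GQ → _)] at this
  obtain ⟨c₁, hc₁C, hc₁⟩ := hc₁
  obtain ⟨c₂, hc₂C, hc₂0, hc₂⟩ := hc₂
  -- spanning
  have hsp : ∀ c : ↥C, ∃ a₁ a₂ : k,
      c - (a₁ • (⟨c₁, hc₁C⟩ : ↥C) + a₂ • (⟨c₂, hc₂C⟩ : ↥C)) ∈
        (s56a_cobOn rb D).comap C.subtype := by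
    rintro ⟨c, hc⟩
    obtain ⟨b₁, hb₁⟩ := hc₁ c hc
    obtain ⟨b₂, hb₂⟩ := hc₂ (c - b₁ • c₁) (Submodule.sub_mem _ hc (Submodule.smul_mem _ _ hc₁C)) hb₁
    refine ⟨b₁, b₂, ?_⟩
    rw [Submodule.mem_comap]
    have e : C.subtype (⟨c, hc⟩ - (b₁ • (⟨c₁, hc₁C⟩ : ↥C) + b₂ • (⟨c₂, hc₂C⟩ : ↥C))) =
        c - b₁ • c₁ - b₂ • c₂ := by
      show c - (b₁ • c₁ + b₂ • c₂) = _
      abel
    rw [e]
    exact hb₂
  obtain ⟨hfin, hle2, hle1⟩ := s56o_count_abs _ (⟨c₁, hc₁C⟩ : ↥C) (⟨c₂, hc₂C⟩ : ↥C) hsp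
  refine ⟨hfin, ?_⟩
  -- the trade
  obtain ⟨m₂, hm₂, h₂⟩ := hc₂0
  obtain ⟨a, a', x, hne, hx⟩ := h2 (fun σ => c₂ σ - s56o_d rb m₂ σ)
    ⟨h₂, c₂, hc₂C, m₂, hm₂, fun σ _ => rfl⟩ (fun σ => s56o_d rb Dg σ)
    ⟨hDW, 0, Submodule.zero_mem _, -Dg, by rw [Matrix.trace_neg, hDtr, neg_zero], fun σ _ => by
      rw [Pi.zero_apply, s56fo_d_neg, zero_sub, neg_neg]⟩
  by_cases ha : a = 0
  · -- `a' Dg - x g` is a non-zero invariant
    have ha' : a' ≠ 0 := by
      rcases hne with h | h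
      · exact absurd ha h
      · exact h
    have hinv : a' • Dg - x • s56oa_gen u₀ ∈ s56a_inv rb D := by
      rw [s56a_mem_inv]
      refine ⟨by rw [Matrix.trace_sub, Matrix.trace_smul, Matrix.trace_smul, hDtr, hgtr]; simp,
        fun σ hσ => ?_⟩
      have h3 := hx σ hσ
      rw [ha, zero_smul, zero_add, ← s56o_d_smul, ← sub_eq_zero, ← s56fo_d_sub] at h3
      have h4 : rb σ * (a' • Dg - x • s56oa_gen u₀) * rb σ⁻¹ = a' • Dg - x • s56oa_gen u₀ := by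
        unfold s56o_d at h3
        exact sub_eq_zero.mp h3
      calc rb σ * (a' • Dg - x • s56oa_gen u₀)
          = rb σ * (a' • Dg - x • s56oa_gen u₀) * (rb σ⁻¹ * rb σ) := by
            rw [s56o_rb_inv_mul, Matrix.mul_one]
        _ = (rb σ * (a' • Dg - x • s56oa_gen u₀) * rb σ⁻¹) * rb σ := by
            rw [Matrix.mul_assoc, Matrix.mul_assoc, Matrix.mul_assoc]
        _ = (a' • Dg - x • s56oa_gen u₀) * rb σ := by rw [h4]
    have hne0 : (⟨a' • Dg - x • s56oa_gen u₀, hinv⟩ : ↥(s56a_inv rb D)) ≠ 0 := by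
      intro h0
      have h5 : a' • Dg - x • s56oa_gen u₀ = 0 := congrArg Subtype.val h0
      have h6 : (a' • Dg - x • s56oa_gen u₀) *ᵥ u₀ = a' • u₀ := by
        rw [Matrix.sub_mulVec, Matrix.smul_mulVec, hD1, Matrix.smul_mulVec,
          (s56oa_gen_mem u₀).1, smul_zero, sub_zero]
      rw [h5, Matrix.zero_mulVec] at h6
      exact hu ((smul_eq_zero.mp h6.symm).resolve_left ha')
    have hpos : 0 < finrank k ↥(s56a_inv rb D) :=
      Module.finrank_pos_iff_exists_ne_zero.2 ⟨_, hne0⟩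
    omega
  · -- `c₂` is a coboundary on `D`
    have hmem : c₂ ∈ s56a_cobOn rb D := by
      have htr : (m₂ + a⁻¹ • (x • s56oa_gen u₀ - a' • Dg)).trace = 0 := by
        rw [Matrix.trace_add, Matrix.trace_smul, Matrix.trace_sub, Matrix.trace_smul,
          Matrix.trace_smul, hm₂, hDtr, hgtr]
        simp
      refine hcob _ _ htr fun σ hσ => ?_
      have h3 := hx σ hσ
      rw [s56o_d_add, s56o_d_smul, s56fo_d_sub, s56o_d_smul rb a', ← h3, add_sub_cancel_right,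
        smul_smul, inv_mul_cancel₀ ha, one_smul]
      abel
    have h1' := hle1 0 1 (Or.inr one_ne_zero) (by
      rw [Submodule.mem_comap]
      have e : C.subtype ((0 : k) • (⟨c₁, hc₁C⟩ : ↥C) + (1 : k) • (⟨c₂, hc₂C⟩ : ↥C)) = c₂ := by
        show (0 : k) • c₁ + (1 : k) • c₂ = c₂
        rw [zero_smul, one_smul, zero_add]
      rw [e]
      exact hmem)
    omega

end

end Fermat.Agent.S56
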