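/-
S56, node [LOC-p-FLAT], cell F-ORD (helper1), prefix `s56fo_`: DESCENT FROM `G_t` TO `D`, AND THE
COUNT WITH THE ARITHMETIC INPUT ON `G_t` ONLY.

* `s56fo_descend` : `I ⊴ D`, `ψ : D → kˣ` a character, `h` a `ψ`-cocycle on `D` vanishing on
  `G_t = {s ∈ I | ψ s = 1}`, and `ψ δ ≠ 1` for some `δ ∈ I`: then `h = (ψ - 1) x` on `D`
  (`I / G_t` embeds in `kˣ`, of order prime to the characteristic, and `k(ψ)^I = 0`).
* `s56fo_count'` : the count of `Ord/Count.lean` where the arithmetic hypothesis is only: *any two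
  cocycles of the family (`F` and the coboundary of the diagonal matrix) are `k`-dependent on
  `G_t`, after the coboundaries that put them in Borel shape*.
-/
import Mathlib
import Fermat.Agent.S56.Flat.Ord.Count

set_option autoImplicit false
set_option linter.unusedSectionVars false
set_option linter.style.haveILetI false

open Module Matrix
open Fermat.Agent.S53 ExtCitation

namespace Fermat.Agent.S56

noncomputable section

variable {k : Type} [Field k]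

/-- **descent**: a `ψ`-cocycle on `D` vanishing on `G_t = I ∩ ker ψ` is a coboundary on `D`. -/
theorem s56fo_descend {G : Type*} [Group G] (D I : Subgroup G) (hID : I ≤ D)
    (hnorm : ∀ σ ∈ D, ∀ s ∈ I, σ⁻¹ * s * σ ∈ I)
    (ψ : G → k) (hψ : ∀ σ ∈ D, ∀ τ ∈ D, ψ (σ * τ) = ψ σ * ψ τ) (hψ1 : ψ 1 = 1)
    (h : G → k) (hh : ∀ σ ∈ D, ∀ τ ∈ D, h (σ * τ) = h σ + ψ σ * h τ)
    (h0 : ∀ s ∈ I, ψ s = 1 → h s = 0)
    (δ : G) (hδ : δ ∈ I) (hδ1 : ψ δ ≠ 1) :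
    ∃ x : k, ∀ σ ∈ D, h σ = (ψ σ - 1) * x := by
  have hne : ψ δ - 1 ≠ 0 := sub_ne_zero.mpr hδ1
  have hψinv : ∀ σ ∈ D, ψ σ⁻¹ * ψ σ = 1 := fun σ hσ => by
    rw [← hψ _ (D.inv_mem hσ) _ hσ, inv_mul_cancel, hψ1]
  -- on `I`
  have hI : ∀ s ∈ I, h s = (ψ s - 1) * (h δ / (ψ δ - 1)) := by
    intro s hs
    have hsD := hID hs
    have hδD := hID hδ
    have hγI : s⁻¹ * δ⁻¹ * s * δ ∈ I :=
      I.mul_mem (I.mul_mem (I.mul_mem (I.inv_mem hs) (I.inv_mem hδ)) hs) hδ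
    have hγψ : ψ (s⁻¹ * δ⁻¹ * s * δ) = 1 := by
      rw [hψ _ (D.mul_mem (D.mul_mem (D.inv_mem hsD) (D.inv_mem hδD)) hsD) _ hδD,
        hψ _ (D.mul_mem (D.inv_mem hsD) (D.inv_mem hδD)) _ hsD,
        hψ _ (D.inv_mem hsD) _ (D.inv_mem hδD)]
      have e1 := hψinv s hsD
      have e2 := hψinv δ hδD
      calc ψ s⁻¹ * ψ δ⁻¹ * ψ s * ψ δ = (ψ s⁻¹ * ψ s) * (ψ δ⁻¹ * ψ δ) := by ring
        _ = 1 := by rw [e1, e2, one_mul]
    have hγ0 := h0 _ hγI hγψ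
    have e : s * δ = δ * s * (s⁻¹ * δ⁻¹ * s * δ) := by group
    have h1 : h (s * δ) = h (δ * s) := by
      rw [e, hh _ (D.mul_mem hδD hsD) _ (hID hγI), hγ0, mul_zero, add_zero]
    rw [hh s hsD δ hδD, hh δ hδD s hsD] at h1
    rw [← mul_div_assoc, eq_div_iff hne]
    linear_combination (-1 : k) * h1
  refine ⟨h δ / (ψ δ - 1), fun σ hσ => ?_⟩
  -- the difference is a cocycle vanishing on `I`
  set x := h δ / (ψ δ - 1) with hx
  have hδD := hID hδ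
  have hs'I : σ⁻¹ * δ * σ ∈ I := hnorm σ hσ δ hδ
  have e : δ * σ = σ * (σ⁻¹ * δ * σ) := by group
  have h1 : h (δ * σ) = h (σ * (σ⁻¹ * δ * σ)) := by rw [← e]
  rw [hh δ hδD σ hσ, hh σ hσ _ (hID hs'I), hI δ hδ, hI _ hs'I] at h1
  have h2 : ψ (σ⁻¹ * δ * σ) = ψ δ := by
    rw [hψ _ (D.mul_mem (D.inv_mem hσ) hδD) _ hσ, hψ _ (D.inv_mem hσ) _ hδD]
    have e1 := hψinv σ hσ
    calc ψ σ⁻¹ * ψ δ * ψ σ = (ψ σ⁻¹ * ψ σ) * ψ δ := by ring
      _ = ψ δ := by rw [e1, one_mul]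
  rw [h2] at h1
  have h3 : (ψ δ - 1) * (h σ - (ψ σ - 1) * x) = 0 := by linear_combination h1
  have := (mul_eq_zero.mp h3).resolve_left hne
  exact sub_eq_zero.mp this

/-! ### the ordinary setting -/

/-- **the ordinary setting**: `I ⊴ D`, `rb|_D` stabilises `k u₀` and `D` acts on `W₀` through the
character `ψ` (`ψ ≠ 1` on `I`), `Dg` the diagonal matrix, `A₀` an additive character trivial on
`I`. -/
structure s56fo_Setting (rb : FramedResidual k) (D I : Subgroup GQ) (ψ : GQ → k)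
    (u₀ : Fin 2 → k) (Dg : Matrix (Fin 2) (Fin 2) k) (A₀ : GQ → k) : Prop where
  hu : u₀ ≠ 0
  hID : I ≤ D
  hnorm : ∀ σ ∈ D, ∀ s ∈ I, σ⁻¹ * s * σ ∈ I
  hψ : ∀ σ ∈ D, ∀ τ ∈ D, ψ (σ * τ) = ψ σ * ψ τ
  hψ1 : ψ 1 = 1
  hconj : ∀ σ ∈ D, ∀ N ∈ s56oa_W0 u₀, rb σ * N * rb σ⁻¹ = ψ σ • N
  hDtr : Dg.trace = 0
  hD1 : Dg *ᵥ u₀ = u₀
  hDW : ∀ σ ∈ D, s56o_d rb Dg σ ∈ s56oa_W0 u₀
  hA₀ : ∀ s ∈ I, A₀ s = 0
  hδ : ∃ δ ∈ I, ψ δ ≠ 1

variable {rb : FramedResidual k} {D I : Subgroup GQ} {ψ : GQ → k} {u₀ : Fin 2 → k}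
  {Dg : Matrix (Fin 2) (Fin 2) k} {A₀ : GQ → k}

/-- on `W₀` the coboundary is multiplication by `ψ - 1`. -/
theorem s56fo_d_gen (S : s56fo_Setting rb D I ψ u₀ Dg A₀) (x : k) {σ : GQ} (hσ : σ ∈ D) :
    s56o_d rb (x • s56oa_gen u₀) σ = ((ψ σ - 1) * x) • s56oa_gen u₀ := by
  unfold s56o_d
  rw [S.hconj σ hσ _ (Submodule.smul_mem _ _ (s56oa_gen_mem u₀)), smul_smul, ← sub_smul]
  congr 1
  ring

/-- **key**: a cocycle on `D` which, after the coboundary of `m`, has values in `W₀` on `D` and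
vanishes on `G_t = I ∩ ker ψ`, is a coboundary on `D`. -/
theorem s56fo_key (S : s56fo_Setting rb D I ψ u₀ Dg A₀)
    {c : GQ → Matrix (Fin 2) (Fin 2) k} {m : Matrix (Fin 2) (Fin 2) k}
    (hc : ∀ σ ∈ D, ∀ τ ∈ D, c (σ * τ) = c σ + rb σ * c τ * rb σ⁻¹)
    (hW : ∀ σ ∈ D, c σ - s56o_d rb m σ ∈ s56oa_W0 u₀)
    (h0 : ∀ s ∈ I, ψ s = 1 → c s - s56o_d rb m s = 0) :
    ∃ x : k, ∀ σ ∈ D, c σ - s56o_d rb m σ = s56o_d rb (x • s56oa_gen u₀) σ := by
  obtain ⟨φ, hφ⟩ := s56o_exists_coef S.hu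
  obtain ⟨δ, hδ, hδ1⟩ := S.hδ
  have hcoc : ∀ σ ∈ D, ∀ τ ∈ D, φ (c (σ * τ) - s56o_d rb m (σ * τ)) =
      φ (c σ - s56o_d rb m σ) + ψ σ * φ (c τ - s56o_d rb m τ) := by
    intro σ hσ τ hτ
    have e : c (σ * τ) - s56o_d rb m (σ * τ) =
        (c σ - s56o_d rb m σ) + ψ σ • (c τ - s56o_d rb m τ) := by
      rw [← S.hconj σ hσ _ (hW τ hτ), hc σ hσ τ hτ, s56o_d_mul, Matrix.mul_sub, Matrix.sub_mul]
      abel
    rw [e, map_add, map_smul, smul_eq_mul]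
  obtain ⟨x, hx⟩ := s56fo_descend D I S.hID S.hnorm ψ S.hψ S.hψ1
    (fun σ => φ (c σ - s56o_d rb m σ)) hcoc
    (fun s hs hs1 => by
      show φ (c s - s56o_d rb m s) = 0
      rw [h0 s hs hs1, map_zero]) δ hδ hδ1
  refine ⟨x, fun σ hσ => ?_⟩
  rw [s56fo_d_gen S x hσ, hφ _ (hW σ hσ), hx σ hσ]

/-- **the count in the ordinary case, arithmetic input on `G_t` only.** -/
theorem s56fo_count' (S : s56fo_Setting rb D I ψ u₀ Dg A₀)
    (F : Set (GQ → Matrix (Fin 2) (Fin 2) k))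
    (h0 : ∀ c ∈ F, ∀ σ ∈ D, ∀ τ ∈ D, c (σ * τ) = c σ + rb σ * c τ * rb σ⁻¹)
    (h1 : ∀ c ∈ F, s56fo_Shape rb D u₀ Dg A₀ c)
    (h2 : ∀ c ∈ insert (s56o_d rb Dg) F, ∀ c' ∈ insert (s56o_d rb Dg) F,
      ∀ (m m' : Matrix (Fin 2) (Fin 2) k) (a a' : k), m.trace = 0 → m'.trace = 0 →
      (∀ σ ∈ D, c σ - s56o_d rb m σ - (a * A₀ σ) • Dg ∈ s56oa_W0 u₀) →
      (∀ σ ∈ D, c' σ - s56o_d rb m' σ - (a' * A₀ σ) • Dg ∈ s56oa_W0 u₀) →
      ∃ b b' : k, (b ≠ 0 ∨ b' ≠ 0) ∧ ∀ s ∈ I, ψ s = 1 →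
        b • (c s - s56o_d rb m s) + b' • (c' s - s56o_d rb m' s) = 0) :
    FiniteDimensional k (↥(Submodule.span k F) ⧸
      (s56a_cobOn rb D).comap (Submodule.span k F).subtype) ∧
    finrank k (↥(Submodule.span k F) ⧸
      (s56a_cobOn rb D).comap (Submodule.span k F).subtype) ≤ finrank k (s56a_inv rb D) + 1 := by
  set C := Submodule.span k F with hC
  set g := s56oa_gen u₀ with hg
  have hu := S.hu
  have hgtr : g.trace = 0 := s56oa_W0_trace hu (s56oa_gen_mem u₀)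
  obtain ⟨φ, hφ⟩ := s56o_exists_coef hu
  -- on `G_t` the Borel shape has no diagonal part
  have hGt : ∀ (c : GQ → Matrix (Fin 2) (Fin 2) k) (m : Matrix (Fin 2) (Fin 2) k) (a : k),
      (∀ σ ∈ D, c σ - s56o_d rb m σ - (a * A₀ σ) • Dg ∈ s56oa_W0 u₀) →
      ∀ s ∈ I, c s - s56o_d rb m s ∈ s56oa_W0 u₀ := by
    intro c m a h s hs
    have := h s (S.hID hs)
    rwa [S.hA₀ s hs, mul_zero, zero_smul, sub_zero] at this
  -- the common direction on `G_t`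
  have hf₀ : ∃ f₀ : GQ → k, ∀ c ∈ insert (s56o_d rb Dg) F,
      ∀ (m : Matrix (Fin 2) (Fin 2) k) (a : k), m.trace = 0 →
      (∀ σ ∈ D, c σ - s56o_d rb m σ - (a * A₀ σ) • Dg ∈ s56oa_W0 u₀) →
      ∃ l : k, ∀ s ∈ I, ψ s = 1 → c s - s56o_d rb m s = (l * f₀ s) • g := by
    by_cases hall : ∀ c ∈ insert (s56o_d rb Dg) F,
        ∀ (m : Matrix (Fin 2) (Fin 2) k) (a : k), m.trace = 0 →
        (∀ σ ∈ D, c σ - s56o_d rb m σ - (a * A₀ σ) • Dg ∈ s56oa_W0 u₀) →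
        ∀ s ∈ I, ψ s = 1 → c s - s56o_d rb m s = 0
    · refine ⟨fun _ => 0, fun c hc m a hm h => ⟨0, fun s hs hs1 => ?_⟩⟩
      rw [hall c hc m a hm h s hs hs1, mul_zero, zero_smul]
    · push Not at hall
      obtain ⟨c₀, hc₀, m₀, a₀, hm₀, hv₀, s₀, hs₀, hs₀1, hne₀⟩ := hall
      refine ⟨fun s => φ (c₀ s - s56o_d rb m₀ s), fun c hc m a hm h => ?_⟩
      obtain ⟨b, b₀, hb, hrel⟩ := h2 c hc c₀ hc₀ m m₀ a a₀ hm hm₀ h hv₀
      have hbne : b ≠ 0 := by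
        intro hb0
        have hb₀ : b₀ ≠ 0 := by
          rcases hb with h' | h'
          · exact absurd hb0 h'
          · exact h'
        have := hrel s₀ hs₀ hs₀1
        rw [hb0, zero_smul, zero_add] at this
        exact hne₀ ((smul_eq_zero.mp this).resolve_left hb₀)
      refine ⟨-(b⁻¹ * b₀), fun s hs hs1 => ?_⟩
      have h3 := hrel s hs hs1
      have h4 : c s - s56o_d rb m s = (-(b⁻¹ * b₀)) • (c₀ s - s56o_d rb m₀ s) := by
        have h5 : b • (c s - s56o_d rb m s) = -(b₀ • (c₀ s - s56o_d rb m₀ s)) :=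
          eq_neg_of_add_eq_zero_left h3
        calc c s - s56o_d rb m s = (b⁻¹ * b) • (c s - s56o_d rb m s) := by
              rw [inv_mul_cancel₀ hbne, one_smul]
          _ = b⁻¹ • (b • (c s - s56o_d rb m s)) := mul_smul _ _ _
          _ = b⁻¹ • (-(b₀ • (c₀ s - s56o_d rb m₀ s))) := by rw [h5]
          _ = (-(b⁻¹ * b₀)) • (c₀ s - s56o_d rb m₀ s) := by rw [smul_neg, smul_smul, neg_smul]
      rw [h4, hφ _ (hGt c₀ m₀ a₀ hv₀ s hs), smul_smul]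
  obtain ⟨f₀, hf₀⟩ := hf₀
  -- the property carried by the span
  let PP : (GQ → Matrix (Fin 2) (Fin 2) k) → Prop := fun c =>
    (∀ σ ∈ D, ∀ τ ∈ D, c (σ * τ) = c σ + rb σ * c τ * rb σ⁻¹) ∧
    ∃ (m : Matrix (Fin 2) (Fin 2) k) (a l : k), m.trace = 0 ∧
      (∀ σ ∈ D, c σ - s56o_d rb m σ - (a * A₀ σ) • Dg ∈ s56oa_W0 u₀) ∧
      ∀ s ∈ I, ψ s = 1 → c s - s56o_d rb m s = (l * f₀ s) • g
  have hPPF : ∀ c ∈ insert (s56o_d rb Dg) F, PP c := by
    intro c hc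
    have hS : s56fo_Shape rb D u₀ Dg A₀ c := by
      rcases Set.mem_insert_iff.mp hc with rfl | hcF
      · refine ⟨0, 0, Matrix.trace_zero _ _, fun σ hσ => ?_⟩
        rw [s56fo_d_zero, zero_mul, zero_smul, sub_zero, sub_zero]
        exact S.hDW σ hσ
      · exact h1 c hcF
    have hcoc : ∀ σ ∈ D, ∀ τ ∈ D, c (σ * τ) = c σ + rb σ * c τ * rb σ⁻¹ := by
      rcases Set.mem_insert_iff.mp hc with rfl | hcF
      · exact fun σ _ τ _ => s56o_d_mul rb Dg σ τ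
      · exact h0 c hcF
    obtain ⟨m, a, hm, h⟩ := hS
    obtain ⟨l, hl⟩ := hf₀ c hc m a hm h
    exact ⟨hcoc, m, a, l, hm, h, hl⟩
  have hPP : ∀ c ∈ Submodule.span k (insert (s56o_d rb Dg) F), PP c := by
    intro c hc
    induction hc using Submodule.span_induction with
    | mem c hc => exact hPPF c hc
    | zero =>
      refine ⟨fun σ _ τ _ => by simp, 0, 0, 0, Matrix.trace_zero _ _, fun σ _ => ?_,
        fun s _ _ => ?_⟩
      · rw [Pi.zero_apply, s56fo_d_zero, zero_mul, zero_smul, sub_zero, sub_zero]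
        exact Submodule.zero_mem _
      · rw [Pi.zero_apply, s56fo_d_zero, sub_zero, zero_mul, zero_smul]
    | add c c' _ _ ih ih' =>
      obtain ⟨hc, m, a, l, hm, h, hl⟩ := ih
      obtain ⟨hc', m', a', l', hm', h', hl'⟩ := ih'
      refine ⟨fun σ hσ τ hτ => ?_, m + m', a + a', l + l',
        by rw [Matrix.trace_add, hm, hm', add_zero], fun σ hσ => ?_, fun s hs hs1 => ?_⟩
      · simp only [Pi.add_apply]
        rw [hc σ hσ τ hτ, hc' σ hσ τ hτ, Matrix.mul_add, Matrix.add_mul]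
        abel
      · have e : (c + c') σ - s56o_d rb (m + m') σ - ((a + a') * A₀ σ) • Dg =
            (c σ - s56o_d rb m σ - (a * A₀ σ) • Dg) +
              (c' σ - s56o_d rb m' σ - (a' * A₀ σ) • Dg) := by
          rw [Pi.add_apply, s56o_d_add, add_mul, add_smul]
          abel
        rw [e]
        exact Submodule.add_mem _ (h σ hσ) (h' σ hσ)
      · have e : (c + c') s - s56o_d rb (m + m') s =
            (c s - s56o_d rb m s) + (c' s - s56o_d rb m' s) := by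
          rw [Pi.add_apply, s56o_d_add]
          abel
        rw [e, hl s hs hs1, hl' s hs hs1, ← add_smul, add_mul]
    | smul b c _ ih =>
      obtain ⟨hc, m, a, l, hm, h, hl⟩ := ih
      refine ⟨fun σ hσ τ hτ => ?_, b • m, b * a, b * l,
        by rw [Matrix.trace_smul, hm, smul_zero], fun σ hσ => ?_, fun s hs hs1 => ?_⟩
      · simp only [Pi.smul_apply]
        rw [hc σ hσ τ hτ, smul_add, Matrix.mul_smul, Matrix.smul_mul]
      · have e : (b • c) σ - s56o_d rb (b • m) σ - (b * a * A₀ σ) • Dg =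
            b • (c σ - s56o_d rb m σ - (a * A₀ σ) • Dg) := by
          rw [Pi.smul_apply, s56o_d_smul, smul_sub, smul_sub, smul_smul, mul_assoc]
        rw [e]
        exact Submodule.smul_mem _ _ (h σ hσ)
      · have e : (b • c) s - s56o_d rb (b • m) s = b • (c s - s56o_d rb m s) := by
          rw [Pi.smul_apply, s56o_d_smul, smul_sub]
        rw [e, hl s hs hs1, smul_smul, mul_assoc]
  have hCle : C ≤ Submodule.span k (insert (s56o_d rb Dg) F) :=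
    Submodule.span_mono (Set.subset_insert _ _)
  have hDgmem : s56o_d rb Dg ∈ Submodule.span k (insert (s56o_d rb Dg) F) :=
    Submodule.subset_span (Set.mem_insert _ _)
  -- a datum `(m, 0, 0)` gives a coboundary
  have hkey : ∀ c : GQ → Matrix (Fin 2) (Fin 2) k,
      (∀ σ ∈ D, ∀ τ ∈ D, c (σ * τ) = c σ + rb σ * c τ * rb σ⁻¹) →
      ∀ m : Matrix (Fin 2) (Fin 2) k, m.trace = 0 →
      (∀ σ ∈ D, c σ - s56o_d rb m σ ∈ s56oa_W0 u₀) →
      (∀ s ∈ I, ψ s = 1 → c s - s56o_d rb m s = 0) → c ∈ s56a_cobOn rb D := by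
    intro c hc m hm hW h0'
    obtain ⟨x, hx⟩ := s56fo_key S hc hW h0'
    refine ⟨m + x • g, by rw [Matrix.trace_add, hm, Matrix.trace_smul, hgtr, smul_zero,
      add_zero], fun σ hσ => ?_⟩
    have := hx σ hσ
    rw [sub_eq_iff_eq_add] at this
    rw [this, ← s56o_d_add, add_comm]
    rfl
  -- the subspace of the span carrying PP data
  let T := Submodule.span k (insert (s56o_d rb Dg) F)
  -- an element with non-zero diagonal part
  have hc₁ : ∃ c₁ ∈ C, ∀ c ∈ C, ∃ b : k, ∃ (m : Matrix (Fin 2) (Fin 2) k) (l : k), m.trace = 0 ∧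
      (∀ σ ∈ D, (c - b • c₁) σ - s56o_d rb m σ ∈ s56oa_W0 u₀) ∧
      ∀ s ∈ I, ψ s = 1 → (c - b • c₁) s - s56o_d rb m s = (l * f₀ s) • g := by
    by_cases hex : ∃ c₁ ∈ C, ∃ (m₁ : Matrix (Fin 2) (Fin 2) k) (a₁ l₁ : k), a₁ ≠ 0 ∧
        m₁.trace = 0 ∧ (∀ σ ∈ D, c₁ σ - s56o_d rb m₁ σ - (a₁ * A₀ σ) • Dg ∈ s56oa_W0 u₀) ∧
        ∀ s ∈ I, ψ s = 1 → c₁ s - s56o_d rb m₁ s = (l₁ * f₀ s) • g
    · obtain ⟨c₁, hc₁C, m₁, a₁, l₁, ha₁, hm₁, h₁, hl₁⟩ := hex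
      refine ⟨c₁, hc₁C, fun c hc => ?_⟩
      obtain ⟨-, m, a, l, hm, h, hl⟩ := hPP c (hCle hc)
      refine ⟨a * a₁⁻¹, m - (a * a₁⁻¹) • m₁, l - a * a₁⁻¹ * l₁, by
        rw [Matrix.trace_sub, Matrix.trace_smul, hm, hm₁, smul_zero, sub_zero],
        fun σ hσ => ?_, fun s hs hs1 => ?_⟩
      · have e : (c - (a * a₁⁻¹) • c₁) σ - s56o_d rb (m - (a * a₁⁻¹) • m₁) σ =
            (c σ - s56o_d rb m σ - (a * A₀ σ) • Dg) -
              (a * a₁⁻¹) • (c₁ σ - s56o_d rb m₁ σ - (a₁ * A₀ σ) • Dg) := by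
          rw [Pi.sub_apply, Pi.smul_apply, s56fo_d_sub, s56o_d_smul, smul_sub, smul_sub,
            smul_smul]
          have : a * a₁⁻¹ * (a₁ * A₀ σ) = a * A₀ σ := by
            field_simp
          rw [this]
          abel
        rw [e]
        exact Submodule.sub_mem _ (h σ hσ) (Submodule.smul_mem _ _ (h₁ σ hσ))
      · have e : (c - (a * a₁⁻¹) • c₁) s - s56o_d rb (m - (a * a₁⁻¹) • m₁) s =
            (c s - s56o_d rb m s) - (a * a₁⁻¹) • (c₁ s - s56o_d rb m₁ s) := by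
          rw [Pi.sub_apply, Pi.smul_apply, s56fo_d_sub, s56o_d_smul, smul_sub]
          abel
        rw [e, hl s hs hs1, hl₁ s hs hs1, smul_smul, ← sub_smul]
        congr 1
        ring
    · refine ⟨0, Submodule.zero_mem _, fun c hc => ⟨0, ?_⟩⟩
      obtain ⟨-, m, a, l, hm, h, hl⟩ := hPP c (hCle hc)
      have ha : a = 0 := by
        by_contra ha
        exact hex ⟨c, hc, m, a, l, ha, hm, h, hl⟩
      refine ⟨m, l, hm, fun σ hσ => ?_, fun s hs hs1 => ?_⟩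
      · have := h σ hσ
        rwa [ha, zero_mul, zero_smul, sub_zero, ← sub_zero c,
          ← zero_smul k (0 : GQ → Matrix (Fin 2) (Fin 2) k)] at this
      · rw [zero_smul, sub_zero]
        exact hl s hs hs1
  obtain ⟨c₁, hc₁C, hc₁⟩ := hc₁
  -- an element with zero diagonal part and non-zero `G_t`-part
  have hc₂ : ∃ c₂ ∈ C, (∃ (m₂ : Matrix (Fin 2) (Fin 2) k) (l₂ : k), m₂.trace = 0 ∧
      (∀ σ ∈ D, c₂ σ - s56o_d rb m₂ σ ∈ s56oa_W0 u₀) ∧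
      (∀ s ∈ I, ψ s = 1 → c₂ s - s56o_d rb m₂ s = (l₂ * f₀ s) • g) ∧
      (c₂ ∉ s56a_cobOn rb D → l₂ ≠ 0)) ∧
      ∀ c ∈ C, ∀ (m : Matrix (Fin 2) (Fin 2) k) (l : k), m.trace = 0 →
        (∀ σ ∈ D, c σ - s56o_d rb m σ ∈ s56oa_W0 u₀) →
        (∀ s ∈ I, ψ s = 1 → c s - s56o_d rb m s = (l * f₀ s) • g) →
        ∃ b : k, c - b • c₂ ∈ s56a_cobOn rb D := by
    by_cases hex : ∃ c₂ ∈ C, ∃ (m₂ : Matrix (Fin 2) (Fin 2) k) (l₂ : k), l₂ ≠ 0 ∧ m₂.trace = 0 ∧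
        (∀ σ ∈ D, c₂ σ - s56o_d rb m₂ σ ∈ s56oa_W0 u₀) ∧
        ∀ s ∈ I, ψ s = 1 → c₂ s - s56o_d rb m₂ s = (l₂ * f₀ s) • g
    · obtain ⟨c₂, hc₂C, m₂, l₂, hl₂, hm₂, h₂, hl₂'⟩ := hex
      refine ⟨c₂, hc₂C, ⟨m₂, l₂, hm₂, h₂, hl₂', fun _ => hl₂⟩, fun c hc m l hm h hl => ?_⟩
      refine ⟨l * l₂⁻¹, ?_⟩
      have hcoc : ∀ σ ∈ D, ∀ τ ∈ D, (c - (l * l₂⁻¹) • c₂) (σ * τ) =
          (c - (l * l₂⁻¹) • c₂) σ + rb σ * (c - (l * l₂⁻¹) • c₂) τ * rb σ⁻¹ :=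
        (hPP _ (Submodule.sub_mem _ (hCle hc) (Submodule.smul_mem _ _ (hCle hc₂C)))).1
      refine hkey _ hcoc (m - (l * l₂⁻¹) • m₂) (by
        rw [Matrix.trace_sub, Matrix.trace_smul, hm, hm₂, smul_zero, sub_zero])
        (fun σ hσ => ?_) (fun s hs hs1 => ?_)
      · have e : (c - (l * l₂⁻¹) • c₂) σ - s56o_d rb (m - (l * l₂⁻¹) • m₂) σ =
            (c σ - s56o_d rb m σ) - (l * l₂⁻¹) • (c₂ σ - s56o_d rb m₂ σ) := by
          rw [Pi.sub_apply, Pi.smul_apply, s56fo_d_sub, s56o_d_smul, smul_sub]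
          abel
        rw [e]
        exact Submodule.sub_mem _ (h σ hσ) (Submodule.smul_mem _ _ (h₂ σ hσ))
      · have e : (c - (l * l₂⁻¹) • c₂) s - s56o_d rb (m - (l * l₂⁻¹) • m₂) s =
            (c s - s56o_d rb m s) - (l * l₂⁻¹) • (c₂ s - s56o_d rb m₂ s) := by
          rw [Pi.sub_apply, Pi.smul_apply, s56fo_d_sub, s56o_d_smul, smul_sub]
          abel
        rw [e, hl s hs hs1, hl₂' s hs hs1, smul_smul, ← sub_smul]
        have : l * f₀ s - l * l₂⁻¹ * (l₂ * f₀ s) = 0 := by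
          field_simp
          ring
        rw [this, zero_smul]
    · have hzero : ∀ c ∈ C, ∀ (m : Matrix (Fin 2) (Fin 2) k) (l : k), m.trace = 0 →
          (∀ σ ∈ D, c σ - s56o_d rb m σ ∈ s56oa_W0 u₀) →
          (∀ s ∈ I, ψ s = 1 → c s - s56o_d rb m s = (l * f₀ s) • g) →
          c ∈ s56a_cobOn rb D := by
        intro c hc m l hm h hl
        have hl0 : l = 0 := by
          by_contra hl0
          exact hex ⟨c, hc, m, l, hl0, hm, h, hl⟩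
        refine hkey c (hPP c (hCle hc)).1 m hm h fun s hs hs1 => ?_
        rw [hl s hs hs1, hl0, zero_mul, zero_smul]
      refine ⟨0, Submodule.zero_mem _, ⟨0, 0, Matrix.trace_zero _ _, fun σ _ => ?_,
        fun s _ _ => ?_, fun hn => absurd (Submodule.zero_mem _) hn⟩, fun c hc m l hm h hl => ?_⟩
      · rw [Pi.zero_apply, s56fo_d_zero, sub_zero]
        exact Submodule.zero_mem _
      · rw [Pi.zero_apply, s56fo_d_zero, sub_zero, zero_mul, zero_smul]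
      · exact ⟨0, by rw [zero_smul, sub_zero]; exact hzero c hc m l hm h hl⟩
  obtain ⟨c₂, hc₂C, ⟨m₂, l₂, hm₂, h₂, hl₂, hl₂ne⟩, hc₂⟩ := hc₂
  -- spanning
  have hsp : ∀ c : ↥C, ∃ a₁ a₂ : k,
      c - (a₁ • (⟨c₁, hc₁C⟩ : ↥C) + a₂ • (⟨c₂, hc₂C⟩ : ↥C)) ∈
        (s56a_cobOn rb D).comap C.subtype := by
    rintro ⟨c, hc⟩
    obtain ⟨b₁, m, l, hm, h, hl⟩ := hc₁ c hc
    obtain ⟨b₂, hb₂⟩ := hc₂ (c - b₁ • c₁)
      (Submodule.sub_mem _ hc (Submodule.smul_mem _ _ hc₁C)) m l hm h hl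
    refine ⟨b₁, b₂, ?_⟩
    rw [Submodule.mem_comap]
    have e : C.subtype (⟨c, hc⟩ - (b₁ • (⟨c₁, hc₁C⟩ : ↥C) + b₂ • (⟨c₂, hc₂C⟩ : ↥C))) =
        c - b₁ • c₁ - b₂ • c₂ := by
      show c - (b₁ • c₁ + b₂ • c₂) = _
      abel
    rw [e]
    exact hb₂
  obtain ⟨hfin, hle2, hle1⟩ := s56o_count_abs _ (⟨c₁, hc₁C⟩ : ↥C) (⟨c₂, hc₂C⟩ : ↥C) hsp
  refine ⟨hfin, ?_⟩
  -- the trade
  obtain ⟨lD, hlD⟩ := hf₀ (s56o_d rb Dg) (Set.mem_insert _ _) 0 0 (Matrix.trace_zero _ _)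
    (fun σ hσ => by
      rw [s56fo_d_zero, zero_mul, zero_smul, sub_zero, sub_zero]
      exact S.hDW σ hσ)
  simp only [s56fo_d_zero, sub_zero] at hlD
  by_cases hc₂cob : c₂ ∈ s56a_cobOn rb D
  · have h1' := hle1 0 1 (Or.inr one_ne_zero) (by
      rw [Submodule.mem_comap]
      have e : C.subtype ((0 : k) • (⟨c₁, hc₁C⟩ : ↥C) + (1 : k) • (⟨c₂, hc₂C⟩ : ↥C)) = c₂ := by
        show (0 : k) • c₁ + (1 : k) • c₂ = c₂
        rw [zero_smul, one_smul, zero_add]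
      rw [e]
      exact hc₂cob)
    omega
  · have hl₂0 := hl₂ne hc₂cob
    have hDgcob : s56o_d rb Dg ∈ s56a_cobOn rb D := ⟨Dg, S.hDtr, fun σ _ => rfl⟩
    by_cases hlD0 : lD = 0
    · -- `Dg - x g` is a non-zero invariant
      obtain ⟨x, hx⟩ := s56fo_key S (c := s56o_d rb Dg) (m := 0)
        (fun σ _ τ _ => s56o_d_mul rb Dg σ τ)
        (fun σ hσ => by rw [s56fo_d_zero, sub_zero]; exact S.hDW σ hσ)
        (fun s hs hs1 => by rw [s56fo_d_zero, sub_zero, hlD s hs hs1, hlD0, zero_mul, zero_smul])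
      have hinv : Dg - x • g ∈ s56a_inv rb D := by
        rw [s56a_mem_inv]
        refine ⟨by rw [Matrix.trace_sub, Matrix.trace_smul, S.hDtr, hgtr]; simp,
          fun σ hσ => ?_⟩
        have h3 := hx σ hσ
        rw [s56fo_d_zero, sub_zero, ← sub_eq_zero, ← s56fo_d_sub] at h3
        have h4 : rb σ * (Dg - x • g) * rb σ⁻¹ = Dg - x • g := by
          unfold s56o_d at h3
          exact sub_eq_zero.mp h3
        calc rb σ * (Dg - x • g)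
            = rb σ * (Dg - x • g) * (rb σ⁻¹ * rb σ) := by
              rw [s56o_rb_inv_mul, Matrix.mul_one]
          _ = (rb σ * (Dg - x • g) * rb σ⁻¹) * rb σ := by
              rw [Matrix.mul_assoc, Matrix.mul_assoc, Matrix.mul_assoc]
          _ = (Dg - x • g) * rb σ := by rw [h4]
      have hne0 : (⟨Dg - x • g, hinv⟩ : ↥(s56a_inv rb D)) ≠ 0 := by
        intro h0'
        have h5 : Dg - x • g = 0 := congrArg Subtype.val h0'
        have h6 : (Dg - x • g) *ᵥ u₀ = u₀ := by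
          rw [Matrix.sub_mulVec, S.hD1, Matrix.smul_mulVec, (s56oa_gen_mem u₀).1, smul_zero,
            sub_zero]
        rw [h5, Matrix.zero_mulVec] at h6
        exact hu h6.symm
      have hpos : 0 < finrank k ↥(s56a_inv rb D) :=
        Module.finrank_pos_iff_exists_ne_zero.2 ⟨_, hne0⟩
      omega
    · -- `c₂` is a multiple of `∂Dg` modulo coboundaries: contradiction
      exfalso
      apply hc₂cob
      have hmem : c₂ - (l₂ * lD⁻¹) • s56o_d rb Dg ∈ s56a_cobOn rb D := by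
        have hcoc := (hPP _ (Submodule.sub_mem _ (hCle hc₂C)
          (Submodule.smul_mem _ (l₂ * lD⁻¹) hDgmem))).1
        refine hkey _ hcoc m₂ hm₂ (fun σ hσ => ?_) (fun s hs hs1 => ?_)
        · have e : (c₂ - (l₂ * lD⁻¹) • s56o_d rb Dg) σ - s56o_d rb m₂ σ =
              (c₂ σ - s56o_d rb m₂ σ) - (l₂ * lD⁻¹) • s56o_d rb Dg σ := by
            rw [Pi.sub_apply, Pi.smul_apply]
            abel
          rw [e]
          exact Submodule.sub_mem _ (h₂ σ hσ) (Submodule.smul_mem _ _ (S.hDW σ hσ))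
        · have e : (c₂ - (l₂ * lD⁻¹) • s56o_d rb Dg) s - s56o_d rb m₂ s =
              (c₂ s - s56o_d rb m₂ s) - (l₂ * lD⁻¹) • s56o_d rb Dg s := by
            rw [Pi.sub_apply, Pi.smul_apply]
            abel
          rw [e, hl₂ s hs hs1, hlD s hs hs1, smul_smul, ← sub_smul]
          have : l₂ * f₀ s - l₂ * lD⁻¹ * (lD * f₀ s) = 0 := by
            field_simp
            ring
          rw [this, zero_smul]
      have := Submodule.add_mem _ hmem (Submodule.smul_mem _ (l₂ * lD⁻¹) hDgcob)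
      rwa [sub_add_cancel] at this

end

end Fermat.Agent.S56
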