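/-
Project S56, node [LOC-p-FLAT], cell F-ORD (ordinary case; owner helper1).  Prefix `s56fo_`.
THE FROBENIUS DATA AT A PLACE `P | p` IN THE SHAPE OF THE SEAM `s56fo_LangDep_stmt`:
`Φ := φ` as a ring automorphism of `Q̄`, `c :=` conjugation by `φ` on the inertia group.
-/
import Mathlib
import Fermat.Agent.S56.Flat.Ord.Conc
import Fermat.Agent.S56.LocD.FrobGen
import Fermat.Agent.JT3.ES.FrobExists

set_option autoImplicit false
set_option linter.unusedSectionVars false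
set_option linter.style.haveILetI false

noncomputable section

namespace Fermat.Agent.S56

open Fermat.Agent.MZ Fermat.Agent.FF Fermat.Agent.S53 ExtCitation
open scoped Pointwise

/-- conjugation by an element of the decomposition group, on the inertia group. -/
def s56fo_conjEquiv (P : ValuationSubring ff_Qb) {φ : GQ} (hφ : φ ∈ P.decompositionSubgroup ℚ) :
    ↥(P.inertiaSubgroupIn ℚ) ≃* ↥(P.inertiaSubgroupIn ℚ) where
  toFun s := ⟨φ * s * φ⁻¹, s56fo_inertia_conj P hφ s.2⟩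
  invFun s := ⟨φ⁻¹ * s * φ, by
    have := s56fo_inertia_conj P ((P.decompositionSubgroup ℚ).inv_mem hφ) s.2
    rwa [inv_inv] at this⟩
  left_inv s := by
    apply Subtype.ext
    show φ⁻¹ * (φ * (s : GQ) * φ⁻¹) * φ = s
    group
  right_inv s := by
    apply Subtype.ext
    show φ * (φ⁻¹ * (s : GQ) * φ) * φ⁻¹ = s
    group
  map_mul' s t := by
    apply Subtype.ext
    show φ * ((s : GQ) * (t : GQ)) * φ⁻¹ = (φ * s * φ⁻¹) * (φ * t * φ⁻¹)
    group

theorem s56fo_conjEquiv_coe (P : ValuationSubring ff_Qb) {φ : GQ}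
    (hφ : φ ∈ P.decompositionSubgroup ℚ) (s : ↥(P.inertiaSubgroupIn ℚ)) :
    ((s56fo_conjEquiv P hφ s : ↥(P.inertiaSubgroupIn ℚ)) : GQ) = φ * s * φ⁻¹ := rfl

/-- **the Frobenius data** at `P | p`. -/
theorem s56fo_frob (p : ℕ) [Fact p.Prime] (P : ValuationSubring ff_Qb) (hP : P.LiesOverPrime p) :
    ∃ (φ : GQ) (hφ : φ ∈ P.decompositionSubgroup ℚ), P.IsFrobeniusAt φ p ∧
      (∀ y : ff_Qb, y ∈ P ↔ (φ : ff_Qb ≃+* ff_Qb) y ∈ P) ∧
      (∀ y : ff_Qb, y ∈ P → (φ : ff_Qb ≃+* ff_Qb) y - y ^ p ∈ P.nonunits) ∧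
      (∀ (σ : ↥(P.inertiaSubgroupIn ℚ)) (y : ff_Qb),
        (φ : ff_Qb ≃+* ff_Qb) (σ • y) = s56fo_conjEquiv P hφ σ • (φ : ff_Qb ≃+* ff_Qb) y) := by
  obtain ⟨φ, hF⟩ := Fermat.Agent.JT3.fex_exists_isFrobeniusAt (Fact.out : p.Prime) P hP
  obtain ⟨hφP, hφp⟩ := mzf3_tfa_unfold P hF
  have hφ : φ ∈ P.decompositionSubgroup ℚ := MulAction.mem_stabilizer_iff.2 hφP
  refine ⟨φ, hφ, hF, fun y => ?_, fun y hy => hφp y hy, fun σ y => ?_⟩
  · show y ∈ P ↔ φ y ∈ P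
    constructor
    · intro hy
      rw [← hφP]
      exact ⟨y, hy, rfl⟩
    · intro hy
      rw [← hφP] at hy
      obtain ⟨y', hy', h⟩ := hy
      have : y' = y := φ.injective h
      rwa [← this]
  · show φ ((σ : GQ) y) = (φ * (σ : GQ) * φ⁻¹) (φ y)
    rw [AlgEquiv.mul_apply, AlgEquiv.mul_apply]
    congr 2
    show y = φ⁻¹ (φ y)
    rw [← AlgEquiv.mul_apply, inv_mul_cancel, AlgEquiv.one_apply]

end Fermat.Agent.S56
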