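/-
Project S56, node [LOC-p-FLAT], cell F-ORD (ordinary case; owner helper1).  Prefix `s56fo_`.
LINEAR ALGEBRA OVER `k` FOR THE ORDINARY CASE: the basis `(u₀, u₁)` (`det (u₁, u₀) = 1`), the
coefficient on `W₀ = k g`, the character `ψ` by which the Borel acts on `W₀`, the coboundaries of
the diagonal matrix and of `g`.
-/
import Mathlib
import Fermat.Agent.S56.Flat.Ord.Conc

set_option autoImplicit false
set_option linter.unusedSectionVars false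
set_option linter.style.haveILetI false

noncomputable section

namespace Fermat.Agent.S56

open Fermat.Agent.S53 Matrix ExtCitation

variable {k : Type} [Field k]

/-! ### coordinates in the basis `(u₀, u₁)` -/

theorem s56fo_detw_smul_right (u w : Fin 2 → k) (t : k) :
    s56fo_detw u (t • w) = t * s56fo_detw u w := by
  rw [s56fo_detw_apply, s56fo_detw_apply]
  simp only [Pi.smul_apply, smul_eq_mul]
  ring

theorem s56fo_co_smul_right (u₁ w : Fin 2 → k) (t : k) :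
    s56fo_co u₁ (t • w) = t * s56fo_co u₁ w := by
  rw [s56fo_co_apply, s56fo_co_apply, s56fo_detw_smul_right]
  ring

theorem s56fo_co_self (u₁ : Fin 2 → k) : s56fo_co u₁ u₁ = 0 := by
  rw [s56fo_co_apply, s56fo_detw_self, neg_zero]

theorem s56fo_co_u0 {u₀ u₁ : Fin 2 → k} (hu01 : s56fo_detw u₀ u₁ = 1) : s56fo_co u₁ u₀ = 1 := by
  have := s56fo_co_smul hu01 (1 : k)
  rwa [one_smul] at this

/-- `v = (coefficient of u₀) u₀ + (coefficient of u₁) u₁`. -/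
theorem s56fo_decomp {u₀ u₁ : Fin 2 → k} (hu01 : s56fo_detw u₀ u₁ = 1) (v : Fin 2 → k) :
    v = s56fo_co u₁ v • u₀ + s56fo_detw u₀ v • u₁ := by
  rw [s56fo_detw_apply] at hu01
  funext i
  simp only [Pi.add_apply, Pi.smul_apply, smul_eq_mul, s56fo_co_apply, s56fo_detw_apply]
  fin_cases i
  · show v 0 = -(v 0 * u₁ 1 - v 1 * u₁ 0) * u₀ 0 + (v 0 * u₀ 1 - v 1 * u₀ 0) * u₁ 0
    linear_combination (-(v 0)) * hu01
  · show v 1 = -(v 0 * u₁ 1 - v 1 * u₁ 0) * u₀ 1 + (v 0 * u₀ 1 - v 1 * u₀ 0) * u₁ 1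
    linear_combination (-(v 1)) * hu01

theorem s56fo_gen_u1 {u₀ u₁ : Fin 2 → k} (hu01 : s56fo_detw u₀ u₁ = 1) :
    s56oa_gen u₀ *ᵥ u₁ = u₀ := by
  rw [s56oa_gen_mulVec, ← s56fo_detw_apply, hu01, one_smul]

/-- the coefficient of an element of `W₀` along the generator. -/
theorem s56fo_W0_coef {u₀ u₁ : Fin 2 → k} (hu01 : s56fo_detw u₀ u₁ = 1)
    {N : Matrix (Fin 2) (Fin 2) k} (hN : N ∈ s56oa_W0 u₀) :
    N = s56fo_co u₁ (N *ᵥ u₁) • s56oa_gen u₀ := by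
  have hu := s56fo_u0_ne hu01
  have h := hN
  rw [s56oa_W0_eq_span hu, Submodule.mem_span_singleton] at h
  obtain ⟨t, rfl⟩ := h
  rw [Matrix.smul_mulVec, s56fo_gen_u1 hu01, s56fo_co_smul hu01]

/-- an element of `W₀` with zero coefficient is zero. -/
theorem s56fo_W0_mulVec {u₀ u₁ : Fin 2 → k} (hu01 : s56fo_detw u₀ u₁ = 1)
    {N : Matrix (Fin 2) (Fin 2) k} (hN : N ∈ s56oa_W0 u₀) :
    N *ᵥ u₁ = s56fo_co u₁ (N *ᵥ u₁) • u₀ := by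
  conv_lhs => rw [s56fo_W0_coef hu01 hN]
  rw [Matrix.smul_mulVec, s56fo_gen_u1 hu01]

/-! ### the Borel -/

/-- a matrix stabilising `k u₀` acts on the quotient through a scalar `z`, `det = x z`. -/
theorem s56fo_borel {u₀ u₁ : Fin 2 → k} (hu01 : s56fo_detw u₀ u₁ = 1)
    (B : Matrix (Fin 2) (Fin 2) k) {x : k} (hx : B *ᵥ u₀ = x • u₀) :
    ∃ z : k, B.det = x * z ∧ ∀ v : Fin 2 → k, ∃ t : k, B *ᵥ v - z • v = t • u₀ := by
  set z := s56fo_detw u₀ (B *ᵥ u₁) with hz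
  set b := s56fo_co u₁ (B *ᵥ u₁) with hb
  have h1 : B *ᵥ u₁ = b • u₀ + z • u₁ := s56fo_decomp hu01 _
  refine ⟨z, ?_, fun v => ?_⟩
  · have h2 := s56fo_detw_mulVec B u₀ u₁
    rw [hu01, mul_one, hx] at h2
    rw [← h2, hz]
    rw [s56fo_detw_apply, s56fo_detw_apply]
    simp only [Pi.smul_apply, smul_eq_mul]
    ring
  · refine ⟨s56fo_co u₁ v * (x - z) + s56fo_detw u₀ v * b, ?_⟩
    conv_lhs => rw [s56fo_decomp hu01 v]
    rw [Matrix.mulVec_add, Matrix.mulVec_smul, Matrix.mulVec_smul, hx, h1]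
    simp only [smul_add, smul_smul, add_smul, mul_sub, sub_smul]
    rw [mul_comm z (s56fo_co u₁ v), mul_comm z (s56fo_detw u₀ v)]
    abel

/-- the line `k u₀` is stable under the normaliser of the inertia. -/
theorem s56fo_stable_line {rb : FramedResidual k} {D I : Subgroup GQ}
    (hnorm : ∀ σ ∈ D, ∀ s ∈ I, σ * s * σ⁻¹ ∈ I) {u₀ : Fin 2 → k}
    (hord : ∀ s ∈ I, ∀ v : Fin 2 → k, ∃ t : k, rb s *ᵥ v - v = t • u₀)
    {s₀ : GQ} (hs₀ : s₀ ∈ I) {x₀ : k} (hx₀ : rb s₀ *ᵥ u₀ = x₀ • u₀) (hx₀1 : x₀ ≠ 1)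
    {σ : GQ} (hσ : σ ∈ D) : ∃ x : k, rb σ *ᵥ u₀ = x • u₀ := by
  have hne : x₀ - 1 ≠ 0 := sub_ne_zero.mpr hx₀1
  obtain ⟨t, ht⟩ := hord _ (hnorm σ hσ s₀ hs₀) (rb σ *ᵥ u₀)
  have h1 : rb (σ * s₀ * σ⁻¹) *ᵥ (rb σ *ᵥ u₀) = x₀ • (rb σ *ᵥ u₀) := by
    rw [Matrix.mulVec_mulVec, ← rb.map_mul, inv_mul_cancel_right, rb.map_mul,
      ← Matrix.mulVec_mulVec, hx₀, Matrix.mulVec_smul]
  rw [h1] at ht
  have ht' : (x₀ - 1) • (rb σ *ᵥ u₀) = t • u₀ := by rw [sub_smul, one_smul]; exact ht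
  refine ⟨(x₀ - 1)⁻¹ * t, ?_⟩
  rw [← smul_smul, ← ht', smul_smul, inv_mul_cancel₀ hne, one_smul]

/-! ### the character `ψ` -/

/-- the character by which the Borel acts on `W₀` (coefficient of `r̄ σ g r̄ σ⁻¹`). -/
def s56fo_psi (rb : FramedResidual k) (u₀ u₁ : Fin 2 → k) (σ : GQ) : k :=
  s56fo_co u₁ ((rb σ * s56oa_gen u₀ * rb σ⁻¹) *ᵥ u₁)

theorem s56fo_psi_spec {rb : FramedResidual k} {u₀ u₁ : Fin 2 → k}
    (hu01 : s56fo_detw u₀ u₁ = 1) {σ : GQ} {x : k} (hx : rb σ *ᵥ u₀ = x • u₀)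
    {N : Matrix (Fin 2) (Fin 2) k} (hN : N ∈ s56oa_W0 u₀) :
    rb σ * N * rb σ⁻¹ = s56fo_psi rb u₀ u₁ σ • N := by
  obtain ⟨z, hdet, hz⟩ := s56fo_borel hu01 (rb σ) hx
  have hdet0 : (rb σ).det ≠ 0 := by
    have h1 := congrArg Matrix.det (s56o_rb_mul_inv rb σ)
    rw [Matrix.det_mul, Matrix.det_one] at h1
    exact left_ne_zero_of_mul_eq_one h1
  have hz0 : z ≠ 0 := by
    rintro rfl
    rw [mul_zero] at hdet
    exact hdet0 hdet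
  have hconj : ∀ N' ∈ s56oa_W0 u₀, rb σ * N' * rb σ⁻¹ = (x * z⁻¹) • N' := fun N' hN' =>
    s56oa_W0_conj (s56o_rb_mul_inv rb σ) hz0 hx hz hN'
  have hψ : s56fo_psi rb u₀ u₁ σ = x * z⁻¹ := by
    unfold s56fo_psi
    rw [hconj _ (s56oa_gen_mem u₀), Matrix.smul_mulVec, s56fo_gen_u1 hu01, s56fo_co_smul hu01]
  rw [hψ]
  exact hconj N hN

theorem s56fo_psi_one (rb : FramedResidual k) {u₀ u₁ : Fin 2 → k}
    (hu01 : s56fo_detw u₀ u₁ = 1) : s56fo_psi rb u₀ u₁ 1 = 1 := by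
  unfold s56fo_psi
  rw [inv_one, rb.map_one, Matrix.one_mul, Matrix.mul_one, s56fo_gen_u1 hu01, s56fo_co_u0 hu01]

theorem s56fo_psi_mul {rb : FramedResidual k} {u₀ u₁ : Fin 2 → k}
    (hu01 : s56fo_detw u₀ u₁ = 1) {σ τ : GQ} {x y : k} (hx : rb σ *ᵥ u₀ = x • u₀)
    (hy : rb τ *ᵥ u₀ = y • u₀) :
    s56fo_psi rb u₀ u₁ (σ * τ) = s56fo_psi rb u₀ u₁ σ * s56fo_psi rb u₀ u₁ τ := by
  have h1 : rb (σ * τ) * s56oa_gen u₀ * rb (σ * τ)⁻¹ =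
      rb σ * (rb τ * s56oa_gen u₀ * rb τ⁻¹) * rb σ⁻¹ := by
    rw [_root_.mul_inv_rev, rb.map_mul, rb.map_mul]
    simp only [Matrix.mul_assoc]
  have h2 : s56fo_psi rb u₀ u₁ (σ * τ) =
      s56fo_co u₁ ((rb (σ * τ) * s56oa_gen u₀ * rb (σ * τ)⁻¹) *ᵥ u₁) := rfl
  rw [h2, h1, s56fo_psi_spec hu01 hy (s56oa_gen_mem u₀), Matrix.mul_smul, Matrix.smul_mul,
    s56fo_psi_spec hu01 hx (s56oa_gen_mem u₀), Matrix.smul_mulVec, Matrix.smul_mulVec,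
    s56fo_gen_u1 hu01, smul_smul, s56fo_co_smul hu01, mul_comm]

/-- on the inertia `ψ` is the determinant. -/
theorem s56fo_psi_inertia {rb : FramedResidual k} {u₀ u₁ : Fin 2 → k}
    (hu01 : s56fo_detw u₀ u₁ = 1) {s : GQ}
    (hord : ∀ v : Fin 2 → k, ∃ t : k, rb s *ᵥ v - v = t • u₀) :
    s56fo_psi rb u₀ u₁ s = (rb s).det := by
  have hx := s56fo_det_eigen hu01 (rb s) hord
  have hz : ∀ v : Fin 2 → k, ∃ t : k, rb s *ᵥ v - (1 : k) • v = t • u₀ := fun v => by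
    rw [one_smul]
    exact hord v
  have hconj := s56oa_W0_conj (s56o_rb_mul_inv rb s) one_ne_zero hx hz (s56oa_gen_mem u₀)
  unfold s56fo_psi
  rw [hconj, inv_one, mul_one, Matrix.smul_mulVec, s56fo_gen_u1 hu01, s56fo_co_smul hu01]

/-! ### coboundaries -/

/-- the coboundary of the diagonal matrix has values in `W₀` on the Borel. -/
theorem s56fo_d_Dg {rb : FramedResidual k} {u₀ : Fin 2 → k} (hu : u₀ ≠ 0)
    {Dg : Matrix (Fin 2) (Fin 2) k} (hD1 : Dg *ᵥ u₀ = u₀)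
    (hD2 : ∀ w : Fin 2 → k, ∃ t : k, Dg *ᵥ w = t • u₀ - w) {σ : GQ} {x : k}
    (hx : rb σ *ᵥ u₀ = x • u₀) : s56o_d rb Dg σ ∈ s56oa_W0 u₀ := by
  obtain ⟨hx0, hxinv⟩ := s56oa_inv_eigen (s56o_rb_inv_mul rb σ) hu hx
  have hmv : ∀ w : Fin 2 → k, s56o_d rb Dg σ *ᵥ w =
      rb σ *ᵥ (Dg *ᵥ (rb σ⁻¹ *ᵥ w)) - Dg *ᵥ w := by
    intro w
    unfold s56o_d
    rw [Matrix.sub_mulVec, ← Matrix.mulVec_mulVec, ← Matrix.mulVec_mulVec]
  rw [s56oa_mem_W0]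
  refine ⟨?_, fun w => ?_⟩
  · rw [hmv, hxinv, Matrix.mulVec_smul, hD1, Matrix.mulVec_smul, hx, smul_smul,
      inv_mul_cancel₀ hx0, one_smul, sub_self]
  · obtain ⟨t', ht'⟩ := hD2 (rb σ⁻¹ *ᵥ w)
    obtain ⟨t, ht⟩ := hD2 w
    refine ⟨t' * x - t, ?_⟩
    rw [hmv, ht', ht, Matrix.mulVec_sub, Matrix.mulVec_smul, hx, Matrix.mulVec_mulVec,
      s56o_rb_mul_inv, Matrix.one_mulVec, smul_smul, sub_smul]
    abel

/-- the coefficient of the coboundary of the diagonal matrix on the inertia. -/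
theorem s56fo_d_Dg_coef {rb : FramedResidual k} {u₀ u₁ : Fin 2 → k}
    (hu01 : s56fo_detw u₀ u₁ = 1) {Dg : Matrix (Fin 2) (Fin 2) k} (hD1 : Dg *ᵥ u₀ = u₀)
    {t₁ : k} (ht₁ : Dg *ᵥ u₁ = t₁ • u₀ - u₁) {s : GQ}
    (hord : ∀ v : Fin 2 → k, ∃ t : k, rb s *ᵥ v - v = t • u₀) :
    s56fo_co u₁ (s56o_d rb Dg s *ᵥ u₁) =
      t₁ * ((rb s).det - 1) - 2 * s56fo_co u₁ (rb s *ᵥ u₁ - u₁) := by
  have hx := s56fo_det_eigen hu01 (rb s) hord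
  set x := (rb s).det with hxdef
  obtain ⟨t, ht⟩ := hord (rb s⁻¹ *ᵥ u₁)
  rw [Matrix.mulVec_mulVec, s56o_rb_mul_inv, Matrix.one_mulVec] at ht
  have hw : rb s⁻¹ *ᵥ u₁ = u₁ - t • u₀ := by rw [← ht]; abel
  have h1 : rb s *ᵥ u₁ - u₁ = (t * x) • u₀ := by
    have h2 : rb s *ᵥ (rb s⁻¹ *ᵥ u₁) = u₁ := by
      rw [Matrix.mulVec_mulVec, s56o_rb_mul_inv, Matrix.one_mulVec]
    rw [hw, Matrix.mulVec_sub, Matrix.mulVec_smul, hx, smul_smul] at h2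
    rw [sub_eq_iff_eq_add] at h2
    rw [h2]
    abel
  have hmv : s56o_d rb Dg s *ᵥ u₁ = rb s *ᵥ (Dg *ᵥ (rb s⁻¹ *ᵥ u₁)) - Dg *ᵥ u₁ := by
    unfold s56o_d
    rw [Matrix.sub_mulVec, ← Matrix.mulVec_mulVec, ← Matrix.mulVec_mulVec]
  have h3 : rb s *ᵥ u₁ = u₁ + (t * x) • u₀ := by rw [← h1]; abel
  have h4 : s56o_d rb Dg s *ᵥ u₁ = (t₁ * (x - 1) - 2 * (t * x)) • u₀ := by
    rw [hmv, hw, Matrix.mulVec_sub, Matrix.mulVec_smul, hD1, ht₁, Matrix.mulVec_sub,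
      Matrix.mulVec_sub, Matrix.mulVec_smul, Matrix.mulVec_smul, hx, h3]
    simp only [smul_smul, sub_smul, mul_sub, two_mul, add_smul, mul_one]
    abel
  rw [h4, h1, s56fo_co_smul hu01, s56fo_co_smul hu01]

/-- the coboundary of `γ g`. -/
theorem s56fo_d_gen' {rb : FramedResidual k} {u₀ u₁ : Fin 2 → k}
    (hu01 : s56fo_detw u₀ u₁ = 1) {σ : GQ} {x : k} (hx : rb σ *ᵥ u₀ = x • u₀) (γ : k) :
    s56o_d rb (γ • s56oa_gen u₀) σ = ((s56fo_psi rb u₀ u₁ σ - 1) * γ) • s56oa_gen u₀ := by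
  unfold s56o_d
  rw [s56fo_psi_spec hu01 hx (Submodule.smul_mem _ _ (s56oa_gen_mem u₀)), smul_smul, ← sub_smul]
  congr 1
  ring

/-- a trace zero matrix whose coboundary at `s₀` (eigenvalue `≠ 1` on `u₀`) is in `W₀` is
`λ Dg + γ g`. -/
theorem s56fo_borel_of_d {rb : FramedResidual k} {u₀ u₁ : Fin 2 → k}
    (hu01 : s56fo_detw u₀ u₁ = 1) {Dg : Matrix (Fin 2) (Fin 2) k} (hDtr : Dg.trace = 0)
    (hD1 : Dg *ᵥ u₀ = u₀) {s₀ : GQ} {x₀ : k} (hx₀ : rb s₀ *ᵥ u₀ = x₀ • u₀) (hx₀1 : x₀ ≠ 1)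
    (hord : ∀ v : Fin 2 → k, ∃ t : k, rb s₀ *ᵥ v - v = t • u₀)
    {m : Matrix (Fin 2) (Fin 2) k} (hm : m.trace = 0) (hW : s56o_d rb m s₀ ∈ s56oa_W0 u₀) :
    ∃ lam γ : k, m = lam • Dg + γ • s56oa_gen u₀ := by
  have hu := s56fo_u0_ne hu01
  have hne : x₀ - 1 ≠ 0 := sub_ne_zero.mpr hx₀1
  obtain ⟨hx0, hxinv⟩ := s56oa_inv_eigen (s56o_rb_inv_mul rb s₀) hu hx₀
  -- `m u₀` is an eigenvector of `rb s₀` for `x₀`
  have h1 : rb s₀ *ᵥ (m *ᵥ u₀) = x₀ • (m *ᵥ u₀) := by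
    have h2 := hW.1
    unfold s56o_d at h2
    rw [Matrix.sub_mulVec, ← Matrix.mulVec_mulVec, ← Matrix.mulVec_mulVec, hxinv,
      Matrix.mulVec_smul, Matrix.mulVec_smul, sub_eq_zero] at h2
    calc rb s₀ *ᵥ (m *ᵥ u₀) = x₀ • (x₀⁻¹ • rb s₀ *ᵥ (m *ᵥ u₀)) := by
          rw [smul_smul, mul_inv_cancel₀ hx0, one_smul]
      _ = x₀ • (m *ᵥ u₀) := by rw [h2]
  obtain ⟨t, ht⟩ := hord (m *ᵥ u₀)
  rw [h1] at ht
  have ht' : (x₀ - 1) • (m *ᵥ u₀) = t • u₀ := by rw [sub_smul, one_smul]; exact ht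
  have h3 : m *ᵥ u₀ = ((x₀ - 1)⁻¹ * t) • u₀ := by
    rw [← smul_smul, ← ht', smul_smul, inv_mul_cancel₀ hne, one_smul]
  set lam := (x₀ - 1)⁻¹ * t with hlam
  set M := m - lam • Dg with hM
  have hM0 : M *ᵥ u₀ = 0 := by
    rw [hM, Matrix.sub_mulVec, Matrix.smul_mulVec, hD1, h3, sub_self]
  have hMtr : M.trace = 0 := by
    rw [hM, Matrix.trace_sub, Matrix.trace_smul, hm, hDtr, smul_zero, sub_zero]
  -- `M u₁ ∈ k u₀`
  have hid : s56fo_detw u₀ (M *ᵥ u₁) = M.trace * s56fo_detw u₀ u₁ - s56fo_detw (M *ᵥ u₀) u₁ := by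
    rw [s56fo_detw_apply, s56fo_detw_apply, s56fo_detw_apply, Matrix.trace_fin_two]
    simp only [Matrix.mulVec, dotProduct, Fin.sum_univ_two]
    ring
  have hMu₁ : M *ᵥ u₁ = s56fo_co u₁ (M *ᵥ u₁) • u₀ := by
    conv_lhs => rw [s56fo_decomp hu01 (M *ᵥ u₁)]
    rw [hid, hMtr, hM0, zero_mul, s56fo_detw_apply]
    simp
  have hMW : M ∈ s56oa_W0 u₀ := by
    rw [s56oa_mem_W0]
    refine ⟨hM0, fun v => ⟨s56fo_detw u₀ v * s56fo_co u₁ (M *ᵥ u₁), ?_⟩⟩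
    conv_lhs => rw [s56fo_decomp hu01 v]
    rw [Matrix.mulVec_add, Matrix.mulVec_smul, Matrix.mulVec_smul, hM0, smul_zero, zero_add,
      hMu₁, smul_smul]
    congr 2
    rw [← hMu₁]
  refine ⟨lam, s56fo_co u₁ (M *ᵥ u₁), ?_⟩
  rw [← s56fo_W0_coef hu01 hMW, hM]
  abel

end Fermat.Agent.S56
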