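/-
Project S56, node [LOC-p-FLAT], cell F-ORD (ordinary case; owner helper1).  Prefix `s56fo_`.
`k`-VALUED PEU RAMIFIE COCYCLES AND THE EMBEDDING `k → O / 𝔪_O`.

* `s56fo_PeuK O p ζ ν` : every `𝔽_p`-linear functional of `ν : Γ → k` is peu ramifie; closed under
  sums, `k`-multiples, contains the coboundaries `(ω - 1) x`.
* `s56fo_iota` : a finite field of characteristic `p` embeds in the residue field of `O` (which is
  the residue field of `A`, algebraically closed).
-/
import Mathlib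
import Fermat.Agent.S56.Flat.Ord.Lam1

set_option autoImplicit false
set_option linter.unusedSectionVars false
set_option linter.style.haveILetI false

noncomputable section

namespace Fermat.Agent.S56

open Fermat.Agent.MZ

section PeuK

variable {p : ℕ} [hp : Fact p.Prime] {O : Type} [CommRing O] [IsDomain O]
  [IsDiscreteValuationRing O] {L : Type} [Field L] [Algebra O L]
  {Γ : Type} [Group Γ] [MulSemiringAction Γ L] {k : Type} [Field k] [Algebra (ZMod p) k]

/-- every `𝔽_p`-linear functional of `ν` is peu ramifie. -/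
def s56fo_PeuK (O : Type) [CommRing O] {L : Type} [Field L] [Algebra O L]
    {Γ : Type} [Group Γ] [MulSemiringAction Γ L] (p : ℕ) (ζ : L) {k : Type} [Field k]
    [Algebra (ZMod p) k] (ν : Γ → k) : Prop :=
  ∀ ℓ : k →ₗ[ZMod p] ZMod p, s56fo_Peu O p ζ (fun s => ℓ (ν s))

theorem s56fo_peuK_zero (ζ : L) : s56fo_PeuK O p ζ (fun _ : Γ => (0 : k)) := by
  intro ℓ
  rw [s56fol_peu_iff]
  refine ⟨1, 0, s56fol_datum_congr (s56fol_datum_zero ζ) fun s => ?_⟩
  rw [map_zero]

theorem s56fo_peuK_congr {ζ : L} {ν ν' : Γ → k} (h : s56fo_PeuK O p ζ ν)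
    (hνν : ∀ s, ν s = ν' s) : s56fo_PeuK O p ζ ν' := by
  have : ν = ν' := funext hνν
  rw [← this]
  exact h

theorem s56fo_peuK_add {ζ : L} (hζ : ζ ^ p = 1) {ν ν' : Γ → k} (h : s56fo_PeuK O p ζ ν)
    (h' : s56fo_PeuK O p ζ ν') : s56fo_PeuK O p ζ (fun s => ν s + ν' s) := by
  intro ℓ
  obtain ⟨β, x, hd⟩ := (s56fol_peu_iff ζ _).1 (h ℓ)
  obtain ⟨β', x', hd'⟩ := (s56fol_peu_iff ζ _).1 (h' ℓ)
  rw [s56fol_peu_iff]
  refine ⟨_, _, s56fol_datum_congr (s56fol_datum_mul hζ hd hd') fun s => ?_⟩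
  rw [map_add]

theorem s56fo_peuK_smul {ζ : L} {ν : Γ → k} (h : s56fo_PeuK O p ζ ν) (a : k) :
    s56fo_PeuK O p ζ (fun s => a * ν s) := by
  intro ℓ
  let ℓ' : k →ₗ[ZMod p] ZMod p := ℓ.comp (LinearMap.mulLeft (ZMod p) a)
  exact h ℓ'

theorem s56fo_peuK_cob {ζ : L} (hζ : ζ ^ p = 1) {ω : Γ → ZMod p}
    (hω : ∀ s : Γ, s • ζ = ζ ^ (ω s).val) (x : k) :
    s56fo_PeuK O p ζ (fun s => (algebraMap (ZMod p) k (ω s) - 1) * x) := by
  intro ℓ
  rw [s56fol_peu_iff]
  refine ⟨_, _, s56fol_datum_congr (s56fol_datum_cob hζ hω (ℓ x)) fun s => ?_⟩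
  have e : (algebraMap (ZMod p) k (ω s) - 1) * x = (ω s - 1) • x := by
    rw [Algebra.smul_def, map_sub, map_one]
  show (ω s - 1) * ℓ x = ℓ ((algebraMap (ZMod p) k (ω s) - 1) * x)
  rw [e, map_smul, smul_eq_mul]

end PeuK

section Iota

variable {p : ℕ} [hp : Fact p.Prime] {O : Type} [CommRing O] [IsDomain O]
  [IsDiscreteValuationRing O] {L : Type} [Field L] [Algebra O L] {A : ValuationSubring L}
  {Γ : Type} [Group Γ] [MulSemiringAction Γ L]

/-- the residue field of `O` is the residue field of `A`. -/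
theorem s56fo_residue_equiv (hctx : mzo_Ctx p O L A Γ) :
    Nonempty (IsLocalRing.ResidueField O ≃+* IsLocalRing.ResidueField ↥A) := by
  let g : O →+* ↥A :=
    { toFun := fun o => ⟨algebraMap O L o, hctx.mem_A o⟩
      map_one' := Subtype.ext (map_one _)
      map_mul' := fun a b => Subtype.ext (map_mul _ a b)
      map_zero' := Subtype.ext (map_zero _)
      map_add' := fun a b => Subtype.ext (map_add _ a b) }
  let f : O →+* IsLocalRing.ResidueField ↥A := (IsLocalRing.residue ↥A).comp g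
  have hker : RingHom.ker f = IsLocalRing.maximalIdeal O := by
    ext o
    rw [RingHom.mem_ker, IsLocalRing.mem_maximalIdeal]
    show IsLocalRing.residue ↥A (g o) = 0 ↔ _
    rw [IsLocalRing.residue_eq_zero_iff, ← ValuationSubring.coe_mem_nonunits_iff]
    exact hctx.nonunit_iff o
  have hsurj : Function.Surjective f := by
    intro y
    obtain ⟨a, rfl⟩ := IsLocalRing.residue_surjective y
    obtain ⟨o, ho⟩ := hctx.res_full (a : L) a.2
    refine ⟨o, ?_⟩
    show IsLocalRing.residue ↥A (g o) = IsLocalRing.residue ↥A a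
    rw [eq_comm, ← sub_eq_zero, ← map_sub, IsLocalRing.residue_eq_zero_iff,
      ← ValuationSubring.coe_mem_nonunits_iff]
    exact ho
  exact ⟨(Ideal.quotEquivOfEq hker.symm).trans (RingHom.quotientKerEquivOfSurjective hsurj)⟩

/-- a finite field of characteristic `p` embeds in the residue field of `O`. -/
theorem s56fo_iota (hctx : mzo_Ctx p O L A Γ) [IsAlgClosed (IsLocalRing.ResidueField ↥A)]
    (k : Type) [Field k] [Finite k] [Algebra (ZMod p) k] :
    Nonempty (k →+* IsLocalRing.ResidueField O) := by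
  obtain ⟨e⟩ := s56fo_residue_equiv hctx
  haveI : CharP (IsLocalRing.ResidueField O) p := s56fol_charP hctx
  letI : Algebra (ZMod p) (IsLocalRing.ResidueField O) := ZMod.algebra _ p
  haveI : IsAlgClosed (IsLocalRing.ResidueField O) := IsAlgClosed.of_ringEquiv _ _ e.symm
  haveI : Algebra.IsAlgebraic (ZMod p) k := Algebra.IsAlgebraic.of_finite _ _
  exact ⟨(IsAlgClosed.lift : k →ₐ[ZMod p] IsLocalRing.ResidueField O).toRingHom⟩

end Iota

end Fermat.Agent.S56
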