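/-
Project S56, node [LOC-p-FLAT], cell F-ORD (ordinary case; owner helper1).  Prefix `s56fo_`.
THE DEPENDENCE HYPOTHESIS OF THE COUNT (`s56fo_Dep` of `Ord/Count.lean`) AT A PLACE `P | p`.

`C := span {c_r | r flat lift of rb with cyclotomic determinant}`.  Any `W₀`-valued (on `D_P`)
cochain `n` cohomologous to an element of `C` has a coefficient `ν_n` which is a `ψ`-cocycle on
`D_P`, peu ramifie on `I_P` (`s56fo_lift` + closure of peu ramifie under sums and coboundaries), and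
an eigenvector of the Frobenius; the seam `s56fo_LangDep_stmt` makes any two of them dependent on
`I_P` modulo coboundaries, and `s56fo_descend` pushes the dependence to `D_P`.
-/
import Mathlib
import Fermat.Agent.S56.Flat.Ord.PeuK
import Fermat.Agent.S56.Flat.Ord.LinAlg
import Fermat.Agent.S56.Flat.Ord.Frob
import Fermat.Agent.S56.Flat.Ord.Descend
import Fermat.Agent.S56.Flat.ClassA

set_option autoImplicit false
set_option linter.unusedSectionVars false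
set_option linter.style.haveILetI false

noncomputable section

namespace Fermat.Agent.S56

open Fermat.Agent.MZ Fermat.Agent.FF Fermat.Agent.S53 Matrix ExtCitation

variable {k : Type} [Field k] {p : ℕ} [Fact p.Prime] [Algebra (ZMod p) k]

/-- the mod `p` cyclotomic character on the inertia group. -/
def s56fo_om (p : ℕ) [Fact p.Prime] (P : ValuationSubring ff_Qb) :
    ↥(P.inertiaSubgroupIn ℚ) → ZMod p := fun s => ((cycloExp p (s : GQ) : ℕ) : ZMod p)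

theorem s56fo_om_zeta (P : ValuationSubring ff_Qb) {ζ : ff_Qb} (hζ : IsPrimitiveRoot ζ p)
    (s : ↥(P.inertiaSubgroupIn ℚ)) : s • ζ = ζ ^ (s56fo_om p P s).val := by
  show (s : GQ) ζ = ζ ^ (((cycloExp p (s : GQ) : ℕ) : ZMod p)).val
  rw [ZMod.val_natCast, ← pow_eq_pow_mod _ hζ.pow_eq_one]
  exact Fermat.Agent.S14.Reduction.apply_of_pow_eq_one p (s : GQ) hζ.pow_eq_one

theorem s56fo_om_ne (hp2 : p ≠ 2) (P : ValuationSubring ff_Qb) (hP : P.LiesOverPrime p) :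
    ∃ s : ↥(P.inertiaSubgroupIn ℚ), s56fo_om p P s ≠ 1 := by
  have hpr : p.Prime := Fact.out
  have h3 : 3 ≤ p := by
    have := hpr.two_le
    omega
  obtain ⟨s₀, hs₀, hne⟩ := Fermat.Agent.MZ.mzj_ch_main p h3 P hP
  exact ⟨⟨s₀, hs₀⟩, hne⟩

/-- **the standing data of the ordinary case** at `P | p`. -/
structure s56fo_Data (p : ℕ) [Fact p.Prime] [Algebra (ZMod p) k] (rb : FramedResidual k)
    (P : ValuationSubring ff_Qb) (u₀ u₁ : Fin 2 → k) (Dg : Matrix (Fin 2) (Fin 2) k)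
    (ζ : ff_Qb) : Prop where
  hP : P.LiesOverPrime p
  hp2 : p ≠ 2
  hu01 : s56fo_detw u₀ u₁ = 1
  hord : ∀ s ∈ P.inertiaSubgroupIn ℚ, ∀ v : Fin 2 → k, ∃ t : k, rb s *ᵥ v - v = t • u₀
  hDtr : Dg.trace = 0
  hD1 : Dg *ᵥ u₀ = u₀
  hD2 : ∀ w : Fin 2 → k, ∃ t : k, Dg *ᵥ w = t • u₀ - w
  hζ : IsPrimitiveRoot ζ p
  hdet : ∀ σ : GQ, (rb σ).det = ((cycloExp p σ : ℕ) : k)

section Data

variable {rb : FramedResidual k} {P : ValuationSubring ff_Qb} {u₀ u₁ : Fin 2 → k}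
  {Dg : Matrix (Fin 2) (Fin 2) k} {ζ : ff_Qb}

theorem s56fo_Data.det_I (S : s56fo_Data p rb P u₀ u₁ Dg ζ) (s : ↥(P.inertiaSubgroupIn ℚ)) :
    (rb (s : GQ)).det = algebraMap (ZMod p) k (s56fo_om p P s) := by
  rw [S.hdet, s56fo_om, map_natCast]

theorem s56fo_Data.eigen_I (S : s56fo_Data p rb P u₀ u₁ Dg ζ) {s : GQ}
    (hs : s ∈ P.inertiaSubgroupIn ℚ) : rb s *ᵥ u₀ = (rb s).det • u₀ :=
  s56fo_det_eigen S.hu01 _ (S.hord s hs)

theorem s56fo_Data.psi_I (S : s56fo_Data p rb P u₀ u₁ Dg ζ) (s : ↥(P.inertiaSubgroupIn ℚ)) :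
    s56fo_psi rb u₀ u₁ (s : GQ) = algebraMap (ZMod p) k (s56fo_om p P s) := by
  rw [s56fo_psi_inertia S.hu01 (S.hord _ s.2), S.det_I]

/-- an element of the inertia on which the determinant is not `1`. -/
theorem s56fo_Data.exists_s₀ (S : s56fo_Data p rb P u₀ u₁ Dg ζ) :
    ∃ s₀ : ↥(P.inertiaSubgroupIn ℚ), s56fo_om p P s₀ ≠ 1 ∧ (rb (s₀ : GQ)).det ≠ 1 := by
  obtain ⟨s₀, hs₀⟩ := s56fo_om_ne S.hp2 P S.hP
  refine ⟨s₀, hs₀, ?_⟩
  rw [S.det_I]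
  intro h
  apply hs₀
  apply (algebraMap (ZMod p) k).injective
  rw [h, map_one]

/-- the decomposition group stabilises the line. -/
theorem s56fo_Data.stable (S : s56fo_Data p rb P u₀ u₁ Dg ζ) {σ : GQ}
    (hσ : σ ∈ P.decompositionSubgroup ℚ) : ∃ x : k, rb σ *ᵥ u₀ = x • u₀ := by
  obtain ⟨s₀, -, hs₀⟩ := S.exists_s₀
  exact s56fo_stable_line (fun σ hσ s hs => s56fo_inertia_conj P hσ hs) S.hord s₀.2
    (S.eigen_I s₀.2) hs₀ hσ

theorem s56fo_Data.psi_mul (S : s56fo_Data p rb P u₀ u₁ Dg ζ) {σ τ : GQ}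
    (hσ : σ ∈ P.decompositionSubgroup ℚ) (hτ : τ ∈ P.decompositionSubgroup ℚ) :
    s56fo_psi rb u₀ u₁ (σ * τ) = s56fo_psi rb u₀ u₁ σ * s56fo_psi rb u₀ u₁ τ := by
  obtain ⟨x, hx⟩ := S.stable hσ
  obtain ⟨y, hy⟩ := S.stable hτ
  exact s56fo_psi_mul S.hu01 hx hy

theorem s56fo_Data.conj (S : s56fo_Data p rb P u₀ u₁ Dg ζ) {σ : GQ}
    (hσ : σ ∈ P.decompositionSubgroup ℚ) {N : Matrix (Fin 2) (Fin 2) k}
    (hN : N ∈ s56oa_W0 u₀) : rb σ * N * rb σ⁻¹ = s56fo_psi rb u₀ u₁ σ • N := by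
  obtain ⟨x, hx⟩ := S.stable hσ
  exact s56fo_psi_spec S.hu01 hx hN

theorem s56fo_Data.d_Dg (S : s56fo_Data p rb P u₀ u₁ Dg ζ) {σ : GQ}
    (hσ : σ ∈ P.decompositionSubgroup ℚ) : s56o_d rb Dg σ ∈ s56oa_W0 u₀ := by
  obtain ⟨x, hx⟩ := S.stable hσ
  exact s56fo_d_Dg (s56fo_u0_ne S.hu01) S.hD1 S.hD2 hx

theorem s56fo_Data.d_gen (S : s56fo_Data p rb P u₀ u₁ Dg ζ) {σ : GQ}
    (hσ : σ ∈ P.decompositionSubgroup ℚ) (γ : k) :
    s56o_d rb (γ • s56oa_gen u₀) σ = ((s56fo_psi rb u₀ u₁ σ - 1) * γ) • s56oa_gen u₀ := by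
  obtain ⟨x, hx⟩ := S.stable hσ
  exact s56fo_d_gen' S.hu01 hx γ

end Data

/-! ### the span of the cocycles of the flat lifts -/

/-- the cocycles of the flat lifts of `rb` with cyclotomic determinant. -/
def s56fo_F (p : ℕ) [Fact p.Prime] (rb : FramedResidual k) :
    Set (GQ → Matrix (Fin 2) (Fin 2) k) :=
  {c | ∃ r : FramedRep (DualNumber k), (∀ σ, s56t_bar r σ = rb σ) ∧
    r.toGaloisRepAdic.DetIsCyclotomic p ∧ r.toGaloisRepAdic.IsFlatAt p ∧ c = s56t_coc r}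

section Span

variable [Finite k] {rb : FramedResidual k} {P : ValuationSubring ff_Qb} {u₀ u₁ : Fin 2 → k}
  {Dg : Matrix (Fin 2) (Fin 2) k} {ζ : ff_Qb}

/-- the elements of the span are cocycles, of Borel shape on the inertia, with a peu ramifie
coefficient. -/
theorem s56fo_span_data (hPeu : s56fo_PeuOrder_stmt) (S : s56fo_Data p rb P u₀ u₁ Dg ζ)
    {c : GQ → Matrix (Fin 2) (Fin 2) k} (hc : c ∈ Submodule.span k (s56fo_F p rb)) :
    (∀ σ τ : GQ, c (σ * τ) = c σ + rb σ * c τ * rb σ⁻¹) ∧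
    ∃ m : Matrix (Fin 2) (Fin 2) k, m.trace = 0 ∧
      (∀ s ∈ P.inertiaSubgroupIn ℚ, c s - s56o_d rb m s ∈ s56oa_W0 u₀) ∧
      s56fo_PeuK ↥(ffi_O P ↥(ffi_L P)) p ζ (fun s : ↥(P.inertiaSubgroupIn ℚ) =>
        s56fo_co u₁ ((c (s : GQ) - s56o_d rb m (s : GQ)) *ᵥ u₁)) := by
  haveI : IsDiscreteValuationRing ↥(ffi_O P ↥(ffi_L P)) := mzg_ctx_dvr p P S.hP
  induction hc using Submodule.span_induction with
  | mem c hc =>
    obtain ⟨r, hr, hdet, hflat, rfl⟩ := hc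
    obtain ⟨m, A, hm, hshape, -, hAI, -, hpeu⟩ :=
      s56fo_lift hPeu S.hp2 rb P S.hP S.hu01 S.hord S.hD1 S.hD2 S.hζ r hr hdet hflat
    refine ⟨fun σ τ => by rw [s56t_coc_mul, hr, hr], m, hm, fun s hs => ?_, fun ℓ => ?_⟩
    · have := hshape s (s56fo_inertia_le P hs)
      rwa [hAI s hs, zero_smul, sub_zero] at this
    · have := hpeu 0 ℓ
      simp only [LinearMap.zero_apply, zero_add] at this
      exact this
  | zero =>
    refine ⟨fun σ τ => by simp, 0, Matrix.trace_zero _ _, fun s hs => ?_, ?_⟩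
    · rw [Pi.zero_apply, s56fo_d_zero, sub_zero]
      exact Submodule.zero_mem _
    · refine s56fo_peuK_congr (s56fo_peuK_zero ζ) fun s => ?_
      rw [Pi.zero_apply, s56fo_d_zero, sub_zero, Matrix.zero_mulVec, map_zero]
  | add c c' _ _ ih ih' =>
    obtain ⟨hcoc, m, hm, hW, hpeu⟩ := ih
    obtain ⟨hcoc', m', hm', hW', hpeu'⟩ := ih'
    have e : ∀ s : GQ, (c + c') s - s56o_d rb (m + m') s =
        (c s - s56o_d rb m s) + (c' s - s56o_d rb m' s) := fun s => by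
      rw [Pi.add_apply, s56o_d_add]
      abel
    refine ⟨fun σ τ => ?_, m + m', by rw [Matrix.trace_add, hm, hm', add_zero], fun s hs => ?_, ?_⟩
    · rw [Pi.add_apply, Pi.add_apply, Pi.add_apply, hcoc, hcoc', Matrix.mul_add, Matrix.add_mul]
      abel
    · rw [e]
      exact Submodule.add_mem _ (hW s hs) (hW' s hs)
    · refine s56fo_peuK_congr (s56fo_peuK_add S.hζ.pow_eq_one hpeu hpeu') fun s => ?_
      rw [e, Matrix.add_mulVec, map_add]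
  | smul a c _ ih =>
    obtain ⟨hcoc, m, hm, hW, hpeu⟩ := ih
    have e : ∀ s : GQ, (a • c) s - s56o_d rb (a • m) s = a • (c s - s56o_d rb m s) := fun s => by
      rw [Pi.smul_apply, s56o_d_smul, smul_sub]
    refine ⟨fun σ τ => ?_, a • m, by rw [Matrix.trace_smul, hm, smul_zero], fun s hs => ?_, ?_⟩
    · rw [Pi.smul_apply, Pi.smul_apply, Pi.smul_apply, hcoc, Matrix.mul_smul, Matrix.smul_mul,
        smul_add]
    · rw [e]
      exact Submodule.smul_mem _ _ (hW s hs)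
    · refine s56fo_peuK_congr (s56fo_peuK_smul hpeu a) fun s => ?_
      rw [e, Matrix.smul_mulVec, s56fo_co_smul_right]

/-- the coefficient of `r̄ - 1` on the inertia is peu ramifie (as soon as a flat lift exists). -/
theorem s56fo_beta_peuK (hPeu : s56fo_PeuOrder_stmt) (S : s56fo_Data p rb P u₀ u₁ Dg ζ)
    (hne : (s56fo_F p rb).Nonempty) :
    s56fo_PeuK ↥(ffi_O P ↥(ffi_L P)) p ζ (fun s : ↥(P.inertiaSubgroupIn ℚ) =>
      s56fo_co u₁ (rb (s : GQ) *ᵥ u₁ - u₁)) := by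
  obtain ⟨c, r, hr, hdet, hflat, -⟩ := hne
  obtain ⟨m, A, -, -, -, -, -, hpeu⟩ :=
    s56fo_lift hPeu S.hp2 rb P S.hP S.hu01 S.hord S.hD1 S.hD2 S.hζ r hr hdet hflat
  intro ℓ
  have := hpeu ℓ 0
  simp only [LinearMap.zero_apply, add_zero] at this
  exact this

/-- **the coefficient of an element of `N` is peu ramifie on the inertia.** -/
theorem s56fo_nu_peuK (hPeu : s56fo_PeuOrder_stmt) (S : s56fo_Data p rb P u₀ u₁ Dg ζ)
    (hne : (s56fo_F p rb).Nonempty) {n : GQ → Matrix (Fin 2) (Fin 2) k}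
    (hn : n ∈ s56fo_N rb (P.decompositionSubgroup ℚ) u₀ (Submodule.span k (s56fo_F p rb))) :
    s56fo_PeuK ↥(ffi_O P ↥(ffi_L P)) p ζ (fun s : ↥(P.inertiaSubgroupIn ℚ) =>
      s56fo_co u₁ (n (s : GQ) *ᵥ u₁)) := by
  haveI : IsDiscreteValuationRing ↥(ffi_O P ↥(ffi_L P)) := mzg_ctx_dvr p P S.hP
  obtain ⟨hnW, c, hc, m, hm, hnc⟩ := hn
  obtain ⟨-, mc, hmc, hcW, hcP⟩ := s56fo_span_data hPeu S hc
  obtain ⟨s₀, hs₀, hs₀det⟩ := S.exists_s₀
  have hID := s56fo_inertia_le P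
  -- the difference of the two coboundaries
  have hd : ∀ s ∈ P.inertiaSubgroupIn ℚ,
      s56o_d rb (mc - m) s = n s - (c s - s56o_d rb mc s) := fun s hs => by
    rw [s56fo_d_sub, hnc s (hID hs)]
    abel
  have hdW : s56o_d rb (mc - m) (s₀ : GQ) ∈ s56oa_W0 u₀ := by
    rw [hd _ s₀.2]
    exact Submodule.sub_mem _ (hnW _ (hID s₀.2)) (hcW _ s₀.2)
  obtain ⟨lam, γ, hlg⟩ := s56fo_borel_of_d S.hu01 S.hDtr S.hD1 (S.eigen_I s₀.2) hs₀det
    (S.hord _ s₀.2) (by rw [Matrix.trace_sub, hmc, hm, sub_zero]) hdW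
  obtain ⟨t₁, ht₁⟩ := S.hD2 u₁
  have hβ := s56fo_beta_peuK hPeu S hne
  have hω := s56fo_om_zeta P S.hζ
  have h1 := s56fo_peuK_add S.hζ.pow_eq_one
    (s56fo_peuK_add S.hζ.pow_eq_one hcP (s56fo_peuK_smul hβ (-2 * lam)))
    (s56fo_peuK_cob (O := ↥(ffi_O P ↥(ffi_L P))) (k := k) S.hζ.pow_eq_one hω (lam * t₁ + γ))
  refine s56fo_peuK_congr h1 fun s => ?_
  have hs := s.2
  have e1 : n (s : GQ) = (c (s : GQ) - s56o_d rb mc (s : GQ)) + s56o_d rb (mc - m) (s : GQ) := by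
    rw [hd _ hs]
    abel
  have e2 : s56o_d rb (mc - m) (s : GQ) = lam • s56o_d rb Dg (s : GQ) +
      ((s56fo_psi rb u₀ u₁ (s : GQ) - 1) * γ) • s56oa_gen u₀ := by
    rw [hlg, s56o_d_add, s56o_d_smul, S.d_gen (hID hs)]
  rw [e1, e2, Matrix.add_mulVec, Matrix.add_mulVec, Matrix.smul_mulVec, Matrix.smul_mulVec,
    s56fo_gen_u1 S.hu01, map_add, map_add, s56fo_co_smul_right, s56fo_co_smul S.hu01,
    s56fo_d_Dg_coef S.hu01 S.hD1 ht₁ (S.hord _ hs), S.psi_I, S.det_I]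
  ring

/-- the coefficient of an element of `N` is a `ψ`-cocycle on the decomposition group. -/
theorem s56fo_nu_coc (hPeu : s56fo_PeuOrder_stmt) (S : s56fo_Data p rb P u₀ u₁ Dg ζ)
    {n : GQ → Matrix (Fin 2) (Fin 2) k}
    (hn : n ∈ s56fo_N rb (P.decompositionSubgroup ℚ) u₀ (Submodule.span k (s56fo_F p rb)))
    {σ τ : GQ} (hσ : σ ∈ P.decompositionSubgroup ℚ) (hτ : τ ∈ P.decompositionSubgroup ℚ) :
    s56fo_co u₁ (n (σ * τ) *ᵥ u₁) =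
      s56fo_co u₁ (n σ *ᵥ u₁) + s56fo_psi rb u₀ u₁ σ * s56fo_co u₁ (n τ *ᵥ u₁) := by
  obtain ⟨hnW, c, hc, m, hm, hnc⟩ := hn
  obtain ⟨hcoc, -⟩ := s56fo_span_data hPeu S hc
  have e : n (σ * τ) = n σ + s56fo_psi rb u₀ u₁ σ • n τ := by
    rw [← S.conj hσ (hnW τ hτ), hnc _ ((P.decompositionSubgroup ℚ).mul_mem hσ hτ), hnc σ hσ,
      hnc τ hτ, hcoc, s56o_d_mul, Matrix.mul_sub, Matrix.sub_mul]
    abel
  rw [e, Matrix.add_mulVec, Matrix.smul_mulVec, map_add, s56fo_co_smul_right]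

end Span

/-- a `ψ`-cocycle is an eigenvector of the conjugation by `φ` on `ker ψ`. -/
theorem s56fo_frob_eigen {G : Type*} [Group G] (D : Subgroup G) (ψ ν : G → k)
    (hψ : ∀ σ ∈ D, ∀ τ ∈ D, ψ (σ * τ) = ψ σ * ψ τ) (hψ1 : ψ 1 = 1)
    (hν : ∀ σ ∈ D, ∀ τ ∈ D, ν (σ * τ) = ν σ + ψ σ * ν τ) {φ s : G} (hφ : φ ∈ D) (hs : s ∈ D)
    (hs1 : ψ s = 1) : ν (φ * s * φ⁻¹) = ψ φ * ν s := by
  have hφi := D.inv_mem hφ
  have h1 : ν 1 = 0 := by
    have := hν 1 D.one_mem 1 D.one_mem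
    rw [mul_one, hψ1, one_mul] at this
    exact left_eq_add.mp this
  have h2 : ν φ + ψ φ * ν φ⁻¹ = 0 := by
    rw [← hν φ hφ _ hφi, mul_inv_cancel, h1]
  rw [hν _ (D.mul_mem hφ hs) _ hφi, hν φ hφ s hs, hψ φ hφ s hs, hs1]
  linear_combination h2

section Main

variable [Finite k] {rb : FramedResidual k} {P : ValuationSubring ff_Qb} {u₀ u₁ : Fin 2 → k}
  {Dg : Matrix (Fin 2) (Fin 2) k} {ζ : ff_Qb}

/-- **the dependence hypothesis of the count.** -/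
theorem s56fo_dep (hPeu : s56fo_PeuOrder_stmt) (hLam : s56fo_LangDep_stmt)
    (S : s56fo_Data p rb P u₀ u₁ Dg ζ) (hne : (s56fo_F p rb).Nonempty) :
    s56fo_Dep rb (P.decompositionSubgroup ℚ) u₀
      (s56fo_N rb (P.decompositionSubgroup ℚ) u₀ (Submodule.span k (s56fo_F p rb))) := by
  classical
  intro n hn n' hn'
  haveI : IsDiscreteValuationRing ↥(ffi_O P ↥(ffi_L P)) := mzg_ctx_dvr p P S.hP
  have hctx := mzg_ctx p P S.hP
  haveI : Fintype k := Fintype.ofFinite k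
  haveI : IsAlgClosed (IsLocalRing.ResidueField ↥P) := s56fc_residue_isAlgClosed P
  obtain ⟨ι₀⟩ := s56fo_iota hctx k
  obtain ⟨φ, hφ, -, hΦA, hΦp, hΦc⟩ := s56fo_frob p P S.hP
  have hID := s56fo_inertia_le P
  have hψmul : ∀ σ ∈ P.decompositionSubgroup ℚ, ∀ τ ∈ P.decompositionSubgroup ℚ,
      s56fo_psi rb u₀ u₁ (σ * τ) = s56fo_psi rb u₀ u₁ σ * s56fo_psi rb u₀ u₁ τ :=
    fun σ hσ τ hτ => S.psi_mul hσ hτ
  have hψ1 : s56fo_psi rb u₀ u₁ 1 = 1 := s56fo_psi_one rb S.hu01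
  have hψφ : s56fo_psi rb u₀ u₁ φ ≠ 0 := by
    have h1 := hψmul φ hφ _ ((P.decompositionSubgroup ℚ).inv_mem hφ)
    rw [mul_inv_cancel, hψ1] at h1
    exact left_ne_zero_of_mul_eq_one h1.symm
  have hω := s56fo_om_zeta P S.hζ
  have hω1 := s56fo_om_ne S.hp2 P S.hP
  -- the restrictions to the inertia
  have hcocI : ∀ {n : GQ → Matrix (Fin 2) (Fin 2) k},
      n ∈ s56fo_N rb (P.decompositionSubgroup ℚ) u₀ (Submodule.span k (s56fo_F p rb)) →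
      ∀ s t : ↥(P.inertiaSubgroupIn ℚ),
        s56fo_co u₁ (n ((s * t : ↥(P.inertiaSubgroupIn ℚ)) : GQ) *ᵥ u₁) =
          s56fo_co u₁ (n (s : GQ) *ᵥ u₁) +
            algebraMap (ZMod p) k (s56fo_om p P s) * s56fo_co u₁ (n (t : GQ) *ᵥ u₁) := by
    intro n hn s t
    rw [← S.psi_I s]
    exact s56fo_nu_coc hPeu S hn (hID s.2) (hID t.2)
  have hfrI : ∀ {n : GQ → Matrix (Fin 2) (Fin 2) k},
      n ∈ s56fo_N rb (P.decompositionSubgroup ℚ) u₀ (Submodule.span k (s56fo_F p rb)) →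
      ∀ s : ↥(P.inertiaSubgroupIn ℚ), s56fo_om p P s = 1 →
        s56fo_co u₁ (n ((s56fo_conjEquiv P hφ s : ↥(P.inertiaSubgroupIn ℚ)) : GQ) *ᵥ u₁) =
          s56fo_psi rb u₀ u₁ φ * s56fo_co u₁ (n (s : GQ) *ᵥ u₁) := by
    intro n hn s hs
    rw [s56fo_conjEquiv_coe]
    refine s56fo_frob_eigen (P.decompositionSubgroup ℚ) (s56fo_psi rb u₀ u₁)
      (fun σ => s56fo_co u₁ (n σ *ᵥ u₁)) hψmul hψ1
      (fun σ hσ τ hτ => s56fo_nu_coc hPeu S hn hσ hτ) hφ (hID s.2) ?_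
    rw [S.psi_I, hs, map_one]
  obtain ⟨κ, κ', x₀, hκ, hdep⟩ := hLam p ↥(ffi_O P ↥(ffi_L P)) ff_Qb P ↥(P.inertiaSubgroupIn ℚ)
    hctx S.hp2 ζ S.hζ (s56fo_om p P) hω hω1 (φ : ff_Qb ≃+* ff_Qb) (s56fo_conjEquiv P hφ)
    hΦA hΦp hΦc k ι₀ (s56fo_psi rb u₀ u₁ φ) hψφ
    (fun s => s56fo_co u₁ (n (s : GQ) *ᵥ u₁)) (fun s => s56fo_co u₁ (n' (s : GQ) *ᵥ u₁))
    (hcocI hn) (hcocI hn') (hfrI hn) (hfrI hn')
    (s56fo_nu_peuK hPeu S hne hn) (s56fo_nu_peuK hPeu S hne hn')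
  -- descent to the decomposition group
  obtain ⟨s₀, hs₀, -⟩ := S.exists_s₀
  have hδ1 : s56fo_psi rb u₀ u₁ (s₀ : GQ) ≠ 1 := by
    rw [S.psi_I]
    intro h
    apply hs₀
    apply (algebraMap (ZMod p) k).injective
    rw [h, map_one]
  obtain ⟨x, hx⟩ := s56fo_descend (P.decompositionSubgroup ℚ) (P.inertiaSubgroupIn ℚ) hID
    (fun σ hσ s hs => by
      have := s56fo_inertia_conj P ((P.decompositionSubgroup ℚ).inv_mem hσ) hs
      rwa [inv_inv] at this)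
    (s56fo_psi rb u₀ u₁) hψmul hψ1
    (fun σ => κ * s56fo_co u₁ (n σ *ᵥ u₁) + κ' * s56fo_co u₁ (n' σ *ᵥ u₁) -
      (s56fo_psi rb u₀ u₁ σ - 1) * x₀)
    (fun σ hσ τ hτ => by
      show κ * s56fo_co u₁ (n (σ * τ) *ᵥ u₁) + κ' * s56fo_co u₁ (n' (σ * τ) *ᵥ u₁) -
        (s56fo_psi rb u₀ u₁ (σ * τ) - 1) * x₀ = _
      rw [s56fo_nu_coc hPeu S hn hσ hτ, s56fo_nu_coc hPeu S hn' hσ hτ, hψmul σ hσ τ hτ]
      ring)
    (fun s hs _ => by
      show κ * s56fo_co u₁ (n s *ᵥ u₁) + κ' * s56fo_co u₁ (n' s *ᵥ u₁) -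
        (s56fo_psi rb u₀ u₁ s - 1) * x₀ = 0
      have h1 := hdep ⟨s, hs⟩
      have h2 := S.psi_I ⟨s, hs⟩
      simp only at h1 h2
      rw [h1, h2, sub_self])
    (s₀ : GQ) s₀.2 hδ1
  refine ⟨κ, κ', x₀ + x, hκ, fun σ hσ => ?_⟩
  have e1 := s56fo_W0_coef S.hu01 (hn.1 σ hσ)
  have e2 := s56fo_W0_coef S.hu01 (hn'.1 σ hσ)
  have e3 : κ * s56fo_co u₁ (n σ *ᵥ u₁) + κ' * s56fo_co u₁ (n' σ *ᵥ u₁) -
      (s56fo_psi rb u₀ u₁ σ - 1) * x₀ = (s56fo_psi rb u₀ u₁ σ - 1) * x := hx σ hσ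
  rw [S.d_gen hσ]
  conv_lhs => rw [e1, e2]
  rw [smul_smul, smul_smul, ← add_smul]
  congr 1
  linear_combination e3

end Main

end Fermat.Agent.S56
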