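/-
Project S56, node [LOC-p-FLAT], cell F-ORD (ordinary case; owner helper1).  Prefix `s56fo_`.
THE ORDINARY CASE IN THE VOCABULARY OF THE CLASSIFICATION (`s56fc_Ord`, Flat/ClassR.lean):
`s56fo_of_ord : s56fc_Ord rb.toMonoidHom P → s56a_LocShape rb D_P (det cyclotomic ∧ flat) 1`.
-/
import Mathlib
import Fermat.Agent.S56.Flat.Ord.Main
import Fermat.Agent.S56.Flat.ClassR

set_option autoImplicit false
set_option linter.unusedSectionVars false

noncomputable section

namespace Fermat.Agent.S56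

open Fermat.Agent.FF Fermat.Agent.S53 Matrix

variable {k : Type} [Field k] {p : ℕ} [Fact p.Prime] [Algebra (ZMod p) k]

/-- **the ordinary branch of [LOC-p-FLAT].** -/
theorem s56fo_of_ord [Finite k] (hp2 : p ≠ 2) (rb : FramedResidual k)
    (P : ValuationSubring ff_Qb) (hP : P.LiesOverPrime p) (h : s56fc_Ord rb.toMonoidHom P) :
    s56a_LocShape rb (P.decompositionSubgroup ℚ)
      (fun r => r.toGaloisRepAdic.DetIsCyclotomic p ∧ r.toGaloisRepAdic.IsFlatAt p) 1 := by
  obtain ⟨u₀, hu, hO⟩ := h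
  refine s56fo_main hp2 rb P hP ⟨u₀, hu, fun s hs v => ?_⟩
  obtain ⟨x, z, -, hz, hI⟩ := hO s (s56fo_inertia_le P hs)
  obtain ⟨t, ht⟩ := hz v
  rw [(hI hs).1, one_smul] at ht
  exact ⟨t, ht⟩

end Fermat.Agent.S56
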